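import Fermat.Agent.Mazur.Descent.Kernel.Expansion
import Fermat.Agent.Mazur.Step3.Cusps
import Fermat.Agent.Mazur.Step3.GaussRep

/-!
# The disc of the cusp `∞`

Over a good place the cusps of `X₀(p)` reduce to two distinct points, the first being the place of
the variable, and `1 / j` is a parameter of the disc of `∞`.
-/

set_option autoImplicit false

noncomputable section

open AlgebraicCurve ModularCurve FermatAgent.Curve FermatAgent.Curve.RR FermatAgent.Curve.Diff
open FermatAgent.JacCharts FermatAgent.JacCharts.GoodReductionDatum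
open FermatAgent.Mazur.Step3 (cInf cZero)

namespace FermatAgent.Mazur.Descent

local notation "Qb" => AlgebraicClosure ℚ

/-- A subfield of Laurent series containing an element of order `1` has the place of the
variable. -/
theorem exists_seriesPlace {k : Type*} [Field k] (Fb : IntermediateField k (LaurentSeries k))
    [IsAlgClosed k] [IsFunctionField1 k Fb] {u : Fb} (hu : (u : LaurentSeries k).order = 1) :
    ∃ s : Place k Fb, ∀ f : Fb, s.ord f = (f : LaurentSeries k).order := by
  have hu0 : (u : LaurentSeries k) ≠ 0 := fun h => by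
    rw [h, HahnSeries.order_zero] at hu
    exact zero_ne_one hu
  have huF : u ≠ 0 := fun h => hu0 (by rw [h]; rfl)
  have hinv : ∀ g : Fb, g ≠ 0 →
      ((g⁻¹ : Fb) : LaurentSeries k).order = -(g : LaurentSeries k).order := fun g hg => by
    have hg' : (g : LaurentSeries k) ≠ 0 := fun h => hg (Subtype.ext h)
    have h := HahnSeries.order_mul hg' (inv_ne_zero hg')
    rw [mul_inv_cancel₀ hg', HahnSeries.order_one] at h
    show ((g : LaurentSeries k)⁻¹).order = _
    omega
  let R : ValuationSubring Fb := (Step3.powerRing k).comap (algebraMap Fb (LaurentSeries k))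
  have hR : ∀ f : Fb, f ∈ R ↔ f = 0 ∨ 0 ≤ (f : LaurentSeries k).order := fun f => by
    rw [ValuationSubring.mem_comap, Step3.mem_powerRing]
    exact ⟨fun h => h.imp_left fun h => Subtype.ext h, fun h => h.imp_left fun h => by rw [h]; rfl⟩
  have hK : ∀ a : k, algebraMap k Fb a ∈ R := fun a => (hR _).2 (by
    rcases eq_or_ne a 0 with rfl | ha
    · exact Or.inl (map_zero _)
    · refine Or.inr ?_
      rw [IntermediateField.coe_algebraMap_apply, algebraMap_laurentSeries_eq_single,
        HahnSeries.order_single ha])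
  have htop : R ≠ ⊤ := fun h => by
    have := (hR u⁻¹).1 (h ▸ ValuationSubring.mem_top _)
    rcases this with h' | h'
    · exact inv_ne_zero huF h'
    · rw [hinv u huF, hu] at h'; omega
  let s : Place k Fb := placeOfValuationSubring R hK htop
  have hnn : ∀ g : Fb, g ≠ 0 → (0 ≤ s.ord g ↔ 0 ≤ (g : LaurentSeries k).order) := fun g hg => by
    rw [← FermatAgent.Curve.mem_iff_ord_nonneg', show s.toValuationSubring = R from rfl, hR]
    simp [hg]
  have hzero : ∀ g : Fb, g ≠ 0 → (g : LaurentSeries k).order = 0 → s.ord g = 0 := by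
    intro g hg h
    have h1 := (hnn g hg).2 (by omega)
    have h2 := (hnn g⁻¹ (inv_ne_zero hg)).2 (by rw [hinv g hg]; omega)
    rw [s.ord_inv] at h2
    omega
  have hmulu : ∀ (g : Fb) (n : ℕ), g ≠ 0 →
      ((g * u ^ n : Fb) : LaurentSeries k).order = (g : LaurentSeries k).order + n := fun g n hg => by
    rw [MulMemClass.coe_mul, SubmonoidClass.coe_pow,
      HahnSeries.order_mul (fun h => hg (Subtype.ext h)) (pow_ne_zero _ hu0),
      HahnSeries.order_pow, hu]
    simp
  have hlin : ∀ g : Fb, s.ord g = (g : LaurentSeries k).order * s.ord u := by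
    intro g
    rcases eq_or_ne g 0 with rfl | hg
    · simp
    rcases le_total 0 (g : LaurentSeries k).order with h | h
    · set n := (g : LaurentSeries k).order.toNat
      have hgi : g * (u ^ n)⁻¹ ≠ 0 := mul_ne_zero hg (inv_ne_zero (pow_ne_zero _ huF))
      have h0 := hzero _ hgi (by
        have := hmulu _ n hgi
        rw [mul_assoc, inv_mul_cancel₀ (pow_ne_zero _ huF), mul_one] at this
        omega)
      rw [s.ord_mul hg (inv_ne_zero (pow_ne_zero _ huF)), s.ord_inv, ← zpow_natCast,
        s.ord_zpow] at h0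
      rw [show (g : LaurentSeries k).order = (n : ℤ) by omega]
      linarith
    · set n := (-(g : LaurentSeries k).order).toNat
      have h0 := hzero (g * u ^ n) (mul_ne_zero hg (pow_ne_zero _ huF)) (by
        rw [hmulu g n hg]; omega)
      rw [s.ord_mul hg (pow_ne_zero _ huF), ← zpow_natCast, s.ord_zpow] at h0
      rw [show (g : LaurentSeries k).order = -(n : ℤ) by omega]
      linarith
  refine ⟨s, fun f => ?_⟩
  obtain ⟨g, -, hg⟩ := FermatAgent.Curve.exists_ord_eq s 1
  have hu1 : 0 ≤ s.ord u := (hnn u huF).2 (by omega)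
  have h2 := hlin g
  rw [hg] at h2
  rw [hlin f, Int.eq_one_of_mul_eq_one_left hu1 h2.symm, mul_one]

variable {p : ℕ} [hp : Fact p.Prime] {A : ValuationSubring Qb} {k : Type*} [Field k] [IsAlgClosed k]
variable {π : A →+* k}
variable {d : GoodReductionDatum A π (modularFunctionFieldBar p) (modularFunctionFieldFullC k p)}
variable [RRSetting Qb (modularFunctionFieldBar p)] [RRSetting k (modularFunctionFieldFullC k p)]
variable [IsFunctionField1 k (modularFunctionFieldFullC k p)]

/-- `j` on the special fibre. -/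
def jRed (k : Type*) [Field k] (p : ℕ) [NeZero p] : modularFunctionFieldFullC k p :=
  ⟨jqModC k, jqModC_mem_full k p⟩

/-- The cusps reduce to distinct points and `1 / j` is a parameter of the disc of `∞`. -/
theorem exists_discParam (hd : d.IsLaurent)
    (hdeg : Module.finrank (IntermediateField.adjoin k {jRed k p})
      (modularFunctionFieldFullC k p) = p + 1) :
    ∃ D : DiscParam d (cInf p),
      d.place (cInf p) ≠ d.place (cZero p) ∧ (D.t : LaurentSeries Qb) = (jqModC Qb)⁻¹ := by
  classical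
  have hlc : (jqModC A).order = -1 := Step3.order_jqModC A
  have hjA : IsUnit (jqModC A) := by
    rw [HahnSeries.isUnit_iff, HahnSeries.leadingCoeff_eq, hlc, coeff_jqModC_neg_one]
    exact isUnit_one
  obtain ⟨uA, huA⟩ := hjA
  set y : LaurentSeries A := ((uA⁻¹ : (LaurentSeries A)ˣ) : LaurentSeries A)
  have hyj : y * jqModC A = 1 := by rw [← huA]; exact uA.inv_mul
  have hyo : y.order = 1 := by
    have hne : y ≠ 0 := uA⁻¹.ne_zero
    have := HahnSeries.order_mul hne (huA ▸ uA.ne_zero : jqModC A ≠ 0)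
    rw [hyj, HahnSeries.order_one, hlc] at this
    omega
  have hjmem : coeffMap A.subtype (jqModC A) = (FermatAgent.ModFun.jBar Qb p : LaurentSeries Qb) := by
    rw [coeffMap_jqModC, FermatAgent.ModFun.coe_jBar]
  obtain ⟨jb, hjb, hjb'⟩ := Step3.redsTo_series (π := π) (d := d) hd (jqModC A)
    (hjmem ▸ (FermatAgent.ModFun.jBar Qb p).2)
  have hjb0 : (jb : LaurentSeries k) = jqModC k := by rw [hjb', coeffMap_jqModC]
  have hjbF : jb = jRed k p := Subtype.ext hjb0
  rw [show (⟨coeffMap A.subtype (jqModC A), _⟩ : modularFunctionFieldBar p) =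
    FermatAgent.ModFun.jBar Qb p from Subtype.ext hjmem] at hjb
  set j := FermatAgent.ModFun.jBar Qb p
  have hjb_ne : jb ≠ 0 := fun h => jqModC_ne_zero_of_nontrivial k (by rw [← hjb0, h]; rfl)
  have hj_ne : j ≠ 0 := hjb.ne_zero hjb_ne
  -- the place of the variable
  have hjbo : (jb : LaurentSeries k).order = -1 := by rw [hjb0, Step3.order_jqModC]
  have hu : ((jb⁻¹ : modularFunctionFieldFullC k p) : LaurentSeries k).order = 1 := by
    have hne : (jb : LaurentSeries k) ≠ 0 := fun h => hjb_ne (Subtype.ext h)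
    have h := HahnSeries.order_mul hne (inv_ne_zero hne)
    rw [mul_inv_cancel₀ hne, HahnSeries.order_one] at h
    show ((jb : LaurentSeries k)⁻¹).order = _
    omega
  obtain ⟨s, hs⟩ := exists_seriesPlace _ hu
  have hsj : s.ord jb = -1 := by rw [hs, hjbo]
  set Qi := d.place (cInf p)
  set Q0 := d.place (cZero p)
  have hred : ∀ Q, jb ≠ 0 → Q.ord jb =
      ∑ P ∈ (divOf (K := Qb) j).support.filter (fun P => d.place P = Q),
        divOf (K := Qb) j P := fun Q h0 => by
    rw [← divOf_apply (K := k) h0 Q, ← hjb.redDiv_divOf h0, redDiv_apply_eq_sum]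
  -- poles only over the cusps
  have hlow : ∀ Q, Q.ord jb < 0 → Q = Qi ∨ Q = Q0 := by
    intro Q hQ
    by_contra! hne
    rw [hred Q hjb_ne] at hQ
    refine absurd hQ (not_lt.2 (Finset.sum_nonneg fun P hP => ?_))
    rw [divOf_apply hj_ne]
    by_contra hlt
    rcases Step3.eq_cInf_or_cZero p (P := P) (not_le.1 hlt) with h | h
    · exact hne.1 (by rw [← (Finset.mem_filter.1 hP).2, h])
    · exact hne.2 (by rw [← (Finset.mem_filter.1 hP).2, h])
  -- the number of poles
  have htr : Transcendental k jb := transcendental_of_ord_ne_zero s (by rw [hsj]; norm_num)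
  have hsum := FermatAgent.Curve.sum_ord_poles (K := k) htr
  rw [hjbF, hdeg, ← hjbF] at hsum
  have hpos : ∀ v ∈ zerosFinset (K := k) jb⁻¹, v = Qi ∨ v = Q0 := fun v hv => by
    rw [mem_zerosFinset, v.ord_inv] at hv
    exact hlow v (by omega)
  have hp2 : 2 ≤ p := hp.out.two_le
  have hs' := hlow s (by rw [hsj]; norm_num)
  have hne : Qi ≠ Q0 := by
    intro heq
    have hsub : zerosFinset (K := k) jb⁻¹ ⊆ {s} := fun v hv => by
      rw [Finset.mem_singleton]
      rcases hpos v hv with h | h <;> rcases hs' with h' | h' <;> simp [h, h', heq]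
    have := Finset.sum_le_sum_of_subset_of_nonneg hsub
      (f := fun v => -v.ord jb) (fun v hv _ => by
        rw [Finset.mem_singleton.1 hv, hsj]; norm_num)
    rw [hsum, Finset.sum_singleton, hsj] at this
    omega
  -- lower bounds at the two points
  have hbound : ∀ P₁ : Place Qb (modularFunctionFieldBar p),
      ∀ P₂ : Place Qb (modularFunctionFieldBar p), d.place P₁ ≠ d.place P₂ →
      (∀ P, P.ord j < 0 → P = P₁ ∨ P = P₂) → P₁.ord j < 0 →
      ∀ P, d.place P = d.place P₁ → P ≠ P₁ → 0 ≤ P.ord j := by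
    intro P₁ P₂ h12 hall _ P hP hne'
    by_contra hlt
    rcases hall P (not_le.1 hlt) with h | h
    · exact hne' h
    · exact h12 (by rw [← hP, h])
  have hall : ∀ P : Place Qb (modularFunctionFieldBar p), P.ord j < 0 → P = cInf p ∨ P = cZero p :=
    fun P hP => Step3.eq_cInf_or_cZero p hP
  have hsplit : ∀ P₁ P₂ : Place Qb (modularFunctionFieldBar p), d.place P₁ ≠ d.place P₂ →
      (∀ P, P.ord j < 0 → P = P₁ ∨ P = P₂) → P₁.ord j < 0 →
      ∃ S : ℤ, 0 ≤ S ∧ (d.place P₁).ord jb = P₁.ord j + S ∧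
        (S = 0 → ∀ P, d.place P = d.place P₁ → P ≠ P₁ → P.ord j = 0) := by
    intro P₁ P₂ h12 hcusps hneg
    set T := (divOf (K := Qb) j).support.filter (fun P => d.place P = d.place P₁)
    have hmem : P₁ ∈ T := Finset.mem_filter.2 ⟨Finsupp.mem_support_iff.2 (by
      rw [divOf_apply hj_ne]; omega), rfl⟩
    have hnn : ∀ P ∈ T.erase P₁, 0 ≤ divOf (K := Qb) j P := fun P hP => by
      rw [Finset.mem_erase, Finset.mem_filter] at hP
      rw [divOf_apply hj_ne]
      exact hbound P₁ P₂ h12 hcusps hneg P hP.2.2 hP.1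
    refine ⟨∑ P ∈ T.erase P₁, divOf (K := Qb) j P, Finset.sum_nonneg hnn, ?_, fun h0 P hP hne' => ?_⟩
    · rw [hred _ hjb_ne, ← Finset.add_sum_erase _ _ hmem, divOf_apply hj_ne]
    · by_cases hPT : P ∈ T.erase P₁
      · have := (Finset.sum_eq_zero_iff_of_nonneg hnn).1 h0 P hPT
        rwa [divOf_apply hj_ne] at this
      · rw [Finset.mem_erase, Finset.mem_filter, Finsupp.mem_support_iff, divOf_apply hj_ne] at hPT
        push Not at hPT
        exact by_contra fun h => (hPT hne' h) hP
  obtain ⟨Si, hSi, hoi, hSi0⟩ := hsplit (cInf p) (cZero p) hne hall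
    (by rw [Step3.ord_cInf_jBar]; norm_num)
  obtain ⟨S0, hS0, ho0, -⟩ := hsplit (cZero p) (cInf p) hne.symm (fun P hP => (hall P hP).symm)
    (by rw [Step3.ord_cZero_jBar]; omega)
  rw [Step3.ord_cInf_jBar] at hoi
  rw [Step3.ord_cZero_jBar] at ho0
  have hle : (p : ℤ) + 1 ≤ (if Qi.ord jb < 0 then -Qi.ord jb else 0) +
      (if Q0.ord jb < 0 then -Q0.ord jb else 0) := by
    have hsub : zerosFinset (K := k) jb⁻¹ ⊆ {Qi, Q0} := fun v hv => by
      rcases hpos v hv with h | h <;> simp [h]
    calc (p : ℤ) + 1 = ∑ v ∈ zerosFinset (K := k) jb⁻¹, -v.ord jb := by rw [hsum]; push_cast; ring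
      _ ≤ ∑ v ∈ zerosFinset (K := k) jb⁻¹, (if v.ord jb < 0 then -v.ord jb else 0) :=
          Finset.sum_le_sum fun v _ => by split <;> omega
      _ ≤ ∑ v ∈ ({Qi, Q0} : Finset _), (if v.ord jb < 0 then -v.ord jb else 0) :=
          Finset.sum_le_sum_of_subset_of_nonneg hsub fun v _ _ => by split <;> omega
      _ = _ := Finset.sum_pair hne
  have hSi' : Si = 0 ∧ S0 = 0 := by
    simp only [Qi, Q0] at hle
    split_ifs at hle <;> omega
  have hsQ : s = Qi := hs'.resolve_right fun h => by
    rw [h] at hsj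
    rw [hsj] at ho0
    omega
  refine ⟨⟨fun f => Step3.ord_cInf p f, fun f => ?_, j⁻¹, jb⁻¹, jqModC A, y, ?_, ⟨?_, ?_⟩, ?_, ?_,
    ?_, fun P hP hP' => ?_⟩, hne, ?_⟩
  · show Qi.ord f = _
    rw [← hsQ]; exact hs f
  · exact redsTo_inv hjb hjb_ne
  · refine eq_inv_of_mul_eq_one_left ?_
    rw [← hjmem, ← map_mul, hyj, map_one]
  · refine eq_inv_of_mul_eq_one_left ?_
    rw [hjb', ← map_mul, hyj, map_one]
  · exact hyj
  · exact hyo
  · rw [Place.ord_inv, Step3.ord_cInf_jBar]; norm_num
  · rw [Place.ord_inv, hSi0 hSi'.1 P hP hP', neg_zero]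
  · rfl

end FermatAgent.Mazur.Descent

end
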