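import Fermat.Agent.Mazur.Descent.Kernel.Holo
import Fermat.Agent.Mazur.Step3.Cusps
import Fermat.Agent.Curve.Diff.LocalTrace
import Fermat.Agent.ModCurve.Fun.BaseChange
import Fermat.Prelude.Def_FLTPrelim_Modularity

/-!
# Polar parts at `∞` against cusp forms

If `G` has no pole outside the cusp `∞` then the trace to level one of `G f` is a weakly
holomorphic form of weight two, so its constant term, the pairing of the polar part of `G`
with the coefficients of `f`, vanishes.
-/

set_option autoImplicit false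

noncomputable section

open AlgebraicCurve ModularCurve CongruenceSubgroup
open FermatAgent.Curve.Diff
open UpperHalfPlane hiding I
open Filter Topology
open scoped Real MatrixGroups ModularForm Manifold

namespace FermatAgent.Mazur.Descent

local notation "Qb" => AlgebraicClosure ℚ

namespace Pair

open FermatAgent.ModFun (cuspRing qLaurent qLaurentHom levelRing toLS)
open FermatAgent.ModCurve.Forms (IsCF Cosets tr tr_slash tr_one isCF_coe)

theorem periodic_of_slash_T {F : ℍ → ℂ} (h : F ∣[(2 : ℤ)] ModularGroup.T = F) (τ : ℍ) :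
    F ((1 : ℝ) +ᵥ τ) = F τ := by
  have := congrFun h τ
  rw [ModularForm.SL_slash_apply, modular_T_smul] at this
  simpa [denom, ModularGroup.coe_T] using this

/-- The constant term of `f g` vanishes, for `g` holomorphic and bounded away from `∞`. -/
theorem coeff_zero_mul {p : ℕ} [NeZero p] {f : ℍ → ℂ} (hf : IsCF (Gamma0 p) 2 f)
    (v : levelRing p)
    (hv : ∀ γ : SL(2, ℤ), γ ∉ Gamma0 p → IsBoundedAtImInfty fun τ : ℍ => (v : ℍ → ℂ) (γ • τ)) :
    (qLaurent (f * (v : ℍ → ℂ))).coeff 0 = 0 := by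
  classical
  set H : ℍ → ℂ := f * (v : ℍ → ℂ) with hH
  have hslash : ∀ γ : SL(2, ℤ), H ∣[(2 : ℤ)] γ =
      (f ∣[(2 : ℤ)] γ) * fun τ : ℍ => (v : ℍ → ℂ) (γ • τ) := fun γ => by
    funext τ
    simp only [hH, ModularForm.SL_slash_apply, Pi.mul_apply]
    ring
  have hHinv : ∀ γ ∈ Gamma0 p, H ∣[(2 : ℤ)] γ = H := fun γ hγ => by
    rw [hslash, hf.inv γ hγ, hH]
    exact congrArg (f * ·) (funext fun τ => v.2.2.1 γ hγ τ)
  have hfm : f ∈ cuspRing :=
    ⟨hf.holo, periodic_of_slash_T (hf.inv _ (FermatAgent.ModFun.T_mem_Gamma0 p)),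
      .of_bounded hf.toIsMF.bounded⟩
  have hHm : H ∈ cuspRing := mul_mem hfm (FermatAgent.ModFun.levelRing_le_cuspRing p v.2)
  have htr : ∀ x : Cosets (Gamma0 p), tr 2 H x =
      tr 2 f x * fun τ : ℍ => (v : ℍ → ℂ) ((x.out)⁻¹ • τ) := fun x => hslash _
  set Tr : ℍ → ℂ := ∑ x : Cosets (Gamma0 p), tr 2 H x with hTr
  have hTinv : ∀ γ : SL(2, ℤ), Tr ∣[(2 : ℤ)] γ = Tr := fun γ => by
    rw [hTr, SlashAction.sum_slash]
    simp only [tr_slash hHinv]
    exact Equiv.sum_comp (MulAction.toPerm γ⁻¹ : Equiv.Perm (Cosets (Gamma0 p))) fun x => tr 2 H x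
  set x₀ : Cosets (Gamma0 p) := QuotientGroup.mk 1
  set R : ℍ → ℂ := ∑ x ∈ Finset.univ.erase x₀, tr 2 H x with hR
  have hsum : Tr = H + R := by
    rw [hTr, hR, ← Finset.add_sum_erase _ _ (Finset.mem_univ x₀), tr_one hHinv]
  have hz : ∀ x ≠ x₀, IsZeroAtImInfty (tr 2 H x) := fun x hx => by
    have hout : (x.out)⁻¹ ∉ Gamma0 p := fun hmem => hx (by
      rw [← QuotientGroup.out_eq' x, QuotientGroup.eq, mul_one]
      exact hmem)
    rw [htr x]
    exact (hf.tr_isZeroAtImInfty x).zero_mul_isBoundedUnder_le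
      (Asymptotics.IsBigO.isBoundedUnder_le (hv _ hout))
  have hRz : IsZeroAtImInfty R := by
    have := tendsto_finsetSum (a := fun _ => (0 : ℂ)) (Finset.univ.erase x₀)
      fun x hx => hz x (Finset.ne_of_mem_erase hx)
    simp only [Finset.sum_const_zero] at this
    exact this.congr fun τ => by simp [hR]
  have hRd : MDiff R := by
    refine Finset.sum_induction _ (fun F : ℍ → ℂ => MDiff F) (fun _ _ ha hb => ha.add hb)
      mdifferentiable_const fun x _ => ?_
    rw [htr x]
    exact (hf.toIsMF.tr_holo x).mul (FermatAgent.ModFun.mdiff_comp_smul v.2.1 _)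
  have hRm : R ∈ cuspRing := by
    refine ⟨hRd, fun τ => ?_, .of_bounded hRz.isBoundedAtImInfty⟩
    have h1 := periodic_of_slash_T (hTinv ModularGroup.T) τ
    rw [hsum, Pi.add_apply, Pi.add_apply, hHm.2.1] at h1
    exact add_left_cancel h1
  have hTm : Tr ∈ cuspRing := hsum ▸ add_mem hHm hRm
  have h0 : (qLaurent Tr).coeff 0 = 0 :=
    coeff_zero_eq_zero (-(qLaurent Tr).order).toNat hTm hTinv fun i hi =>
      HahnSeries.coeff_eq_zero_of_lt_order (by omega)
  rwa [hsum, qLaurent_add hHm hRm, HahnSeries.coeff_add, coeff_zero_of_isZero hRm hRz,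
    add_zero] at h0

/-- The constant term of the product of a power series and a Laurent series. -/
theorem coeff_zero_toLS_mul (a : PowerSeries ℂ) (ha : a.coeff 0 = 0) (s : LaurentSeries ℂ)
    (M : ℕ) (hs : ∀ n : ℤ, n < -(M : ℤ) → s.coeff n = 0) :
    (toLS a * s).coeff 0 = ∑ n ∈ Finset.Icc 1 M, a.coeff n * s.coeff (-(n : ℤ)) := by
  set t : PowerSeries ℂ := PowerSeries.mk fun j => s.coeff ((j : ℤ) - M) with ht
  have hst : s = toLS t * HahnSeries.single (-(M : ℤ)) 1 := by
    ext i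
    rw [HahnSeries.coeff_mul_single, mul_one, sub_neg_eq_add]
    rcases lt_or_ge (i + M) 0 with hi | hi
    · rw [hs i (by omega)]
      exact (ModularCurve.ofPowerSeries_coeff_of_neg _ hi).symm
    · obtain ⟨j, hj⟩ := Int.eq_ofNat_of_zero_le hi
      rw [hj, toLS, HahnSeries.ofPowerSeries_apply_coeff, ht, PowerSeries.coeff_mk]
      congr 1
      omega
  have hprod : (toLS a * s).coeff 0 = (a * t).coeff M := by
    rw [hst, ← mul_assoc, ← map_mul, HahnSeries.coeff_mul_single, mul_one, sub_neg_eq_add,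
      zero_add]
    exact HahnSeries.ofPowerSeries_apply_coeff _ _
  rw [hprod, PowerSeries.coeff_mul, Finset.Nat.sum_antidiagonal_eq_sum_range_succ
    (fun i j => a.coeff i * t.coeff j)]
  symm
  rw [Finset.sum_subset (s₂ := Finset.range (M + 1))
    (fun n hn => Finset.mem_range.2 (by have := (Finset.mem_Icc.1 hn).2; omega))
    (fun n hn hn' => by
      have : n = 0 := by
        by_contra h
        exact hn' (Finset.mem_Icc.2 ⟨by omega, by have := Finset.mem_range.1 hn; omega⟩)
      rw [this, ha, zero_mul])]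
  refine Finset.sum_congr rfl fun n hn => ?_
  rw [ht, PowerSeries.coeff_mk]
  have := Finset.mem_range.1 hn
  congr 2
  omega

end Pair

/-- The residue theorem for `G f dq/q` when `G` has no pole outside the cusp `∞`: the polar part
of `G` at `∞` is orthogonal to the coefficients of every cusp form. -/
theorem qCoeff_pairing_eq_zero {p : ℕ} [Fact p.Prime] (f : CuspForm (Gamma0 p) 2)
    (G : modularFunctionFieldBar p)
    (hG : ∀ P : Place Qb (modularFunctionFieldBar p), P ≠ Step3.cInf p → OrdGE P 0 G)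
    (M : ℕ) (hM : ∀ n : ℤ, n < -(M : ℤ) → (G : LaurentSeries Qb).coeff n = 0) :
    ∑ n ∈ Finset.Icc 1 M, ModularFormClass.qCoeff (f : UpperHalfPlane → ℂ) n *
      FermatAgent.ModFun.qbarToC ((G : LaurentSeries Qb).coeff (-(n : ℤ))) = 0 := by
  obtain ⟨v, hv, hvb⟩ := Pair.exists_levelRing_of_ordGE G hG
  have hf : FermatAgent.ModCurve.Forms.IsCF (Gamma0 p) 2 (f : ℍ → ℂ) :=
    FermatAgent.ModCurve.Forms.isCF_coe f
  have hfm : (f : ℍ → ℂ) ∈ FermatAgent.ModFun.cuspRing :=
    ⟨hf.holo, Pair.periodic_of_slash_T (hf.inv _ (FermatAgent.ModFun.T_mem_Gamma0 p)),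
      .of_bounded hf.toIsMF.bounded⟩
  have hf0 : IsZeroAtImInfty (f : ℍ → ℂ) := by simpa using hf.zero 1
  have h := Pair.coeff_zero_mul hf v hvb
  have hmul : FermatAgent.ModFun.qLaurent ((f : ℍ → ℂ) * (v : ℍ → ℂ)) =
      FermatAgent.ModFun.toLS (qExpansion 1 (f : ℍ → ℂ)) *
        coeffMap (FermatAgent.ModFun.qbarToC : Qb →+* ℂ) (G : LaurentSeries Qb) := by
    rw [← hv, ← FermatAgent.ModFun.qLaurent_of_bounded hfm hf0.isBoundedAtImInfty]
    exact map_mul FermatAgent.ModFun.qLaurentHom (⟨_, hfm⟩ : FermatAgent.ModFun.cuspRing)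
      ⟨_, FermatAgent.ModFun.levelRing_le_cuspRing p v.2⟩
  rw [hmul, Pair.coeff_zero_toLS_mul _ (by
      rw [UpperHalfPlane.qExpansion_coeff_zero one_pos
        (FermatAgent.ModFun.analyticAt_cuspFunction_of_mem hfm hf0.isBoundedAtImInfty)
        (FermatAgent.ModFun.periodic_iff.mpr hfm.2.1), hf0.valueAtInfty_eq_zero]) _ M
    fun n hn => by rw [coeffMap_coeff, hM n hn, map_zero]] at h
  exact h

end FermatAgent.Mazur.Descent

end
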