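import Fermat.Agent.Mazur.Descent.Kernel.Coeffs
import Fermat.Agent.Mazur.Descent.Kernel.Infinity
import Fermat.Agent.Mazur.Descent.Kernel.Pairing
import Fermat.Agent.ModCurve.Points.GenusBar

/-!
# The number of `l`-torsion classes with canonical scalar `ϖ ^ l`

They inject into the fixed vectors of `x ↦ M x^(l)`, `M` the matrix of `T_l` on integral forms
modulo `l`, so there are at most `l ^ rank (M ^ n)` of them.
-/

set_option autoImplicit false

noncomputable section

open AlgebraicCurve ModularCurve FermatAgent.Curve FermatAgent.Curve.RR FermatAgent.Curve.Diff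
open FermatAgent.JacCharts FermatAgent.JacCharts.GoodReductionDatum
open FermatAgent.Mazur.Step3 (cInf cZero)

namespace FermatAgent.Mazur.Descent

local notation "Qb" => AlgebraicClosure ℚ

variable {p : ℕ} [hp : Fact p.Prime] {A : ValuationSubring Qb} {k : Type*} [Field k] [IsAlgClosed k]
variable {π : A →+* k} {l : ℕ} [Fact l.Prime] [CharP k l]
variable {d : GoodReductionDatum A π (modularFunctionFieldBar p) (modularFunctionFieldFullC k p)}
variable [RRSetting Qb (modularFunctionFieldBar p)] [RRSetting k (modularFunctionFieldFullC k p)]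
variable [IsFunctionField1 k (modularFunctionFieldFullC k p)]

omit [IsAlgClosed k] [IsFunctionField1 k (modularFunctionFieldFullC k p)] in
/-- Functions of the special fibre regular off the cusp are orthogonal to integral forms. -/
theorem polarPairing_eq_zero_of_free (D : DiscParam d (cInf p))
    {Gb : modularFunctionFieldFullC k p}
    (hGb : ∀ Q, Q ≠ d.place (cInf p) → OrdGE Q 0 Gb) : polarPairing (coeffVec p k) Gb = 0 := by
  classical
  set Qi := d.place (cInf p)
  obtain ⟨M₀, hM₀⟩ := exists_pole_bound Gb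
  set M := max M₀ (2 * genusFF Qb (modularFunctionFieldBar p)) with hM
  let E : Divisor Qb (modularFunctionFieldBar p) := Finsupp.single (cInf p) (M : ℤ)
  have hred : d.redDiv E = Finsupp.single Qi (M : ℤ) := by
    rw [Finsupp.mapDomain.addMonoidHom_apply, Finsupp.mapDomain_single]
  have hmem : Gb ∈ riemannRochSpace (d.redDiv E) := by
    refine mem_riemannRochSpace_iff.2 fun Q => ?_
    rw [hred]
    rcases eq_or_ne Q Qi with rfl | hQ
    · refine (ordGE_of_coeff D.ord_red (m := -(M : ℤ)) fun n hn => hM₀ n (by omega)).imp_right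
        fun h => by simpa using h
    · exact (hGb Q hQ).imp_right fun h => by simpa [Finsupp.single_eq_of_ne hQ] using h
  obtain ⟨G, hG, hGr⟩ := d.exists_redsTo_of_mem_L (G := E)
    (by rw [Curve.RR.degree_single]; omega) hmem
  have hGreg : ∀ P, P ≠ cInf p → OrdGE P 0 G := fun P hP =>
    ((mem_riemannRochSpace_iff.1 hG) P).imp_right fun h => by
      simpa [E, Finsupp.single_eq_of_ne hP] using h
  have hGM : ∀ n : ℤ, n < -(M : ℤ) → (G : LaurentSeries Qb).coeff n = 0 := fun n hn => by
    rcases (mem_riemannRochSpace_iff.1 hG) (cInf p) with h | h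
    · simp [h]
    · refine HahnSeries.coeff_eq_zero_of_lt_order ?_
      rw [← Step3.ord_cInf]
      simp only [E, Finsupp.single_eq_same] at h
      omega
  have hGbM : ∀ n : ℤ, n < -(M : ℤ) → (Gb : LaurentSeries k).coeff n = 0 :=
    fun n hn => hM₀ n (by omega)
  rw [polarPairing_eq_sum _ _ hGbM]
  choose a ha hπa using fun n : ℕ => D.coeff_of_pole hGr (fun P _ hP => hGreg P hP) (-(n : ℤ))
  funext j
  have h0 := qCoeff_pairing_eq_zero (formBasis p j).1 G hGreg M hGM
  set S : A := ∑ n ∈ Finset.range (M + 1), (intCoeff p (formBasis p j) n : A) * a n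
  have hS : (S : Qb) = 0 := by
    refine (map_eq_zero FermatAgent.ModFun.qbarToC).1 ?_
    rw [show (S : Qb) = ∑ n ∈ Finset.range (M + 1), (intCoeff p (formBasis p j) n : Qb) * (a n : Qb)
      by simp [S], map_sum]
    simp only [map_mul, map_intCast, intCoeff_spec]
    have hset : Finset.range (M + 1) = insert 0 (Finset.Icc 1 M) := by
      ext i; simp only [Finset.mem_range, Finset.mem_insert, Finset.mem_Icc]; omega
    rw [hset, Finset.sum_insert (by simp), DSLift.qCoeff_zero_index, zero_mul, zero_add]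
    refine Eq.trans (Finset.sum_congr rfl fun n _ => ?_) h0
    rw [← ha]
  have hπS : π S = 0 := by rw [show S = 0 from Subtype.ext hS, map_zero]
  rw [map_sum] at hπS
  rw [Finset.sum_apply, Pi.zero_apply, ← hπS]
  refine Finset.sum_congr rfl fun n _ => ?_
  rw [Pi.smul_apply, map_mul, map_intCast, hπa, smul_eq_mul, mul_comm]
  rfl

/-- At most `l ^ rank (M ^ n)` classes have canonical scalar `ϖ ^ l`. -/
theorem natCard_le_of_scalar (hd : d.IsLaurent)
    (hdeg : Module.finrank (IntermediateField.adjoin k {jRed k p})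
      (modularFunctionFieldFullC k p) = p + 1)
    (hlp : ¬ l ∣ p) {ϖ : A} (hϖ : (ϖ : Qb) ^ (l - 1) = -(l : Qb)) (B : Base d (cInf p))
    (W : AddSubgroup (Pic0 Qb (modularFunctionFieldBar p)))
    (hW : ∀ z ∈ W, d.redPic0 z = 0 ∧ l • z = 0)
    (hWe : ∀ z ∈ W, ∀ C : Canon B l z, A.valuation (C.e : Qb) = A.valuation ((ϖ : Qb) ^ l))
    (n : ℕ) : Finite W ∧ Nat.card W ≤ l ^ (heckeMat (N := p) hlp ^ n).rank := by
  classical
  have hl : l.Prime := Fact.out
  obtain ⟨D, -, -⟩ := exists_discParam hd hdeg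
  set Qi := d.place (cInf p)
  have hl0 : (l : Qb) ≠ 0 := Nat.cast_ne_zero.2 hl.ne_zero
  have hlsub : l - 1 ≠ 0 := by have := hl.two_le; omega
  have hϖ0 : (ϖ : Qb) ≠ 0 := fun h => by
    rw [h, zero_pow hlsub, zero_eq_neg] at hϖ
    exact hl0 hϖ
  have hπϖ : π ϖ = 0 := by
    have h : (π ϖ) ^ (l - 1) = 0 := by
      rw [← map_pow, show ϖ ^ (l - 1) = -(l : A) from Subtype.ext (by simpa using hϖ), map_neg,
        map_natCast, CharP.cast_eq_zero, neg_zero]
    exact eq_zero_of_pow_eq_zero h
  have hfin : Module.finrank k (FormIdx p → k) = genusFF k (modularFunctionFieldFullC k p) := by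
    rw [Module.finrank_pi, card_formIdx, d.genus_eq]
    have h1 := FermatAgent.ModCurve.Points.genusFF_bar p
    have h2 := FermatAgent.ModCurve.Forms.finrank_cuspForm_two p
    exact_mod_cast h2.trans h1.symm
  have hker : ∀ G : modularFunctionFieldFullC k p,
      (∀ Q, Q ≠ Qi → OrdGE Q (-d.redDiv B.S Q) G) → polarPairing (coeffVec p k) G = 0 →
      ∃ G₀, (∀ Q, Q ≠ Qi → OrdGE Q 0 G₀) ∧ OrdGE Qi 0 (G - G₀) := fun G _ h0 =>
    exists_sub_regular_of_polarPairing_eq_zero D.ord_red _ (coeffVec_zero p k)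
      (span_coeffVec p l k) hfin (fun G hG => polarPairing_eq_zero_of_free D hG) G h0
  let s : Finset (Place k (modularFunctionFieldFullC k p)) := (d.redDiv B.S).support
  have hs1 : ∀ Q, Q ∈ s ↔ d.redDiv B.S Q = 1 := fun Q => by
    rw [Finsupp.mem_support_iff]
    have h1 := B.le_one Q
    have h2 : 0 ≤ d.redDiv B.S Q := by
      simpa using Finsupp.le_def.1 (redDiv_nonneg (d := d) B.nonneg) Q
    omega
  have hsi : Qi ∉ s := by rw [Finsupp.mem_support_iff, not_not]; exact B.avoid
  have hsurj : ∀ c : Place k (modularFunctionFieldFullC k p) → modularFunctionFieldFullC k p,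
      (∀ Q, d.redDiv B.S Q = 1 → OrdGE Q (-1) (c Q)) →
      ∃ G, (∀ Q, Q ≠ Qi → OrdGE Q (-d.redDiv B.S Q) G) ∧
        ∀ Q, d.redDiv B.S Q = 1 → OrdGE Q 0 (G - c Q) := by
    intro c hc
    obtain ⟨G, h1, h2, h3⟩ := exists_prescribed_polar s hsi c fun Q hQ => hc Q ((hs1 Q).1 hQ)
    refine ⟨G, fun Q hQ => ?_, fun Q hQ => h3 Q ((hs1 Q).2 hQ)⟩
    by_cases hQs : Q ∈ s
    · rw [(hs1 Q).1 hQs]; exact h2 Q hQs
    · rw [Finsupp.notMem_support_iff.1 hQs, neg_zero]; exact h1 Q hQ hQs
  obtain ⟨ψ, hψ, hfix⟩ := exists_injective_fixed hl hϖ hπϖ hϖ0 B (polarPairing (coeffVec p k))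
    (semiMap (heckeMat (N := p) hlp))
    (fun G hG => polarPairing_eq_zero_of_regular D.ord_red _ (coeffVec_zero p k) hG)
    (fun G hG => polarPairing_eq_zero_of_free D hG) hker
    (fun G => polarPairing_pow p hlp G)
    (by
      funext i
      simp [semiMap, zero_pow hl.ne_zero, Matrix.mulVec, dotProduct])
    hsurj W hW hWe
  obtain ⟨hfinS, hcard⟩ := card_fixed_le (k := k) (heckeMat (N := p) hlp) n
  have : Finite {x : FormIdx p → k // semiMap (heckeMat (N := p) hlp) x = x} := hfinS.to_subtype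
  let f : W → {x : FormIdx p → k // semiMap (heckeMat (N := p) hlp) x = x} := fun z => ⟨ψ z, hfix z⟩
  have hf : Function.Injective f := fun a b h => hψ (congrArg Subtype.val h)
  exact ⟨Finite.of_injective f hf, (Nat.card_le_card_of_injective f hf).trans hcard⟩

end FermatAgent.Mazur.Descent

end
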