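import Fermat.Agent.JacCharts.Basic
import Fermat.Agent.Curve.Diff.LocalTrace
import Fermat.Agent.ModCurve.Fun.Instances

/-!
# Integral functions near a point of the reduction

Complements on a good reduction datum: powers and inverses of reductions, the deviation of a
function from a constant, orders of reductions, and parameters in a residue disc.
-/

set_option autoImplicit false

noncomputable section

open AlgebraicCurve FermatAgent.Curve FermatAgent.Curve.RR FermatAgent.Curve.Diff
open FermatAgent.JacCharts FermatAgent.JacCharts.GoodReductionDatum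

namespace FermatAgent.Mazur.Descent

variable {K : Type*} [Field K] {A : ValuationSubring K} {k : Type*} [Field k] {π : A →+* k}
variable {F : Type*} [Field F] [Algebra K F] {Fb : Type*} [Field Fb] [Algebra k Fb]
variable {d : GoodReductionDatum A π F Fb}

theorem redsTo_pow {f : F} {fb : Fb} (h : d.RedsTo f fb) (n : ℕ) : d.RedsTo (f ^ n) (fb ^ n) := by
  induction n with
  | zero => simpa using redsTo_one
  | succ n ih => rw [pow_succ, pow_succ]; exact ih.mul h

/-- An integral function with nonzero reduction has integral inverse. -/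
theorem redsTo_inv {f : F} {fb : Fb} (h : d.RedsTo f fb) (hfb : fb ≠ 0) :
    d.RedsTo f⁻¹ fb⁻¹ := by
  have hf : f ≠ 0 := h.ne_zero hfb
  obtain ⟨c, hc0, gb, hgb, hg⟩ := d.exists_scale (inv_ne_zero hf)
  have hprod : d.RedsTo (algebraMap K F c) (gb * fb) := by
    have h' := hg.mul h
    rwa [Algebra.smul_def, mul_assoc, inv_mul_cancel₀ hf, mul_one] at h'
  have hcA : c ∈ A := by
    by_contra hc
    obtain ⟨a, ha, ha0⟩ := d.inv_mem_of_notMem hc
    have h1 : d.RedsTo ((a : K) • algebraMap K F c) (π a • (gb * fb)) := hprod.smul a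
    rw [ha0, zero_smul, ha, Algebra.smul_def, ← map_mul, inv_mul_cancel₀ hc0, map_one] at h1
    exact one_ne_zero (redsTo_one.unique h1)
  have hunit : π ⟨c, hcA⟩ ≠ 0 := fun h0 => by
    have := (redsTo_algebraMap (d := d) ⟨c, hcA⟩).unique hprod
    rw [h0, map_zero] at this
    exact mul_ne_zero hgb hfb this.symm
  obtain ⟨u, hu⟩ := (d.isUnit_iff_pi_ne_zero ⟨c, hcA⟩).2 hunit
  have huc : ((u⁻¹ : Aˣ) : K) * c = 1 := by
    have h' : ((u⁻¹ : Aˣ) : A) * ⟨c, hcA⟩ = 1 := by rw [← hu]; simp
    exact congrArg Subtype.val h'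
  have h2 := hg.smul ((u⁻¹ : Aˣ) : A)
  rw [smul_smul, huc, one_smul] at h2
  have h3 := h2.mul h
  rw [inv_mul_cancel₀ hf] at h3
  rwa [eq_inv_of_mul_eq_one_left (redsTo_one.unique h3).symm] at h2

theorem redsTo_div {f g : F} {fb gb : Fb} (hf : d.RedsTo f fb) (hg : d.RedsTo g gb)
    (hgb : gb ≠ 0) : d.RedsTo (f / g) (fb / gb) := by
  simpa [div_eq_mul_inv] using hf.mul (redsTo_inv hg hgb)

include d in
theorem pi_eq_zero_iff_val_lt (a : A) : π a = 0 ↔ A.valuation (a : K) < 1 := by
  rw [d.pi_eq_zero_iff]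
  exact ValuationSubring.valuation_lt_one_iff A a

/-- A function reducing to `1` which is not constant deviates from a constant by a scalar times a
function with non-constant reduction. -/
theorem exists_dev {f : F} (hf : d.RedsTo f 1) (hnc : f ∉ Set.range (algebraMap K F)) :
    ∃ (c e : A) (h : F) (H : Fb), π c = 1 ∧ π e = 0 ∧ (e : K) ≠ 0 ∧
      f = algebraMap K F (c : K) + algebraMap K F (e : K) * h ∧ d.RedsTo h H ∧
      H ∉ Set.range (algebraMap k Fb) ∧ h ∈ Submodule.span K {(1 : F), f} := by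
  classical
  let V : Submodule K F := Submodule.span K {(1 : F), f}
  have hfin : Module.Finite K V := Module.Finite.span_of_finite K (Set.toFinite _)
  obtain ⟨b, hb, hind⟩ := d.exists_orthBasis V hfin
  have hli : LinearIndependent K ![(1 : F), f] := by
    rw [LinearIndependent.pair_iff' one_ne_zero]
    intro a ha
    exact hnc ⟨a, by rw [← ha, Algebra.smul_def, mul_one]⟩
  have hrank : Module.finrank K V = 2 := by
    have h2 := finrank_span_eq_card hli
    rw [Matrix.range_cons_cons_empty] at h2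
    simpa using h2
  -- one of the two basis vectors has non-constant reduction
  obtain ⟨i, hi⟩ : ∃ i, d.red (b i) ∉ Set.range (algebraMap k Fb) := by
    by_contra! hall
    choose cst hcst using hall
    have h01 : (⟨0, hrank ▸ two_pos⟩ : Fin (Module.finrank K V)) ≠ ⟨1, hrank ▸ one_lt_two⟩ := by
      simp [Fin.ext_iff]
    have hpair : LinearIndependent k
        ![d.red (b ⟨0, hrank ▸ two_pos⟩), d.red (b ⟨1, hrank ▸ one_lt_two⟩)] := by
      convert hind.comp ![⟨0, hrank ▸ two_pos⟩, ⟨1, hrank ▸ one_lt_two⟩] ?_ using 1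
      · funext x; fin_cases x <;> rfl
      · intro x y hxy
        fin_cases x <;> fin_cases y <;> simp_all [Fin.ext_iff]
    rw [LinearIndependent.pair_iff] at hpair
    rcases eq_or_ne (cst ⟨1, hrank ▸ one_lt_two⟩) 0 with h0 | h0
    · have := hpair 0 1 (by rw [← hcst ⟨1, hrank ▸ one_lt_two⟩, h0]; simp)
      exact one_ne_zero this.2
    · have := hpair (cst ⟨1, hrank ▸ one_lt_two⟩) (-cst ⟨0, hrank ▸ two_pos⟩) (by
        rw [← hcst ⟨0, hrank ▸ two_pos⟩, ← hcst ⟨1, hrank ▸ one_lt_two⟩, Algebra.smul_def,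
          Algebra.smul_def, ← map_mul, ← map_mul, ← map_add]
        simp [mul_comm])
      exact h0 this.1
  obtain ⟨α, β, hαβ⟩ := Submodule.mem_span_pair.1 (hb i)
  set h : F := ((b i : d.integers) : F)
  have hh : d.RedsTo h (d.red (b i)) := redsTo_red _
  have hβ : β ≠ 0 := by
    rintro rfl
    rw [zero_smul, add_zero, Algebra.smul_def, mul_one] at hαβ
    have hα : α ∈ A := by
      by_contra hc
      obtain ⟨a, ha, ha0⟩ := d.inv_mem_of_notMem hc
      have h1 := hh.smul a
      rw [ha0, zero_smul, ha, Algebra.smul_def, ← hαβ, ← map_mul,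
        inv_mul_cancel₀ (fun hz : α = 0 => hc (hz.symm ▸ A.zero_mem)), map_one] at h1
      exact one_ne_zero (redsTo_one.unique h1)
    have h1 : d.RedsTo h (algebraMap k Fb (π ⟨α, hα⟩)) := hαβ ▸ redsTo_algebraMap ⟨α, hα⟩
    exact hi ⟨_, h1.unique hh⟩
  have hfeq : f = algebraMap K F (-(α / β)) + algebraMap K F β⁻¹ * h := by
    rw [← hαβ, Algebra.smul_def, Algebra.smul_def, mul_one, mul_add, ← mul_assoc, ← map_mul,
      ← map_mul, inv_mul_cancel₀ hβ, map_one, one_mul, ← add_assoc, ← map_add,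
      show -(α / β) + β⁻¹ * α = 0 by ring, map_zero, zero_add]
  have hind2 : LinearIndependent k ![(1 : Fb), d.red (b i)] := by
    rw [LinearIndependent.pair_iff' one_ne_zero]
    intro a ha
    exact hi ⟨a, by rw [← ha, Algebra.smul_def, mul_one]⟩
  have hb2 : ∀ j, d.RedsTo (![(1 : F), h] j) (![(1 : Fb), d.red (b i)] j) := by
    intro j; fin_cases j
    · exact redsTo_one
    · exact hh
  have hsum : f = ∑ j, ![-(α / β), β⁻¹] j • ![(1 : F), h] j := by
    rw [Fin.sum_univ_two]
    simpa [Algebra.smul_def] using hfeq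
  have hmem := coords_mem hb2 hind2 hf.1 hsum
  have hred : (1 : Fb) = ∑ j, π ⟨_, hmem j⟩ • ![(1 : Fb), d.red (b i)] j := by
    refine hf.unique ?_
    have := redsTo_sum_smul hb2 fun j => (⟨_, hmem j⟩ : A)
    rwa [hsum]
  have hcoef := LinearIndependent.pair_iff.1 hind2 (π ⟨_, hmem 0⟩ - 1) (π ⟨_, hmem 1⟩) (by
    rw [Fin.sum_univ_two] at hred
    simp only [Matrix.cons_val_zero, Matrix.cons_val_one] at hred ⊢
    rw [sub_smul, one_smul]
    linear_combination -hred)
  refine ⟨⟨_, hmem 0⟩, ⟨_, hmem 1⟩, h, d.red (b i), sub_eq_zero.1 hcoef.1, hcoef.2,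
    inv_ne_zero hβ, ?_, hh, hi, hb i⟩
  simpa using hfeq

section Divisors

variable [RRSetting K F] [RRSetting k Fb]

omit [RRSetting K F] [RRSetting k Fb] in
theorem redDiv_apply_eq_sum [DecidableEq (Place k Fb)] (D : Divisor K F) (Q : Place k Fb) :
    d.redDiv D Q = ∑ P ∈ D.support.filter (fun P => d.place P = Q), D P := by
  classical
  rw [Finsupp.mapDomain.addMonoidHom_apply, Finsupp.mapDomain, Finsupp.sum_apply, Finsupp.sum,
    Finset.sum_filter]
  refine Finset.sum_congr rfl fun P _ => ?_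
  rw [Finsupp.single_apply]

omit [RRSetting K F] [RRSetting k Fb] in
theorem sum_le_redDiv [DecidableEq (Place k Fb)] {D : Divisor K F} {Q : Place k Fb}
    (h : ∀ P, d.place P = Q → 0 ≤ D P) (s : Finset (Place K F))
    (hs : ∀ P ∈ s, d.place P = Q) : ∑ P ∈ s, D P ≤ d.redDiv D Q := by
  classical
  rw [redDiv_apply_eq_sum, ← Finset.sum_filter_ne_zero (s := s)]
  refine Finset.sum_le_sum_of_subset_of_nonneg (fun P hP => ?_) fun P hP _ =>
    h P (Finset.mem_filter.1 hP).2
  rw [Finset.mem_filter] at hP ⊢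
  exact ⟨Finsupp.mem_support_iff.2 hP.2, hs P hP.1⟩

/-- An integral function without poles in a disc and with a zero of order `m` there has a
reduction vanishing to order `m`. -/
theorem ordGE_red {w : F} {W : Fb} (hw : d.RedsTo w W) {Q : Place k Fb}
    (h : ∀ P : Place K F, d.place P = Q → OrdGE P 0 w) {P₀ : Place K F} (hP₀ : d.place P₀ = Q)
    {m : ℤ} (hm : OrdGE P₀ m w) : OrdGE Q m W := by
  classical
  by_cases hW : W = 0
  · exact Or.inl hW
  have hw0 := hw.ne_zero hW
  refine Or.inr ((hm.le_ord hw0).trans ?_)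
  rw [← divOf_apply hW, ← hw.redDiv_divOf hW, ← divOf_apply (K := K) hw0 P₀]
  have := sum_le_redDiv (d := d) (D := divOf (K := K) w) (Q := Q)
    (fun P hP => by rw [divOf_apply hw0]; exact (h P hP).le_ord hw0) {P₀} (by simpa using hP₀)
  simpa using this

theorem ordGE_red_zero {w : F} {W : Fb} (hw : d.RedsTo w W) {Q : Place k Fb}
    (h : ∀ P : Place K F, d.place P = Q → OrdGE P 0 w) {P₀ : Place K F} (hP₀ : d.place P₀ = Q) :
    OrdGE Q 0 W :=
  ordGE_red hw h hP₀ (h P₀ hP₀)

omit [RRSetting k Fb] in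
theorem not_ordGE_one_const {Q : Place k Fb} {a : k} (ha : a ≠ 0) :
    ¬ OrdGE Q 1 (algebraMap k Fb a) := by
  rintro (h | h)
  · exact ha (by simpa using h)
  · rw [ord_algebraMap_const] at h; omega

variable [IsAlgClosed K] [IsFunctionField1 K F]

/-- Shifting a local parameter to a given place of the disc. -/
theorem exists_shift {t : F} {tb : Fb} {Q : Place k Fb} (ht : d.RedsTo t tb)
    (htb : Q.ord tb = 1) (h : ∀ P : Place K F, d.place P = Q → OrdGE P 0 t) {P₀ : Place K F}
    (hP₀ : d.place P₀ = Q) :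
    ∃ c : A, π c = 0 ∧ d.RedsTo (t - algebraMap K F (c : K)) tb ∧
      t - algebraMap K F (c : K) ≠ 0 ∧
      ∀ P : Place K F, d.place P = Q → OrdGE P 0 (t - algebraMap K F (c : K)) ∧
        (P = P₀ → P.ord (t - algebraMap K F (c : K)) = 1) ∧
        (P ≠ P₀ → P.ord (t - algebraMap K F (c : K)) = 0) := by
  classical
  set v := valueAt P₀ t
  have htb0 : tb ≠ 0 := fun h0 => by rw [h0, Place.ord_zero] at htb; exact zero_ne_one htb
  have hsub : ∀ P : Place K F, d.place P = Q → OrdGE P 0 (t - algebraMap K F v) := fun P hP =>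
    (h P hP).sub (ordGE_algebraMap v)
  have h1 : OrdGE P₀ 1 (t - algebraMap K F v) := ordGE_sub_valueAt (h P₀ hP₀)
  have hv : v ∈ A := by
    by_contra hc
    obtain ⟨a, ha, ha0⟩ := d.inv_mem_of_notMem hc
    have hv0 : v ≠ 0 := fun hz => hc (hz ▸ A.zero_mem)
    have hw : d.RedsTo (algebraMap K F (a : K) * (t - algebraMap K F v)) (-1) := by
      have := ((redsTo_algebraMap a).mul ht).sub redsTo_one
      rw [ha0, map_zero, zero_mul, zero_sub] at this
      rw [mul_sub, ← map_mul, ha, inv_mul_cancel₀ hv0, map_one]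
      exact ha ▸ this
    have := ordGE_red hw (fun P hP => (ordGE_algebraMap _).mul (hsub P hP)) hP₀
      ((ordGE_algebraMap _).mul h1)
    rcases this with h2 | h2
    · exact one_ne_zero (neg_eq_zero.1 h2)
    · rw [ord_neg, Place.ord_one] at h2; omega
  have hw : d.RedsTo (t - algebraMap K F v) (tb - algebraMap k Fb (π ⟨v, hv⟩)) :=
    ht.sub (redsTo_algebraMap ⟨v, hv⟩)
  have hv0 : π ⟨v, hv⟩ = 0 := by
    by_contra h0
    have h2 := ordGE_red hw hsub hP₀ h1
    have h3 : OrdGE Q 1 tb := Or.inr htb.ge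
    have h4 := h3.sub h2
    rw [sub_sub_cancel] at h4
    exact not_ordGE_one_const h0 h4
  rw [hv0, map_zero, sub_zero] at hw
  have hne := hw.ne_zero htb0
  refine ⟨⟨v, hv⟩, hv0, hw, hne, fun P hP => ⟨hsub P hP, ?_⟩⟩
  have hQ : d.redDiv (divOf (K := K) (t - algebraMap K F v)) Q = 1 := by
    rw [hw.redDiv_divOf htb0, divOf_apply htb0, htb]
  have hnn : ∀ P' : Place K F, d.place P' = Q →
      0 ≤ divOf (K := K) (t - algebraMap K F v) P' := fun P' hP' => by
    rw [divOf_apply hne]; exact (hsub P' hP').le_ord hne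
  have hP0 := hnn P₀ hP₀
  have h1' : 1 ≤ P₀.ord (t - algebraMap K F v) := h1.le_ord hne
  constructor
  · rintro rfl
    have := sum_le_redDiv (d := d) hnn {P} (by simpa using hP)
    rw [Finset.sum_singleton, hQ, divOf_apply hne] at this
    show P.ord (t - algebraMap K F v) = 1
    omega
  · intro hne'
    have := sum_le_redDiv (d := d) hnn {P, P₀} (by simp [hP, hP₀])
    rw [Finset.sum_pair hne', hQ, divOf_apply hne, divOf_apply hne] at this
    have := hnn P hP
    rw [divOf_apply hne] at this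
    show P.ord (t - algebraMap K F v) = 0
    omega

end Divisors

end FermatAgent.Mazur.Descent
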