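import Fermat.Agent.Mazur.Step3.HeckeNorm
import Fermat.Agent.Mazur.Descent.Kernel.Basic

/-!
# `T_l` on a function congruent to `1`, in residue characteristic `l`

If `f = 1 + e h` then the norm of `f` along the correspondence `T_l` is `1 + e X` with `X`
reducing to an `l`-th power: modulo `l` the correspondence is `F + V`, and `V` only sees `e ^ l`.
-/

set_option autoImplicit false

noncomputable section

open AlgebraicCurve ModularCurve
open FermatAgent.JacCharts (GoodReductionDatum)
open FermatAgent.JacCharts.GoodReductionDatum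
open FermatAgent.ES (qTwist)
open FermatAgent.Mazur.Step3 (corrNorm corrNorm_mul twistProd root_of_unity_mem redsTo_series)

namespace FermatAgent.Mazur.Descent

local notation "Qb" => AlgebraicClosure ℚ

variable {p : ℕ} [hp : Fact p.Prime] {A : ValuationSubring Qb} {k : Type*} [Field k]
variable {π : A →+* k} {l : ℕ} [hlF : Fact l.Prime] [CharP k l]
variable {d : GoodReductionDatum A π (modularFunctionFieldBar p) (modularFunctionFieldFullC k p)}

/-- The norm of a series, with the root of unity. -/
theorem exists_series_corrNorm_unit (hlp : ¬ l ∣ p) [NeZero l] :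
    ∃ u : Aˣ, u ^ l = 1 ∧ ∀ (y : LaurentSeries A)
      (hy : coeffMap A.subtype y ∈ modularFunctionFieldBar p),
      ∃ w : LaurentSeries A, coeffMap A.subtype w = (corrNorm p l ⟨_, hy⟩ : LaurentSeries Qb) ∧
        qExpand A l w = twistProd l u y := by
  obtain ⟨ζ, hζ, hform⟩ := FermatAgent.ES.heckeNormFormula_of_degree (Fact.out : l.Prime) hlp
    (FermatAgent.ES.finiteAlong_heckeAlphaBar p l)
    (FermatAgent.ES.finrankAlong_heckeAlphaBar_le p l (Fact.out : l.Prime) hlp)
  have hl0 : l ≠ 0 := NeZero.ne l
  have hζ' : (ζ : Qb) ^ l = 1 := by rw [← Units.val_pow_eq_pow_val, hζ, Units.val_one]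
  let z : A := ⟨ζ, root_of_unity_mem hl0 hζ'⟩
  have hz : z ^ l = 1 := Subtype.ext (by simpa [z] using hζ')
  let zu : Aˣ := Units.ofPowEqOne z l hz hl0
  have hzu : Units.map A.subtype.toMonoidHom zu = ζ := Units.ext rfl
  refine ⟨zu, Units.ext (by simp [zu]), fun y hy => ?_⟩
  set g := corrNorm p l ⟨_, hy⟩ with hg
  have hw : coeffMap A.subtype (twistProd l zu y) = qExpand Qb l (g : LaurentSeries Qb) := by
    rw [hg, corrNorm, hform, twistProd, map_mul, map_prod, ModularCurve.coeffMap_qExpand]
    refine congrArg₂ _ rfl (Finset.prod_congr rfl fun b _ => ?_)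
    rw [FermatAgent.ES.coeffMap_qTwist, map_pow, hzu]
  have hgA : ∀ n : ℤ, (g : LaurentSeries Qb).coeff n ∈ A := fun n => by
    rw [← qExpand_coeff_mul l (g : LaurentSeries Qb) n, ← hw]
    exact ((twistProd l zu y).coeff _).2
  let gA : LaurentSeries A :=
    { coeff := fun n => ⟨(g : LaurentSeries Qb).coeff n, hgA n⟩
      isPWO_support' := (g : LaurentSeries Qb).isPWO_support.mono fun n hn h => hn (Subtype.ext h) }
  have hgA' : coeffMap A.subtype gA = (g : LaurentSeries Qb) := HahnSeries.ext rfl
  refine ⟨gA, hgA', ?_⟩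
  ext n
  have h := congrArg (fun u : LaurentSeries Qb => u.coeff n) hw
  simp only [coeffMap_coeff] at h
  refine Eq.trans ?_ h.symm
  rw [← hgA', ← ModularCurve.coeffMap_qExpand]
  rfl

omit hp [CharP k l] hlF in
/-- First order expansion of a product. -/
theorem exists_prod_add_smul {ι : Type*} (s : Finset ι) (e : A) (he : π e = 0)
    (z y : ι → LaurentSeries A) {zb yb : LaurentSeries k} (hz : ∀ b ∈ s, coeffMap π (z b) = zb)
    (hy : ∀ b ∈ s, coeffMap π (y b) = yb) :
    ∃ E : LaurentSeries A, ∏ b ∈ s, (z b + HahnSeries.C e * y b) =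
        ∏ b ∈ s, z b + HahnSeries.C e * E ∧
      coeffMap π E = (s.card : LaurentSeries k) * yb * zb ^ (s.card - 1) := by
  classical
  induction s using Finset.induction with
  | empty => exact ⟨0, by simp, by simp⟩
  | @insert a s ha ih =>
    obtain ⟨E, hE, hEb⟩ := ih (fun b hb => hz b (Finset.mem_insert_of_mem hb))
      (fun b hb => hy b (Finset.mem_insert_of_mem hb))
    refine ⟨y a * ∏ b ∈ s, z b + (z a + HahnSeries.C e * y a) * E, ?_, ?_⟩
    · rw [Finset.prod_insert ha, Finset.prod_insert ha, hE]
      ring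
    · have hC : coeffMap π (HahnSeries.C e : LaurentSeries A) = 0 := by
        rw [HahnSeries.C_apply, coeffMap_single, he, HahnSeries.single_eq_zero]
      rw [map_add, map_mul, map_mul, map_add, map_mul, hC, zero_mul, add_zero, map_prod,
        Finset.prod_congr rfl (fun b hb => hz b (Finset.mem_insert_of_mem hb)), Finset.prod_const,
        hEb, hy a (Finset.mem_insert_self a s), hz a (Finset.mem_insert_self a s),
        Finset.card_insert_of_notMem ha, Nat.cast_succ, Nat.add_sub_cancel]
      rcases Nat.eq_zero_or_pos s.card with h | h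
      · simp [h]
      · rw [show zb ^ s.card = zb * zb ^ (s.card - 1) by
          rw [← pow_succ', Nat.sub_add_cancel h]]
        ring

variable [PerfectRing k l]

set_option maxHeartbeats 1000000 in
-- The series identities are long.
/-- The norm of `1 + e h` is `1 + e X` with `X` reducing to an `l`-th power. -/
theorem exists_corrNorm_congr (hd : d.IsLaurent) (hlp : ¬ l ∣ p) [NeZero l] {e : A} (he : π e = 0)
    (he0 : (e : Qb) ≠ 0) {f h : modularFunctionFieldBar p} {H : modularFunctionFieldFullC k p}
    (hh : d.RedsTo h H) (hf : f = 1 + algebraMap Qb _ (e : Qb) * h) :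
    ∃ (X : modularFunctionFieldBar p) (Gb : modularFunctionFieldFullC k p),
      d.RedsTo X (Gb ^ l) ∧ corrNorm p l f = 1 + algebraMap Qb _ (e : Qb) * X := by
  have hl : l.Prime := Fact.out
  obtain ⟨hm, hH⟩ := hh
  obtain ⟨yi, zi, hyA, hzA, hz0, hxyz⟩ := hd.exists_fraction ⟨h, hm⟩
  obtain ⟨ys, hys, rfl⟩ := hd.exists_series yi hyA
  obtain ⟨zs, hzs, rfl⟩ := hd.exists_series zi hzA
  set zF : modularFunctionFieldBar p := ⟨coeffMap A.subtype zs, hzs⟩
  set yF : modularFunctionFieldBar p := ⟨coeffMap A.subtype ys, hys⟩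
  have hmul : h * zF = yF := congrArg Subtype.val hxyz
  set ws : LaurentSeries A := zs + HahnSeries.C e * ys
  have hfz : f * zF = ⟨coeffMap A.subtype ws, by
      rw [map_add, map_mul, HahnSeries.C_apply, coeffMap_single,
        ← algebraMap_laurentSeries_eq_single]
      exact add_mem hzs (mul_mem (IntermediateField.algebraMap_mem _ _) hys)⟩ := by
    rw [hf, add_mul, one_mul, mul_assoc, hmul]
    apply Subtype.ext
    simp only [ws, map_add, map_mul, HahnSeries.C_apply, coeffMap_single, AddMemClass.coe_add,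
      MulMemClass.coe_mul, IntermediateField.coe_algebraMap_apply,
      algebraMap_laurentSeries_eq_single, zF, yF]
    rfl
  obtain ⟨u, hu, hseries⟩ := exists_series_corrNorm_unit (A := A) (p := p) hlp
  obtain ⟨w₁, hw₁, hw₁'⟩ := hseries ws (by
    have := (f * zF).2
    rwa [hfz] at this)
  obtain ⟨w₀, hw₀, hw₀'⟩ := hseries zs hzs
  have hπu : Units.map π.toMonoidHom u = 1 := by
    apply Units.ext
    have h1 : (π (u : A)) ^ l = 1 := by
      rw [← map_pow, ← Units.val_pow_eq_pow_val, hu, Units.val_one, map_one]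
    have h2 : (π (u : A) - 1) ^ l = 0 := by rw [sub_pow_char, h1, one_pow, sub_self]
    exact sub_eq_zero.1 (eq_zero_of_pow_eq_zero h2)
  have htw : ∀ (b : ℕ) (y : LaurentSeries A), coeffMap π (qTwist (u ^ b) y) = coeffMap π y :=
    fun b y => by
      rw [FermatAgent.ES.coeffMap_qTwist, map_pow, hπu, one_pow, FermatAgent.ES.qTwist_one_apply]
  have hC : ∀ c : Aˣ, qTwist c (HahnSeries.C e : LaurentSeries A) = HahnSeries.C e := fun c => by
    rw [HahnSeries.C_apply, FermatAgent.ES.qTwist_single, zpow_zero, Units.val_one, one_mul]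
  obtain ⟨E, hE, hEb⟩ := exists_prod_add_smul (Finset.range l) e he
    (fun b => qTwist (u ^ b) zs) (fun b => qTwist (u ^ b) ys)
    (fun b _ => htw b zs) (fun b _ => htw b ys)
  have : CharP (LaurentSeries k) l :=
    charP_of_injective_algebraMap (algebraMap k (LaurentSeries k)).injective l
  rw [Finset.card_range, CharP.cast_eq_zero, zero_mul, zero_mul] at hEb
  -- the difference of the two twisted products
  set R := qExpand A (l * l) zs * E + qExpand A (l * l) ys *
    (∏ b ∈ Finset.range l, qTwist (u ^ b) zs + HahnSeries.C e * E)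
  have hR : twistProd l u ws = twistProd l u zs + HahnSeries.C e * R := by
    rw [twistProd, twistProd]
    simp only [ws, map_add, map_mul, hC]
    rw [HahnSeries.C_apply, qExpand_single, mul_zero, ← HahnSeries.C_apply, hE]
    simp only [R]
    ring
  have hRcoeff : ∀ n : ℤ, ¬ (l : ℤ) ∣ n → R.coeff n = 0 := by
    intro n hn
    have h1 := congrArg (fun x : LaurentSeries A => x.coeff n) hR
    simp only [HahnSeries.coeff_add, ← hw₁', ← hw₀', qExpand_coeff_of_not_dvd l _ hn, zero_add,
      HahnSeries.C_apply, HahnSeries.coeff_single_zero_mul] at h1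
    rcases mul_eq_zero.1 h1.symm with h | h
    · exact absurd (congrArg Subtype.val h) he0
    · exact h
  have hl0 : (0 : ℤ) < l := by exact_mod_cast hl.pos
  let R' : LaurentSeries A :=
    HahnSeries.ofSuppBddBelow (fun n => R.coeff ((l : ℤ) * n)) ⟨-(R.order.natAbs : ℤ), fun n hn => by
      by_contra hlt
      refine hn (HahnSeries.coeff_eq_zero_of_lt_order ?_)
      rw [not_le] at hlt
      have : (1 : ℤ) ≤ l := hl0
      nlinarith [le_abs_self R.order, neg_abs_le R.order, Int.natCast_natAbs R.order]⟩
  have hR' : qExpand A l R' = R := by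
    ext n
    by_cases hd : (l : ℤ) ∣ n
    · obtain ⟨m, rfl⟩ := hd
      rw [qExpand_coeff_mul]
      rfl
    · rw [qExpand_coeff_of_not_dvd l _ hd, hRcoeff n hd]
  have hwR : w₁ = w₀ + HahnSeries.C e * R' := by
    apply qExpand_injective (R := A) l
    rw [map_add, map_mul, hR', HahnSeries.C_apply, qExpand_single, mul_zero, ← HahnSeries.C_apply,
      hw₁', hw₀', hR]
  set N₀ := corrNorm p l zF
  have hN₁ : corrNorm p l (f * zF) = ⟨coeffMap A.subtype w₁, hw₁ ▸ (corrNorm p l _).2⟩ := by
    exact (congrArg (corrNorm p l) hfz).trans (Subtype.ext hw₁.symm)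
  have hN₀ : N₀ = ⟨coeffMap A.subtype w₀, hw₀ ▸ (corrNorm p l _).2⟩ := Subtype.ext hw₀.symm
  have hR'mem : coeffMap A.subtype R' ∈ modularFunctionFieldBar p := by
    have hwR' : coeffMap A.subtype w₁ = coeffMap A.subtype w₀ +
        algebraMap Qb (LaurentSeries Qb) (e : Qb) * coeffMap A.subtype R' := by
      rw [hwR, map_add, map_mul, HahnSeries.C_apply, coeffMap_single,
        algebraMap_laurentSeries_eq_single]
      rfl
    have : coeffMap A.subtype R' = algebraMap Qb (LaurentSeries Qb) (e : Qb)⁻¹ *
        (coeffMap A.subtype w₁ - coeffMap A.subtype w₀) := by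
      rw [hwR', add_sub_cancel_left, ← mul_assoc, ← map_mul, inv_mul_cancel₀ he0, map_one, one_mul]
    rw [this]
    exact mul_mem (IntermediateField.algebraMap_mem _ _)
      (sub_mem (hw₁ ▸ (corrNorm p l _).2) (hw₀ ▸ (corrNorm p l _).2))
  obtain ⟨rb, hrb, hrb'⟩ := redsTo_series hd R' hR'mem
  obtain ⟨nb, hnb, hnb'⟩ := redsTo_series hd w₀ (hw₀ ▸ (corrNorm p l _).2)
  rw [← hN₀] at hnb
  set zb := d.red (hd.intOfSeries zs hzs)
  have hzb : (zb : LaurentSeries k) = coeffMap π zs := hd.coe_red_intOfSeries zs hzs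
  have hzb0 : (zb : LaurentSeries k) ≠ 0 := fun h => hz0 (Subtype.ext h)
  have hyb : ((d.red (hd.intOfSeries ys hys) : modularFunctionFieldFullC k p) : LaurentSeries k) =
      coeffMap π ys := hd.coe_red_intOfSeries ys hys
  have hHser : (H : LaurentSeries k) * coeffMap π zs = coeffMap π ys := by
    rw [← hzb, ← hyb, ← hH, ← MulMemClass.coe_mul, ← map_mul, hxyz]
  have hnser : qExpand k l (nb : LaurentSeries k) =
      qExpand k (l * l) (coeffMap π zs) * coeffMap π zs ^ l := by
    rw [hnb', ← ModularCurve.coeffMap_qExpand, hw₀', twistProd, map_mul, map_prod,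
      ModularCurve.coeffMap_qExpand, Finset.prod_congr rfl (fun b _ => htw b zs), Finset.prod_const,
      Finset.card_range]
  have hrser : qExpand k l (rb : LaurentSeries k) =
      qExpand k (l * l) (coeffMap π ys) * coeffMap π zs ^ l := by
    rw [hrb', ← ModularCurve.coeffMap_qExpand, hR']
    simp only [R, map_add, map_mul, map_prod, hEb, mul_zero, zero_add, add_zero]
    rw [ModularCurve.coeffMap_qExpand, Finset.prod_congr rfl (fun b _ => htw b zs),
      Finset.prod_const, Finset.card_range]
  have hnb0 : nb ≠ 0 := by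
    intro h0
    rw [h0, ZeroMemClass.coe_zero, map_zero, eq_comm, mul_eq_zero,
      map_eq_zero_iff _ (qExpand_injective (R := k) (l * l))] at hnser
    rw [← hzb] at hnser
    rcases hnser with h | h
    · exact hzb0 h
    · exact hzb0 (eq_zero_of_pow_eq_zero h)
  set Gb := FermatAgent.ES.coeffSemilinear p (frobeniusEquiv k l).symm • H
  refine ⟨⟨coeffMap A.subtype R', hR'mem⟩ / N₀, Gb, ?_, ?_⟩
  · have hGb : Gb ^ l = rb / nb := by
      rw [eq_div_iff hnb0]
      apply Subtype.ext
      apply qExpand_injective (R := k) l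
      rw [MulMemClass.coe_mul, map_mul, hnser, hrser, ← hHser, SubmonoidClass.coe_pow,
        FermatAgent.ES.coe_coeffSemilinear_smul, FermatAgent.ES.pow_char_eq l,
        ← ModularCurve.coeffMap_qExpand, ← ModularCurve.coeffMap_qExpand,
        ← ModularCurve.coeffMap_qExpand,
        show coeffMap (frobenius k l) (coeffMap
          (((frobeniusEquiv k l).symm : k ≃+* k) : k →+* k)
            (qExpand k l (qExpand k l (H : LaurentSeries k)))) =
          qExpand k l (qExpand k l (H : LaurentSeries k)) by
          ext n; simp [coeffMap_coeff, frobenius_apply_frobeniusEquiv_symm],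
        map_mul (qExpand k (l * l)),
        show qExpand k l (qExpand k l (H : LaurentSeries k)) = qExpand k (l * l) (H : LaurentSeries k)
          from qExpand_qExpand l l _]
      ring
    rw [hGb]
    exact redsTo_div hrb hnb hnb0
  · have hN₀0 : N₀ ≠ 0 := hnb.ne_zero hnb0
    apply mul_right_cancel₀ hN₀0
    rw [← corrNorm_mul, hN₁, add_mul, one_mul, mul_assoc, div_mul_cancel₀ _ hN₀0, hN₀]
    apply Subtype.ext
    simp only [AddMemClass.coe_add, MulMemClass.coe_mul, IntermediateField.coe_algebraMap_apply,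
      algebraMap_laurentSeries_eq_single]
    rw [hwR, map_add, map_mul, HahnSeries.C_apply, coeffMap_single]
    rfl

end FermatAgent.Mazur.Descent

end
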