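import Fermat.Agent.Mazur.Descent.Kernel.Compare
import Fermat.Agent.Mazur.Descent.Kernel.HeckeSeries
import Fermat.Agent.Mazur.Descent.Kernel.Count

/-!
# Ordinary classes have canonical scalar `ϖ ^ l`

`T_l` strictly increases the divisibility of the canonical scalar of a class whose scalar is less
divisible than `ϖ ^ l`, so on a finite group stable under `T_l` on which `T_l` is injective all
scalars have the valuation of `ϖ ^ l`, and there are at most `l ^ rank (M ^ n)` classes.
-/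

set_option autoImplicit false

noncomputable section

open AlgebraicCurve ModularCurve FermatAgent.Curve FermatAgent.Curve.RR FermatAgent.Curve.Diff
open FermatAgent.JacCharts FermatAgent.JacCharts.GoodReductionDatum
open FermatAgent.Mazur.Step3 (cInf heckeDiv corrNorm)

namespace FermatAgent.Mazur.Descent

local notation "Qb" => AlgebraicClosure ℚ

section General

variable {K : Type*} [Field K] {A : ValuationSubring K} {k : Type*} [Field k] {π : A →+* k}
variable {F : Type*} [Field F] [Algebra K F] {Fb : Type*} [Field Fb] [Algebra k Fb]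
variable [RRSetting K F] [RRSetting k Fb] [Infinite k] {d : GoodReductionDatum A π F Fb}

omit [Infinite k] in
/-- Reduction of functions is surjective. -/
theorem exists_redsTo {B : Divisor K F} (hB : 4 * (genusFF K F : ℤ) + 2 ≤ Divisor.degree B)
    (fb : Fb) : ∃ f : F, d.RedsTo f fb := by
  classical
  rcases eq_or_ne fb 0 with rfl | hfb
  · exact ⟨0, redsTo_zero⟩
  choose P hP using fun Q => d.exists_place_eq hB Q
  obtain ⟨Q₀⟩ := RRSetting.nonempty_place (K := k) (F := Fb)
  let Db : Divisor k Fb := (-divOf (K := k) fb).mapRange (fun n => max n 0) (by simp) +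
    Finsupp.single Q₀ ((2 * genusFF K F : ℕ) : ℤ)
  have hred : d.redDiv (Finsupp.mapDomain P Db) = Db := by
    rw [Finsupp.mapDomain.addMonoidHom_apply, ← Finsupp.mapDomain_comp]
    simp [Function.comp_def, hP]
    exact Finsupp.mapDomain_id
  have hmem : fb ∈ riemannRochSpace (d.redDiv (Finsupp.mapDomain P Db)) := by
    rw [hred, mem_L_iff_divOf hfb, Finsupp.le_def]
    intro v
    simp only [Db, Finsupp.coe_zero, Pi.zero_apply, Finsupp.add_apply, Finsupp.mapRange_apply,
      Finsupp.neg_apply, Finsupp.single_apply]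
    split <;> omega
  have hnn : (0 : Divisor k Fb) ≤ (-divOf (K := k) fb).mapRange (fun n => max n 0) (by simp) :=
    Finsupp.le_def.2 fun v => by simp
  obtain ⟨f, -, hf⟩ := d.exists_redsTo_of_mem_L (G := Finsupp.mapDomain P Db) (by
    rw [← degree_redDiv (d := d), hred, map_add, Curve.RR.degree_single]
    have := JacCharts.degree_nonneg hnn
    omega) hmem
  exact ⟨f, hf⟩

variable {Pinf : Place K F} {B : Base d Pinf} {l : ℕ}

omit [Infinite k] in
/-- The effective divisor of a canonical datum depends only on the class. -/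
theorem Canon.eq_E {z : Pic0 K F} (C₁ C₂ : Canon B l z) : C₁.E = C₂.E := by
  refine eq_of_ell_eq_one C₂.nonneg C₁.nonneg ?_ ?_
  · refine le_antisymm ((ell_le_ell_redDiv (d := d) _).trans ?_) ?_
    · rw [C₂.red_eq]; exact B.ell_eq.le
    · rw [← ell_zero (K := K) (F := F)]
      exact ell_mono C₂.nonneg
  · have := C₁.isRep.sub_mem C₂.isRep
    rwa [sub_sub_sub_cancel_right] at this

omit [Infinite k] in
/-- The canonical functions of a class differ by constants. -/
theorem Canon.exists_eq_f {z : Pic0 K F} (C₁ C₂ : Canon B l z) :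
    ∃ b : K, algebraMap K F b * C₁.f = C₂.f := by
  have hdiv := C₂.div_eq
  rw [Canon.eq_E C₂ C₁, ← C₁.div_eq] at hdiv
  have hmem : C₂.f / C₁.f ∈ riemannRochSpace (0 : Divisor K F) := by
    rw [mem_riemannRochSpace_iff]
    intro P
    refine Or.inr (le_of_eq ?_)
    have e1 := congrArg (fun D => D P) hdiv
    simp only [divOf_apply C₁.f_ne, divOf_apply C₂.f_ne] at e1
    rw [Curve.ord_div _ C₂.f_ne C₁.f_ne, e1, sub_self]
    simp
  rw [riemannRochSpace_zero_eq, Submodule.mem_span_singleton] at hmem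
  obtain ⟨b, hb⟩ := hmem
  rw [Algebra.smul_def, mul_one, eq_div_iff C₁.f_ne] at hb
  exact ⟨b, hb⟩

omit [Infinite k] in
/-- The scalars of two canonical data of a class have the same valuation. -/
theorem Canon.val_eq [IsAlgClosed K] [IsFunctionField1 K F] {z : Pic0 K F} (hl : l.Prime) [CharP k l] {ϖ : A}
    (hϖ : (ϖ : K) ^ (l - 1) = -(l : K)) (hπϖ : π ϖ = 0) (hϖ0 : (ϖ : K) ≠ 0)
    (C₁ C₂ : Canon B l z) : A.valuation (C₁.e : K) = A.valuation (C₂.e : K) := by
  refine le_antisymm ?_ ?_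
  · obtain ⟨b, hb⟩ := C₁.exists_eq_f C₂
    refine val_le_of_rep hl hϖ hπϖ hϖ0 C₁ (g := 1) (r := b) redsTo_one C₂.redsTo_h ?_
    rw [one_pow, mul_one, hb, ← C₂.f_eq]
  · obtain ⟨b, hb⟩ := C₂.exists_eq_f C₁
    refine val_le_of_rep hl hϖ hπϖ hϖ0 C₂ (g := 1) (r := b) redsTo_one C₁.redsTo_h ?_
    rw [one_pow, mul_one, hb, ← C₁.f_eq]

omit [Infinite k] in
/-- The zero class has no canonical datum. -/
theorem Canon.class_ne_zero {z : Pic0 K F} (C : Canon B l z) : z ≠ 0 := fun hz => C.H_nc (by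
  have hE : C.E = B.S := by
    refine eq_of_ell_eq_one B.nonneg C.nonneg ?_ ?_
    · exact le_antisymm ((ell_le_ell_redDiv (d := d) _).trans B.ell_eq.le)
        (by rw [← ell_zero (K := K) (F := F)]; exact ell_mono B.nonneg)
    · have := C.isRep.sub_mem (hz ▸ isRep_zero)
      rwa [sub_zero] at this
  have hdiv := C.div_eq
  rw [hE, sub_self, smul_zero] at hdiv
  have hf0 : C.f ∈ riemannRochSpace (0 : Divisor K F) := by
    rw [mem_L_iff_divOf C.f_ne, hdiv, add_zero]
  rw [riemannRochSpace_zero_eq, Submodule.mem_span_singleton] at hf0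
  obtain ⟨b, hb⟩ := hf0
  have he := C.e_ne
  have hh : C.h = algebraMap K F ((b - 1) / (C.e : K)) := by
    rw [map_div₀, map_sub, map_one, eq_div_iff ((map_ne_zero _).2 he)]
    rw [Algebra.smul_def, mul_one] at hb
    rw [hb, C.f_eq]
    ring
  have hr := hh ▸ C.redsTo_h
  exact ⟨π ⟨_, mem_of_redsTo_algebraMap hr⟩,
    (redsTo_algebraMap (d := d) ⟨_, mem_of_redsTo_algebraMap hr⟩).unique hr⟩)

end General

variable {p : ℕ} [hp : Fact p.Prime] {A : ValuationSubring Qb} {k : Type*} [Field k] [IsAlgClosed k]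
variable {π : A →+* k} {l : ℕ} [Fact l.Prime] [CharP k l] [NeZero l]
variable {d : GoodReductionDatum A π (modularFunctionFieldBar p) (modularFunctionFieldFullC k p)}
variable [RRSetting Qb (modularFunctionFieldBar p)] [RRSetting k (modularFunctionFieldFullC k p)]
variable [IsFunctionField1 k (modularFunctionFieldFullC k p)]

/-- The operator `T_l` on classes. -/
def heckeEll (p l : ℕ) [Fact p.Prime] [Fact l.Prime] :
    AddMonoid.End (Pic0 Qb (modularFunctionFieldBar p)) :=
  (heckeOperatorBar p ⟨l, Fact.out⟩).toAddMonoidHom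

omit [IsAlgClosed k] [CharP k l] [RRSetting k (modularFunctionFieldFullC k p)]
  [IsFunctionField1 k (modularFunctionFieldFullC k p)] [RRSetting Qb (modularFunctionFieldBar p)] in
theorem isRep_heckeEll {z : Pic0 Qb (modularFunctionFieldBar p)}
    {D : Divisor Qb (modularFunctionFieldBar p)} (h : IsRep z D) :
    IsRep (heckeEll p l z) (heckeDiv p l D) := by
  obtain ⟨hD, rfl⟩ := h
  obtain ⟨h', he⟩ := Step3.heckeOperatorBar_mk p ⟨l, Fact.out⟩ ⟨D, hD⟩
  exact ⟨h', he.trans rfl⟩

omit [IsFunctionField1 k (modularFunctionFieldFullC k p)] in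
/-- The scalar of `T_l z` is at least as divisible, and more if that of `z` is not `ϖ ^ l`. -/
theorem val_heckeEll_le (hd : d.IsLaurent) (hlp : ¬ l ∣ p) {ϖ : A}
    (hϖ : (ϖ : Qb) ^ (l - 1) = -(l : Qb)) (hπϖ : π ϖ = 0) (hϖ0 : (ϖ : Qb) ≠ 0)
    {B : Base d (cInf p)} {z : Pic0 Qb (modularFunctionFieldBar p)} (C : Canon B l z)
    (C' : Canon B l (heckeEll p l z)) :
    A.valuation (C'.e : Qb) ≤ A.valuation (C.e : Qb) ∧
      (A.valuation ((ϖ : Qb) ^ l) < A.valuation (C.e : Qb) →
        A.valuation (C'.e : Qb) < A.valuation (C.e : Qb)) := by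
  classical
  have hl : l.Prime := Fact.out
  have hlp' : l ≠ p := fun h => hlp (h ▸ dvd_rfl)
  have : PerfectRing k l := PerfectRing.ofSurjective k l
    fun x => IsAlgClosed.exists_pow_nat_eq x hl.pos
  set N := corrNorm p l C.f
  have hN0 : N ≠ 0 := Step3.corrNorm_ne_zero p l C.f_ne
  have hNdiv : divOf (K := Qb) N = (l : ℤ) • heckeDiv p l (C.E - B.S) := by
    rw [← map_zsmul, ← C.div_eq]
    refine (Finsupp.ext fun v => ?_).symm
    rw [divOf_apply hN0]
    exact ES.correspondence_apply_principal _ _ _ _ (ES.finiteAlong_heckeAlphaBar p l)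
      (Curve.normFormulaAlong _ _) C.f_ne (divOf_apply C.f_ne) v
  -- the change of representative
  have hp' : heckeDiv p l (C.E - B.S) - (C'.E - B.S) ∈
      Divisor.principal (K := Qb) (F := modularFunctionFieldBar p) :=
    (isRep_heckeEll C.isRep).sub_mem C'.isRep
  obtain ⟨g₀, hg₀, hdiv₀⟩ := hp'
  have hdg₀ : divOf (K := Qb) g₀ = heckeDiv p l (C.E - B.S) - (C'.E - B.S) :=
    Finsupp.ext fun v => by rw [divOf_apply hg₀, hdiv₀ v]
  obtain ⟨cg, hcg, hgr⟩ := exists_smul_redsTo_one (d := d) hg₀ (by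
    rw [hdg₀, map_sub,
      (Step3.isRigid_heckeDiv (ℓ := l) hd hlp' l hl).redDiv_eq_zero
        (by rw [map_sub, C.red_eq, sub_self]), map_sub, C'.red_eq, sub_self, sub_self])
  set g := cg • g₀
  have hg0 : g ≠ 0 := hgr.ne_zero one_ne_zero
  have hdg : divOf (K := Qb) g = heckeDiv p l (C.E - B.S) - (C'.E - B.S) :=
    Finsupp.ext fun v => by
      rw [divOf_apply hg0, ord_const_smul v hcg hg₀, ← divOf_apply (K := Qb) hg₀ v, hdg₀]
  obtain ⟨r, hr⟩ : ∃ r : Qb, algebraMap Qb _ r * g ^ l * C'.f = N := by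
    have hne : g ^ l * C'.f ≠ 0 := mul_ne_zero (pow_ne_zero _ hg0) C'.f_ne
    have hmem : N / (g ^ l * C'.f) ∈
        riemannRochSpace (0 : Divisor Qb (modularFunctionFieldBar p)) := by
      rw [mem_riemannRochSpace_iff]
      intro P
      refine Or.inr (le_of_eq ?_)
      have e1 := congrArg (fun D => D P) hNdiv
      have e2 := congrArg (fun D => D P) hdg
      have e3 := congrArg (fun D => D P) C'.div_eq
      simp only [divOf_apply hN0, divOf_apply hg0, divOf_apply C'.f_ne, Finsupp.smul_apply,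
        Finsupp.sub_apply, smul_eq_mul] at e1 e2 e3
      rw [Curve.ord_div _ hN0 hne, P.ord_mul (pow_ne_zero _ hg0) C'.f_ne, ← zpow_natCast,
        Place.ord_zpow, e1, e2, e3]
      simp
      ring
    rw [riemannRochSpace_zero_eq, Submodule.mem_span_singleton] at hmem
    obtain ⟨r, hr⟩ := hmem
    refine ⟨r, ?_⟩
    rw [Algebra.smul_def, mul_one, eq_div_iff hne, ← mul_assoc] at hr
    exact hr
  obtain ⟨X, Gb, hX, hNX⟩ := exists_corrNorm_congr hd hlp C.pi_e C.e_ne C.redsTo_h C.f_eq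
  refine ⟨val_le_of_rep hl hϖ hπϖ hϖ0 C' hgr hX (hr.trans hNX), fun hlt => ?_⟩
  -- remove the `l`-th power
  obtain ⟨B₀, hB₀⟩ := GoodReductionDatum.exists_bound (K := Qb) (F := modularFunctionFieldBar p)
  obtain ⟨G, hG⟩ := exists_redsTo (d := d) hB₀ Gb
  obtain ⟨η, hη⟩ := IsAlgClosed.exists_pow_nat_eq (C.e : Qb) hl.pos
  have hvη : A.valuation η ^ l = A.valuation (C.e : Qb) := by rw [← map_pow, hη]
  have hηA : η ∈ A := by
    rw [← A.valuation_le_one_iff, ← pow_le_one_iff_of_nonneg zero_le hl.ne_zero, hvη]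
    exact (A.valuation_le_one_iff _).2 C.e.2
  have hϖη : A.valuation (ϖ : Qb) < A.valuation η := by
    rw [map_pow, ← hvη] at hlt
    exact lt_of_pow_lt_pow_left₀ l zero_le hlt
  set ηA : A := ⟨η, hηA⟩
  obtain ⟨T, hT, hTr⟩ := exists_pow_one_add_large hl hϖ (ε := ηA) hϖη hG
  rw [show ((ηA : A) : Qb) = η from rfl, hη] at hT
  set M := 1 + algebraMap Qb (modularFunctionFieldBar p) η * G
  have hM : d.RedsTo M 1 := by
    have hπη : π ηA = 0 := by
      rw [pi_eq_zero_iff_val_lt (d := d)]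
      refine lt_of_pow_lt_pow_left₀ l zero_le ?_
      rw [one_pow, show ((ηA : A) : Qb) = η from rfl, hvη]
      exact (pi_eq_zero_iff_val_lt (d := d) _).1 C.pi_e
    have := redsTo_one.add ((redsTo_algebraMap ηA).mul hG)
    rwa [hπη, map_zero, zero_mul, add_zero] at this
  have hM0 : M ≠ 0 := hM.ne_zero one_ne_zero
  set eF := algebraMap Qb (modularFunctionFieldBar p) (C.e : Qb)
  have hY : d.RedsTo ((X - T) / M ^ l) 0 := by
    have := redsTo_div (hX.sub hTr) (redsTo_pow hM l) (by rw [one_pow]; exact one_ne_zero)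
    rwa [sub_self, zero_div] at this
  obtain ⟨θ, Y', Yb, hθ, hY', hYY⟩ := exists_eq_small_mul hY
  have hgM : d.RedsTo (g / M) 1 := by
    have := redsTo_div hgr hM one_ne_zero
    rwa [div_one] at this
  have heq : algebraMap Qb _ r * (g / M) ^ l * C'.f =
      1 + algebraMap Qb _ ((C.e * θ : A) : Qb) * Y' := by
    rw [MulMemClass.coe_mul, map_mul, mul_assoc (algebraMap Qb _ (C.e : Qb)), ← hYY, div_pow, mul_div_assoc',
      div_mul_eq_mul_div, hr, show N = _ from hNX]
    rw [← sub_eq_iff_eq_add', div_sub_one (pow_ne_zero _ hM0), mul_div_assoc']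
    congr 1
    rw [hT]
    ring
  have h1 := val_le_of_rep hl hϖ hπϖ hϖ0 C' hgM hY' heq
  rw [MulMemClass.coe_mul, map_mul] at h1
  refine lt_of_le_of_lt h1 ?_
  calc A.valuation (C.e : Qb) * A.valuation (θ : Qb)
      < A.valuation (C.e : Qb) * 1 :=
        mul_lt_mul_of_pos_left ((pi_eq_zero_iff_val_lt (d := d) θ).1 hθ)
          (zero_lt_iff.2 ((Valuation.ne_zero_iff _).2 C.e_ne))
    _ = _ := mul_one _

/-- The count of an ordinary group of `l`-torsion classes in the kernel of reduction. -/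
theorem natCard_le_of_ordinary (hd : d.IsLaurent)
    (hdeg : Module.finrank (IntermediateField.adjoin k {jRed k p})
      (modularFunctionFieldFullC k p) = p + 1)
    (hlp : ¬ l ∣ p) (W : AddSubgroup (Pic0 Qb (modularFunctionFieldBar p))) [Finite W]
    (hW : ∀ z ∈ W, d.redPic0 z = 0 ∧ l • z = 0) (hT : ∀ z ∈ W, heckeEll p l z ∈ W)
    (hinj : ∀ z ∈ W, heckeEll p l z = 0 → z = 0) (n : ℕ) :
    Nat.card W ≤ l ^ (heckeMat (N := p) hlp ^ n).rank := by
  classical
  have hl : l.Prime := Fact.out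
  have hlsub : l - 1 ≠ 0 := by have := hl.two_le; omega
  obtain ⟨w, hw⟩ := IsAlgClosed.exists_pow_nat_eq (-(l : Qb)) (show 0 < l - 1 by omega)
  have hwA : w ∈ A := by
    rw [← A.valuation_le_one_iff, ← pow_le_one_iff_of_nonneg zero_le hlsub, ← map_pow, hw,
      Valuation.map_neg]
    exact (A.valuation_le_one_iff _).2 (natCast_mem A l)
  set ϖ : A := ⟨w, hwA⟩
  have hϖ0 : (ϖ : Qb) ≠ 0 := fun h => by
    have : w = 0 := h
    rw [this, zero_pow hlsub, zero_eq_neg] at hw
    exact hl.ne_zero (by exact_mod_cast hw)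
  have hπϖ : π ϖ = 0 := by
    have h : (π ϖ) ^ (l - 1) = 0 := by
      rw [← map_pow, show ϖ ^ (l - 1) = -(l : A) from Subtype.ext (by simpa using hw), map_neg,
        map_natCast, CharP.cast_eq_zero, neg_zero]
    exact eq_zero_of_pow_eq_zero h
  obtain ⟨B₀, hB₀⟩ := GoodReductionDatum.exists_bound (K := Qb) (F := modularFunctionFieldBar p)
  obtain ⟨B⟩ := exists_base (d := d) hB₀ (cInf p)
  refine (natCard_le_of_scalar hd hdeg hlp (ϖ := ϖ) hw B W hW ?_ n).2
  intro z hz C
  -- the largest scalar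
  by_contra hne
  have hge := val_pow_le (ϖ := w) hl hw C
  have hgt : A.valuation ((ϖ : Qb) ^ l) < A.valuation (C.e : Qb) := hge.lt_of_ne (Ne.symm hne)
  have : Fintype W := Fintype.ofFinite W
  let S : Finset W := Finset.univ.filter fun x => ∃ C : Canon B l (x : Pic0 Qb _),
    A.valuation ((ϖ : Qb) ^ l) < A.valuation (C.e : Qb)
  have hS : S.Nonempty := ⟨⟨z, hz⟩, Finset.mem_filter.2 ⟨Finset.mem_univ _, C, hgt⟩⟩
  choose Cx hCx using fun x : S => (Finset.mem_filter.1 x.2).2
  obtain ⟨x₀, -, hmax⟩ := S.attach.exists_max_image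
    (fun x => A.valuation ((Cx x).e : Qb)) (by simpa using hS)
  -- `x₀ = T y`
  let T : W → W := fun x => ⟨heckeEll p l x, hT _ x.2⟩
  have hTinj : Function.Injective T := fun a b h => by
    refine Subtype.ext (sub_eq_zero.1 (hinj _ (sub_mem a.2 b.2) ?_))
    rw [map_sub]
    exact sub_eq_zero.2 (congrArg Subtype.val h)
  obtain ⟨y, hy⟩ := (Finite.injective_iff_surjective.1 hTinj) (x₀ : W)
  have hy0 : (y : Pic0 Qb (modularFunctionFieldBar p)) ≠ 0 := fun h => (Cx x₀).class_ne_zero (by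
    rw [← hy]
    show heckeEll p l (y : Pic0 Qb _) = 0
    rw [h, map_zero])
  obtain ⟨Cy⟩ := exists_canon B hl.ne_zero (hW _ y.2).1 (hW _ y.2).2 hy0
  have hyx : heckeEll p l (y : Pic0 Qb _) = ((x₀ : W) : Pic0 Qb _) := congrArg Subtype.val hy
  obtain ⟨C₁, hval⟩ : ∃ C₁ : Canon B l (heckeEll p l (y : Pic0 Qb _)),
      A.valuation (C₁.e : Qb) = A.valuation ((Cx x₀).e : Qb) := by
    have key : ∀ z' : Pic0 Qb (modularFunctionFieldBar p), z' = ((x₀ : W) : Pic0 Qb _) →
        ∃ C₁ : Canon B l z', A.valuation (C₁.e : Qb) = A.valuation ((Cx x₀).e : Qb) := by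
      rintro z' rfl
      exact ⟨_, rfl⟩
    exact key _ hyx
  obtain ⟨h1, h2⟩ := val_heckeEll_le hd hlp hw hπϖ hϖ0 Cy C₁
  rw [hval] at h1 h2
  rcases (val_pow_le (ϖ := w) hl hw Cy).lt_or_eq with h | h
  · have hyS : y ∈ S := Finset.mem_filter.2 ⟨Finset.mem_univ _, Cy, h⟩
    have hle : A.valuation (Cy.e : Qb) ≤ A.valuation ((Cx ⟨y, hyS⟩).e : Qb) :=
      (Canon.val_eq hl hw hπϖ hϖ0 Cy (Cx ⟨y, hyS⟩)).le
    exact absurd ((h2 h).trans_le (hle.trans (hmax ⟨y, hyS⟩ (Finset.mem_attach _ _)))) (lt_irrefl _)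
  · rw [← h] at h1
    exact absurd (hCx x₀) (not_lt.2 h1)

end FermatAgent.Mazur.Descent

end
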