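import Fermat.Agent.Mazur.Descent.Kernel.Basic
import Fermat.Agent.JacCharts.Torsion

/-!
# Canonical functions of `l`-torsion classes in the kernel of reduction

Fix a reduced effective divisor `S` of degree `g` with non-special reduction without repetitions.
A class `z` killed by `l` and reducing to zero is `[E - S]` with `redDiv E = redDiv S`, and
`l (E - S)` is the divisor of a function `1 + e h` with `π e = 0` and `h` reducing to a
non-constant function.
-/

set_option autoImplicit false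

noncomputable section

open AlgebraicCurve FermatAgent.Curve FermatAgent.Curve.RR FermatAgent.Curve.Diff
open FermatAgent.JacCharts FermatAgent.JacCharts.GoodReductionDatum

namespace FermatAgent.Mazur.Descent

variable {K : Type*} [Field K] {A : ValuationSubring K} {k : Type*} [Field k] {π : A →+* k}
variable {F : Type*} [Field F] [Algebra K F] {Fb : Type*} [Field Fb] [Algebra k Fb]
variable [RRSetting K F] [RRSetting k Fb]

/-- A base divisor avoiding the disc of the marked place. -/
structure Base (d : GoodReductionDatum A π F Fb) (Pinf : Place K F) where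
  S : Divisor K F
  nonneg : 0 ≤ S
  degree_eq : Divisor.degree S = genusFF K F
  ell_eq : ell (d.redDiv S) = 1
  le_one : ∀ Q : Place k Fb, d.redDiv S Q ≤ 1
  avoid : d.redDiv S (d.place Pinf) = 0

variable {d : GoodReductionDatum A π F Fb} {Pinf : Place K F}

theorem exists_base [Infinite k] {B : Divisor K F}
    (hB : 4 * (genusFF K F : ℤ) + 2 ≤ Divisor.degree B) (Pinf : Place K F) :
    Nonempty (Base d Pinf) := by
  classical
  obtain ⟨s, hcard, hs, hell, -⟩ := exists_nonspecial (K := k) (F := Fb)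
    (S := {d.place Pinf}) (Set.finite_singleton _)
  choose P hP using fun Q => d.exists_place_eq hB Q
  have hred : d.redDiv (∑ Q ∈ s, Finsupp.single (P Q) (1 : ℤ)) =
      ∑ Q ∈ s, Finsupp.single Q (1 : ℤ) := by
    rw [map_sum]
    exact Finset.sum_congr rfl fun Q _ => by
      rw [Finsupp.mapDomain.addMonoidHom_apply, Finsupp.mapDomain_single, hP]
  refine ⟨⟨∑ Q ∈ s, Finsupp.single (P Q) (1 : ℤ), ?_, ?_, ?_, fun Q => ?_, ?_⟩⟩
  · exact Finset.sum_nonneg fun Q _ => Finsupp.single_nonneg.2 zero_le_one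
  · rw [map_sum, Finset.sum_congr rfl fun Q _ => Curve.RR.degree_single (P Q) 1, Finset.sum_const,
      hcard, d.genus_eq, nsmul_one]
  · rw [hred]; exact hell
  · rw [hred, Finsupp.finsetSum_apply]
    simp only [Finsupp.single_apply]
    rw [Finset.sum_ite_eq']
    split <;> norm_num
  · rw [hred, Finsupp.finsetSum_apply]
    simp only [Finsupp.single_apply]
    rw [Finset.sum_ite_eq', if_neg fun h => hs _ h (Set.mem_singleton _)]

variable {l : ℕ}

/-- The data attached to a class killed by `l` in the kernel of reduction. -/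
structure Canon (B : Base d Pinf) (l : ℕ) (z : Pic0 K F) where
  E : Divisor K F
  nonneg : 0 ≤ E
  red_eq : d.redDiv E = d.redDiv B.S
  isRep : IsRep z (E - B.S)
  f : F
  e : A
  h : F
  H : Fb
  f_ne : f ≠ 0
  div_eq : divOf (K := K) f = (l : ℤ) • (E - B.S)
  f_eq : f = 1 + algebraMap K F (e : K) * h
  pi_e : π e = 0
  e_ne : (e : K) ≠ 0
  h_mem : h ∈ riemannRochSpace ((l : ℤ) • B.S)
  redsTo_h : d.RedsTo h H
  H_mem : H ∈ riemannRochSpace ((l : ℤ) • d.redDiv B.S)
  H_nc : H ∉ Set.range (algebraMap k Fb)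

variable {B : Base d Pinf}

namespace Canon

variable {z : Pic0 K F}

omit [RRSetting k Fb] in
theorem redsTo_f (C : Canon B l z) : d.RedsTo C.f 1 := by
  have h := (redsTo_one (d := d)).add ((redsTo_algebraMap C.e).mul C.redsTo_h)
  rw [C.pi_e, map_zero, zero_mul, add_zero] at h
  rwa [← C.f_eq] at h

omit [RRSetting k Fb] in
/-- Changing the scalar by a unit. -/
theorem exists_rescale (C : Canon B l z) {e' : A} (he' : A.valuation (e' : K) = A.valuation C.e) :
    ∃ C' : Canon B l z, C'.e = e' ∧ C'.f = C.f := by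
  have hv : A.valuation (C.e : K) ≠ 0 := (Valuation.ne_zero_iff _).2 C.e_ne
  have he0 : (e' : K) ≠ 0 := fun h => by rw [h, map_zero] at he'; exact hv he'.symm
  have hq : (C.e : K) / e' ∈ A := by
    rw [← A.valuation_le_one_iff, map_div₀, he', div_self hv]
  have hu : π ⟨_, hq⟩ ≠ 0 := by
    rw [ne_eq, pi_eq_zero_iff_val_lt (d := d)]
    rw [map_div₀, he', div_self hv]
    exact lt_irrefl _
  refine ⟨{ C with
      e := e'
      h := algebraMap K F ((C.e : K) / e') * C.h
      H := algebraMap k Fb (π ⟨_, hq⟩) * C.H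
      f_eq := ?_
      pi_e := ?_
      e_ne := he0
      h_mem := ?_
      redsTo_h := ?_
      H_mem := ?_
      H_nc := ?_ }, rfl, rfl⟩
  · rw [← mul_assoc, ← map_mul, mul_div_cancel₀ _ he0]
    exact C.f_eq
  · rw [pi_eq_zero_iff_val_lt (d := d), he', ← pi_eq_zero_iff_val_lt (d := d)]
    exact C.pi_e
  · simpa [Algebra.smul_def] using Submodule.smul_mem _ ((C.e : K) / e') C.h_mem
  · exact (redsTo_algebraMap ⟨_, hq⟩).mul C.redsTo_h
  · simpa [Algebra.smul_def] using Submodule.smul_mem _ (π ⟨_, hq⟩) C.H_mem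
  · rintro ⟨a, ha⟩
    refine C.H_nc ⟨a / π ⟨_, hq⟩, ?_⟩
    rw [map_div₀, ha, mul_div_cancel_left₀ _ ((map_ne_zero _).2 hu)]

end Canon

/-- Every nonzero class killed by `l` in the kernel of reduction has canonical data. -/
theorem exists_canon (B : Base d Pinf) (hl : l ≠ 0) {z : Pic0 K F} (hz : d.redPic0 z = 0)
    (hlz : l • z = 0) (hz0 : z ≠ 0) : Nonempty (Canon B l z) := by
  obtain ⟨D, hD⟩ := exists_isRep z
  have hdeg : Divisor.degree (D + B.S) = genusFF K F := by
    rw [map_add, hD.degree_eq, B.degree_eq, zero_add]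
  obtain ⟨E, hE, hEp⟩ := exists_effective_linearEquiv (D := D + B.S) hdeg.ge
  have hrep : IsRep z (E - B.S) := by
    refine hD.of_sub_mem ?_ ?_
    · rw [map_sub, degree_eq_of_linearEquiv hEp, hdeg, B.degree_eq, sub_self]
    · rw [show D - (E - B.S) = -(E - (D + B.S)) by abel]
      exact neg_mem hEp
  have hredp : d.redDiv (E - B.S) ∈ Divisor.principal (K := k) (F := Fb) := by
    obtain ⟨hm, hzE⟩ := hrep
    rw [hzE, redPic0_mk_eq_zero_iff] at hz
    exact hz
  have hred : d.redDiv E = d.redDiv B.S := by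
    refine eq_of_ell_eq_one (redDiv_nonneg B.nonneg) (redDiv_nonneg hE) B.ell_eq ?_
    rwa [← map_sub]
  have hlp : (l : ℤ) • (E - B.S) ∈ Divisor.principal (K := K) (F := F) := by
    obtain ⟨hm, hzE⟩ := hrep
    rw [hzE] at hlz
    have h1 : Pic0.mk (l • (⟨_, hm⟩ : Divisor.degZero (K := K) (F := F))) = 0 := by
      rw [← hlz]
      exact QuotientAddGroup.mk_nsmul _ _ _
    rw [Pic0.mk, QuotientAddGroup.eq_zero_iff, AddSubgroup.mem_addSubgroupOf,
      AddSubgroup.coe_nsmul] at h1
    rwa [natCast_zsmul]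
  obtain ⟨f₀, hf₀, hdiv⟩ := hlp
  obtain ⟨c, hc, fb, hfb, hfr⟩ := d.exists_scale hf₀
  have hcf := hfr.ne_zero hfb
  have hdiv' : divOf (K := K) (c • f₀) = (l : ℤ) • (E - B.S) := Finsupp.ext fun v => by
    rw [divOf_apply hcf, ord_const_smul v hc hf₀, hdiv v]
  have hfb_div : divOf (K := k) fb = 0 := by
    rw [← hfr.redDiv_divOf hfb, hdiv', map_zsmul, map_sub, hred, sub_self, smul_zero]
  obtain ⟨a, ha⟩ : ∃ a : k, algebraMap k Fb a = fb := by
    have hmem : fb ∈ riemannRochSpace (0 : Divisor k Fb) := by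
      rw [mem_L_iff_divOf hfb, hfb_div, add_zero]
    rw [riemannRochSpace_zero_eq, Submodule.mem_span_singleton] at hmem
    obtain ⟨a, rfl⟩ := hmem
    exact ⟨a, by rw [Algebra.smul_def, mul_one]⟩
  have ha0 : a ≠ 0 := fun h => hfb (by rw [← ha, h, map_zero])
  obtain ⟨b, hb⟩ := d.residue_surjective a⁻¹
  have hb0 : (b : K) ≠ 0 := fun h => by
    rw [show b = 0 from Subtype.ext h, map_zero] at hb
    exact inv_ne_zero ha0 hb.symm
  set f₁ : F := (b : K) • (c • f₀)
  have hf₁ : d.RedsTo f₁ 1 := by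
    have := hfr.smul b
    rwa [hb, ← ha, Algebra.smul_def a⁻¹, ← map_mul, inv_mul_cancel₀ ha0, map_one] at this
  have hf₁0 : f₁ ≠ 0 := hf₁.ne_zero one_ne_zero
  have hdiv₁ : divOf (K := K) f₁ = (l : ℤ) • (E - B.S) := Finsupp.ext fun v => by
    rw [divOf_apply hf₁0, ord_const_smul v hb0 hcf, ← divOf_apply (K := K) hcf v, hdiv']
  have hnc : f₁ ∉ Set.range (algebraMap K F) := by
    rintro ⟨r, hr⟩
    have hr0 : r ≠ 0 := fun h => hf₁0 (by rw [← hr, h, map_zero])
    have h0 : divOf (K := K) f₁ = 0 := Finsupp.ext fun v => by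
      rw [divOf_apply hf₁0, ← hr, JacCharts.ord_algebraMap v hr0, Finsupp.zero_apply]
    rw [hdiv₁, smul_eq_zero, sub_eq_zero] at h0
    rcases h0 with h0 | h0
    · exact hl (by exact_mod_cast h0)
    · rw [h0, sub_self] at hrep
      exact hz0 (hrep.unique isRep_zero)
  obtain ⟨c', e, h, H, hc', he, he0, hfe, hh, hH, hspan⟩ := exists_dev hf₁ hnc
  have hc'0 : (c' : K) ≠ 0 := fun h0 => by
    rw [show c' = 0 from Subtype.ext h0, map_zero] at hc'
    exact zero_ne_one hc'
  obtain ⟨u, hu⟩ := (d.isUnit_iff_pi_ne_zero c').2 (by rw [hc']; exact one_ne_zero)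
  set ci : A := ((u⁻¹ : Aˣ) : A)
  have hci : (ci : K) * c' = 1 := by
    have h' : ci * c' = 1 := by rw [← hu]; simp [ci]
    exact congrArg Subtype.val h'
  have hci0 : (ci : K) ≠ 0 := left_ne_zero_of_mul_eq_one hci
  set f₂ : F := (ci : K) • f₁
  have hf₂0 : f₂ ≠ 0 := smul_ne_zero hci0 hf₁0
  have hh_mem : h ∈ riemannRochSpace ((l : ℤ) • B.S) := by
    refine Submodule.span_le.2 ?_ hspan
    have hS : (0 : Divisor K F) ≤ (l : ℤ) • B.S := by
      rw [natCast_zsmul]; exact nsmul_nonneg B.nonneg l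
    rintro x (rfl | rfl)
    · exact one_mem_L hS
    · show f₁ ∈ riemannRochSpace _
      rw [mem_L_iff_divOf hf₁0, hdiv₁, smul_sub, sub_add_cancel, natCast_zsmul]
      exact nsmul_nonneg hE l
  exact ⟨{
    E := E, nonneg := hE, red_eq := hred, isRep := hrep
    f := f₂, e := ci * e, h := h, H := H
    f_ne := hf₂0
    div_eq := Finsupp.ext fun v => by
      rw [divOf_apply hf₂0, ord_const_smul v hci0 hf₁0, ← divOf_apply (K := K) hf₁0 v, hdiv₁]
    f_eq := by
      show (ci : K) • f₁ = _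
      rw [hfe, Algebra.smul_def, mul_add, ← map_mul, hci, map_one, ← mul_assoc, ← map_mul]
      rfl
    pi_e := by rw [map_mul, he, mul_zero]
    e_ne := mul_ne_zero hci0 he0
    h_mem := hh_mem
    redsTo_h := hh
    H_mem := by
      have := hh.mem_L hh_mem
      rwa [map_zsmul] at this
    H_nc := hH }⟩

end FermatAgent.Mazur.Descent

end
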