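import Fermat.Agent.Mazur.Descent.Kernel.Polar

/-!
# Functionals on polar parts at a place given by Laurent series

For a function field inside a Laurent series field with the place `Qi` of the variable, a sequence
`c` of vectors spanning a space of dimension `g` and orthogonal to the polar parts of functions
regular outside `Qi` detects the classes of polar parts modulo those functions.
-/

set_option autoImplicit false

noncomputable section

open AlgebraicCurve FermatAgent.Curve.RR FermatAgent.Curve.Diff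

namespace FermatAgent.Mazur.Descent

variable {k : Type*} [Field k] {Fb : IntermediateField k (LaurentSeries k)}
variable {V : Type*} [AddCommGroup V] [Module k V]

/-- The coefficient of `q ^ (-n)`, as a linear form. -/
def polarCoeff (n : ℕ) : Fb →ₗ[k] k where
  toFun G := (G : LaurentSeries k).coeff (-(n : ℤ))
  map_add' G G' := rfl
  map_smul' a G := by
    show ((a • G : Fb) : LaurentSeries k).coeff _ = a * _
    rw [Algebra.smul_def, MulMemClass.coe_mul, IntermediateField.coe_algebraMap_apply,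
      ModularCurve.algebraMap_laurentSeries_eq_single, HahnSeries.coeff_single_zero_mul]

theorem finite_support_polar (c : ℕ → V) (G : Fb) :
    (Function.support fun n : ℕ => polarCoeff n G • c n).Finite := by
  refine (Set.finite_le_nat (G : LaurentSeries k).order.natAbs).subset fun n hn => ?_
  simp only [Function.mem_support] at hn
  show n ≤ _
  by_contra hlt
  refine hn ?_
  rw [show polarCoeff n G = 0 from HahnSeries.coeff_eq_zero_of_lt_order (by omega), zero_smul]

/-- The pairing of polar parts with the sequence `c`. -/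
def polarPairing (c : ℕ → V) : Fb →+ V where
  toFun G := ∑ᶠ n : ℕ, polarCoeff n G • c n
  map_zero' := by simp
  map_add' G G' := by
    rw [← finsum_add_distrib (finite_support_polar c G) (finite_support_polar c G')]
    exact finsum_congr fun n => by rw [map_add, add_smul]

theorem polarPairing_eq_sum (c : ℕ → V) (G : Fb) {M : ℕ}
    (hM : ∀ n : ℤ, n < -(M : ℤ) → (G : LaurentSeries k).coeff n = 0) :
    polarPairing c G = ∑ n ∈ Finset.range (M + 1), polarCoeff n G • c n := by
  refine finsum_eq_sum_of_support_subset _ fun n hn => ?_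
  simp only [Finset.coe_range, Set.mem_Iio, Function.mem_support] at hn ⊢
  by_contra hlt
  refine hn ?_
  rw [show polarCoeff n G = 0 from hM _ (by omega), zero_smul]

theorem exists_pole_bound (G : Fb) :
    ∃ M : ℕ, ∀ n : ℤ, n < -(M : ℤ) → (G : LaurentSeries k).coeff n = 0 :=
  ⟨(G : LaurentSeries k).order.natAbs, fun n hn =>
    HahnSeries.coeff_eq_zero_of_lt_order (by omega)⟩

variable [RRSetting k Fb] {Qi : Place k Fb}
variable (hQi : ∀ f : Fb, Qi.ord f = (f : LaurentSeries k).order)

include hQi in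
omit [RRSetting k Fb] in
theorem coeff_eq_zero_of_ordGE {m : ℤ} {G : Fb} (h : OrdGE Qi m G) {n : ℤ} (hn : n < m) :
    (G : LaurentSeries k).coeff n = 0 := by
  rcases h with rfl | h
  · simp
  · exact HahnSeries.coeff_eq_zero_of_lt_order (by rw [← hQi]; omega)

include hQi in
omit [RRSetting k Fb] in
theorem ordGE_of_coeff {m : ℤ} {G : Fb} (h : ∀ n < m, (G : LaurentSeries k).coeff n = 0) :
    OrdGE Qi m G := by
  rcases eq_or_ne G 0 with h0 | h0
  · exact Or.inl h0
  refine Or.inr ?_
  rw [hQi]
  by_contra hlt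
  exact HahnSeries.coeff_order_eq_zero.not.2 (fun hG => h0 (Subtype.ext hG)) (h _ (by omega))

include hQi in
omit [RRSetting k Fb] in
theorem polarPairing_eq_zero_of_regular (c : ℕ → V) (hc0 : c 0 = 0) {G : Fb}
    (h : OrdGE Qi 0 G) : polarPairing c G = 0 := by
  refine finsum_eq_zero_of_forall_eq_zero fun n => ?_
  rcases Nat.eq_zero_or_pos n with rfl | hn
  · rw [hc0, smul_zero]
  · rw [show polarCoeff n G = 0 from coeff_eq_zero_of_ordGE hQi h (by omega), zero_smul]

include hQi in
/-- Polar parts killed by the pairing come from functions regular outside `Qi`. -/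
theorem exists_sub_regular_of_polarPairing_eq_zero [FiniteDimensional k V] (c : ℕ → V)
    (hc0 : c 0 = 0) (hspan : Submodule.span k (Set.range c) = ⊤)
    (hdim : Module.finrank k V = genusFF k Fb)
    (hfree : ∀ G : Fb, (∀ Q : Place k Fb, Q ≠ Qi → OrdGE Q 0 G) → polarPairing c G = 0)
    (G : Fb) (hG : polarPairing c G = 0) :
    ∃ G₀ : Fb, (∀ Q : Place k Fb, Q ≠ Qi → OrdGE Q 0 G₀) ∧ OrdGE Qi 0 (G - G₀) := by
  classical
  -- finitely many `c n` span
  obtain ⟨N₀, hN₀⟩ : ∃ N₀ : ℕ, Submodule.span k (c '' Set.Iic N₀) = ⊤ := by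
    obtain ⟨t, ht, htspan⟩ := Submodule.fg_span_iff_fg_span_finset_subset (Set.range c) |>.1
      (hspan ▸ Module.Finite.fg_top)
    rw [hspan] at htspan
    choose g hg using fun x : t => ht x.2
    refine ⟨Finset.univ.sup g, eq_top_iff.2 (htspan ▸ Submodule.span_le.2 fun x hx => ?_)⟩
    exact Submodule.subset_span ⟨g ⟨x, hx⟩, Finset.le_sup (f := g) (Finset.mem_univ _), hg ⟨x, hx⟩⟩
  obtain ⟨M, hM⟩ := exists_pole_bound G
  set N := max (max N₀ M) (2 * genusFF k Fb) with hN
  let D : Divisor k Fb := Finsupp.single Qi (N : ℤ)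
  -- polar parts of length `N`
  let P : riemannRochSpace D →ₗ[k] (Fin N → k) :=
    LinearMap.pi fun i => (polarCoeff (i.1 + 1)).comp (riemannRochSpace D).subtype
  let Λ : (Fin N → k) →ₗ[k] V := Fintype.linearCombination k fun i => c (i.1 + 1)
  have hΛ : Function.Surjective Λ := by
    rw [← LinearMap.range_eq_top, Fintype.range_linearCombination, eq_top_iff, ← hN₀,
      Submodule.span_le]
    rintro _ ⟨n, hn, rfl⟩
    rcases Nat.eq_zero_or_pos n with rfl | hn0
    · rw [hc0]; exact zero_mem _
    · refine Submodule.subset_span ⟨⟨n - 1, ?_⟩, ?_⟩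
      · have : n ≤ N₀ := hn
        omega
      · exact congrArg c (Nat.succ_pred_eq_of_pos hn0)
  have hsum : ∀ f : Fb, (∀ n : ℤ, n < -(N : ℤ) → (f : LaurentSeries k).coeff n = 0) →
      polarPairing c f = Λ fun i => polarCoeff (i.1 + 1) f := fun f hf => by
    rw [polarPairing_eq_sum c f hf, Finset.sum_range_succ', hc0, smul_zero, add_zero,
      ← Fin.sum_univ_eq_sum_range (fun n => polarCoeff (n + 1) f • c (n + 1))]
    simp [Λ, Fintype.linearCombination_apply]
  have hDmem : ∀ f : Fb, f ∈ riemannRochSpace D →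
      (∀ Q, Q ≠ Qi → OrdGE Q 0 f) ∧
        ∀ n : ℤ, n < -(N : ℤ) → (f : LaurentSeries k).coeff n = 0 := by
    intro f hf
    rw [mem_riemannRochSpace_iff] at hf
    refine ⟨fun Q hQ => (hf Q).imp_right fun h => ?_, fun n hn => ?_⟩
    · simpa [D, Finsupp.single_eq_of_ne hQ] using h
    · refine coeff_eq_zero_of_ordGE hQi (m := -(N : ℤ)) ((hf Qi).imp_right fun h => ?_) hn
      simpa [D] using h
  have hle : LinearMap.range P ≤ LinearMap.ker Λ := by
    rintro _ ⟨f, rfl⟩
    rw [LinearMap.mem_ker]
    have := hfree f (hDmem f f.2).1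
    rwa [hsum f (hDmem f f.2).2] at this
  have heq : LinearMap.range P = LinearMap.ker Λ := by
    refine Submodule.eq_of_le_of_finrank_le hle ?_
    have h1 := LinearMap.finrank_range_add_finrank_ker P
    have h2 := LinearMap.finrank_range_add_finrank_ker Λ
    rw [LinearMap.range_eq_top.2 hΛ, finrank_top, hdim, Module.finrank_fin_fun] at h2
    have h3 : Module.finrank k (LinearMap.ker P) ≤ 1 := by
      have hmap : (LinearMap.ker P).map (riemannRochSpace D).subtype ≤
          riemannRochSpace (0 : Divisor k Fb) := by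
        rintro _ ⟨f, hf, rfl⟩
        refine mem_riemannRochSpace_iff.2 fun Q => ?_
        rcases eq_or_ne Q Qi with rfl | hQ
        · refine (ordGE_of_coeff hQi (m := 0) fun n hn => ?_).imp_right fun h => by simpa using h
          rcases lt_or_ge n (-(N : ℤ)) with h | h
          · exact (hDmem f f.2).2 n h
          · have h0 := congrFun (LinearMap.mem_ker.1 hf) ⟨(-n).toNat - 1, by omega⟩
            have e : n = -((((-n).toNat - 1 + 1 : ℕ)) : ℤ) := by omega
            rw [e]
            exact h0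
        · exact ((hDmem f f.2).1 Q hQ).imp_right fun h => by simpa using h
      have := Submodule.finrank_mono hmap
      rw [← (Submodule.equivMapOfInjective (riemannRochSpace D).subtype
        (Submodule.injective_subtype _) (LinearMap.ker P)).finrank_eq] at this
      exact this.trans_eq ell_zero
    have h4 : (ell D : ℤ) = N + 1 - genusFF k Fb := by
      rw [ell_eq_of_degree_ge (by rw [Curve.RR.degree_single]; omega), Curve.RR.degree_single]
    have h5 : Module.finrank k (riemannRochSpace D) = ell D := rfl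
    omega
  have hG' : (fun i : Fin N => polarCoeff (i.1 + 1) G) ∈ LinearMap.ker Λ := by
    rw [LinearMap.mem_ker, ← hsum G fun n hn => hM n (by omega)]
    exact hG
  rw [← heq] at hG'
  obtain ⟨⟨G₀, hG₀⟩, hP⟩ := hG'
  refine ⟨G₀, (hDmem G₀ hG₀).1, ordGE_of_coeff hQi fun n hn => ?_⟩
  show ((G : LaurentSeries k) - (G₀ : LaurentSeries k)).coeff n = 0
  rw [HahnSeries.coeff_sub]
  rcases lt_or_ge n (-(N : ℤ)) with h | h
  · rw [hM n (by omega), (hDmem G₀ hG₀).2 n h, sub_zero]
  · have h0 := congrFun hP ⟨(-n).toNat - 1, by omega⟩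
    have e : n = -((((-n).toNat - 1 + 1 : ℕ)) : ℤ) := by omega
    rw [e, sub_eq_zero]
    exact h0.symm

omit [Module k V] in
/-- Functions with prescribed simple polar parts at a finite set of points and any pole at `Qi`. -/
theorem exists_prescribed_polar (s : Finset (Place k Fb)) (hs : Qi ∉ s) (c : Place k Fb → Fb)
    (hc : ∀ Q ∈ s, OrdGE Q (-1) (c Q)) :
    ∃ G : Fb, (∀ Q, Q ≠ Qi → Q ∉ s → OrdGE Q 0 G) ∧ (∀ Q ∈ s, OrdGE Q (-1) G) ∧
      ∀ Q ∈ s, OrdGE Q 0 (G - c Q) := by
  classical
  have hmk : ∀ Q ∈ s, ∃ g : Fb, Q.ord g = -1 ∧ ∀ Q', Q' ≠ Qi → Q' ≠ Q → OrdGE Q' 0 g := by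
    intro Q hQ
    have hne : Q ≠ Qi := fun h => hs (h ▸ hQ)
    obtain ⟨g, hg, hg0, hgo⟩ := exists_mem_ord_eq (K := k) (F := Fb)
      (D := Finsupp.single Qi ((2 * genusFF k Fb : ℕ) : ℤ) + Finsupp.single Q 1)
      (by rw [map_add, Curve.RR.degree_single, Curve.RR.degree_single]; omega) Q
    refine ⟨g, by simpa [Finsupp.single_eq_of_ne hne] using hgo, fun Q' h1 h2 => ?_⟩
    exact ((mem_riemannRochSpace_iff.1 hg) Q').imp_right fun h => by
      simpa [Finsupp.single_eq_of_ne h1, Finsupp.single_eq_of_ne h2] using h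
  choose g hgo hgreg using hmk
  have ha : ∀ Q (hQ : Q ∈ s), ∃ a : k, OrdGE Q 0 (c Q - a • g Q hQ) := fun Q hQ => by
    obtain ⟨a, ha⟩ := exists_sub_smul Q (RRSetting.deg_eq_one Q)
      (fun h => by have := hgo Q hQ; rw [h, Place.ord_zero] at this; omega) (hgo Q hQ) (hc Q hQ)
    exact ⟨a, ha.imp_right fun h => by omega⟩
  choose a ha using ha
  have hsmul : ∀ (R : Place k Fb) (m : ℤ) (x : k) (f : Fb), OrdGE R m f → OrdGE R m (x • f) :=
    fun R m x f hf => by
      rw [Algebra.smul_def]
      simpa using (ordGE_algebraMap (v := R) x).mul hf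
  refine ⟨∑ x ∈ s.attach, a x.1 x.2 • g x.1 x.2, fun Q h1 h2 => ?_, fun Q hQ => ?_, fun Q hQ => ?_⟩
  · exact OrdGE.sum _ fun x _ => hsmul _ _ _ _ (hgreg x.1 x.2 Q h1 fun h => h2 (h ▸ x.2))
  · refine OrdGE.sum _ fun x _ => hsmul _ _ _ _ ?_
    rcases eq_or_ne (x : Place k Fb) Q with h | h
    · subst h; exact Or.inr (hgo _ x.2).ge
    · exact (hgreg x.1 x.2 Q (fun h' => hs (h' ▸ hQ)) (Ne.symm h)).mono (by omega)
  · rw [← Finset.add_sum_erase _ _ (Finset.mem_attach s ⟨Q, hQ⟩), add_sub_right_comm]
    refine OrdGE.add ?_ (OrdGE.sum _ fun x hx => hsmul _ _ _ _ ?_)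
    · rw [← neg_sub]; exact (ha Q hQ).neg
    · refine hgreg x.1 x.2 Q (fun h' => hs (h' ▸ hQ)) fun h => (Finset.mem_erase.1 hx).1 ?_
      exact Subtype.ext h.symm

end FermatAgent.Mazur.Descent

end
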