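import Fermat.Agent.Mazur.Descent.Kernel.Fixed
import Fermat.Agent.Mazur.Descent.Kernel.PolarSpace
import Fermat.Agent.DSLift.QExp
import Fermat.Agent.ModCurve.Forms.IntegralForms
import Fermat.Agent.ES.Series

/-!
# Coefficients of integral cusp forms modulo `l`

The vectors of the `n`-th coefficients modulo `l` of a basis of the integral lattice span, and the
matrix of `T_l` on the lattice sends the `n`-th to the `(l n)`-th one.
-/

set_option autoImplicit false

noncomputable section

open CongruenceSubgroup ModularFormClass ModularCurve Matrix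
open FermatAgent.DSLift (mem_intLattice_iff qCoeffLin qCoeff_zero_index eq_zero_of_qCoeff_eq_zero)

namespace FermatAgent.Mazur.Descent

variable (N : ℕ) [NeZero N]

instance moduleFiniteIntLattice : Module.Finite ℤ (CuspForm.intLattice N 2) :=
  .of_fg (CuspForm.intLattice_fg N 2)

omit [NeZero N] in
theorem isTorsionFree_intLattice : IsAddTorsionFree (CuspForm.intLattice N 2) :=
  ⟨fun n hn a b hab => Subtype.ext <| by
    have h' : (n : ℂ) • a.1 = (n : ℂ) • b.1 := by
      rw [Nat.cast_smul_eq_nsmul, Nat.cast_smul_eq_nsmul]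
      exact congrArg Subtype.val hab
    exact smul_right_injective _ (Nat.cast_ne_zero.mpr hn) h'⟩

instance moduleFreeIntLattice : Module.Free ℤ (CuspForm.intLattice N 2) :=
  haveI := isTorsionFree_intLattice N
  Module.free_of_finite_type_torsion_free'

/-- The index type of a basis of the integral lattice. -/
abbrev FormIdx : Type := Fin (Module.finrank ℤ (CuspForm.intLattice N 2))

/-- A basis of the integral lattice. -/
def formBasis : Module.Basis (FormIdx N) ℤ (CuspForm.intLattice N 2) := Module.finBasis ℤ _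

-- `omit [NeZero N]` here would change the signature of `intCoeff`
set_option linter.unusedSectionVars false in
theorem exists_intCoeff (f : CuspForm.intLattice N 2) (n : ℕ) :
    ∃ z : ℤ, qCoeff ⇑f.1 n = z := mem_intLattice_iff.1 f.2 n

/-- The coefficients of an integral form. -/
def intCoeff (f : CuspForm.intLattice N 2) (n : ℕ) : ℤ := (exists_intCoeff N f n).choose

theorem intCoeff_spec (f : CuspForm.intLattice N 2) (n : ℕ) :
    (intCoeff N f n : ℂ) = qCoeff ⇑f.1 n := (exists_intCoeff N f n).choose_spec.symm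

theorem intCoeff_sum {ι : Type*} [Fintype ι] (a : ι → ℤ) (f : ι → CuspForm.intLattice N 2) (n : ℕ) :
    intCoeff N (∑ i, a i • f i) n = ∑ i, a i * intCoeff N (f i) n := by
  apply Int.cast_injective (α := ℂ)
  rw [intCoeff_spec, Int.cast_sum, ← DSLift.qCoeffLin_apply, Submodule.coe_sum, map_sum]
  refine Finset.sum_congr rfl fun i _ => ?_
  rw [Int.cast_mul, intCoeff_spec, Submodule.coe_smul, map_zsmul, zsmul_eq_mul]
  rfl

theorem intCoeff_zero_index (f : CuspForm.intLattice N 2) : intCoeff N f 0 = 0 := by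
  apply Int.cast_injective (α := ℂ)
  rw [intCoeff_spec, qCoeff_zero_index, Int.cast_zero]

variable (l : ℕ) [Fact l.Prime] (k : Type*) [Field k] [CharP k l]

/-- The `n`-th coefficient vector modulo `l`. -/
def coeffVecMod (n : ℕ) : FormIdx N → ZMod l := fun j => (intCoeff N (formBasis N j) n : ZMod l)

/-- The `n`-th coefficient vector in a field of characteristic `l`. -/
def coeffVec (n : ℕ) : FormIdx N → k := fun j => (intCoeff N (formBasis N j) n : k)

theorem coeffVec_zero : coeffVec N k 0 = 0 := funext fun j => by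
  simp [coeffVec, intCoeff_zero_index]

theorem coeffVec_eq_cast (n : ℕ) :
    coeffVec N k n = fun j => ZMod.castHom dvd_rfl k (coeffVecMod N l n j) :=
  funext fun j => by simp [coeffVec, coeffVecMod]

/-- A form whose coefficients are all divisible by `l` is `l` times an integral form. -/
theorem eq_zero_of_forall_dotProduct (v : FormIdx N → ZMod l)
    (h : ∀ n, ∑ j, v j * coeffVecMod N l n j = 0) : v = 0 := by
  set a : FormIdx N → ℤ := fun j => ((v j).val : ℤ)
  have hav : ∀ j, (a j : ZMod l) = v j := fun j => by simp [a]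
  set F := ∑ j, a j • formBasis N j
  have hl0 : (l : ℂ) ≠ 0 := Nat.cast_ne_zero.2 (Fact.out : l.Prime).ne_zero
  have hmem : ((l : ℂ)⁻¹ • F.1) ∈ CuspForm.intLattice N 2 := by
    rw [mem_intLattice_iff]
    intro n
    have hd : (l : ℤ) ∣ intCoeff N F n := by
      rw [← ZMod.intCast_zmod_eq_zero_iff_dvd, intCoeff_sum, Int.cast_sum, ← h n]
      exact Finset.sum_congr rfl fun j _ => by rw [Int.cast_mul, hav]; rfl
    obtain ⟨z, hz⟩ := hd
    refine ⟨z, ?_⟩
    rw [← DSLift.qCoeffLin_apply, map_smul, DSLift.qCoeffLin_apply, ← intCoeff_spec, hz,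
      smul_eq_mul, Int.cast_mul, Int.cast_natCast, inv_mul_cancel_left₀ hl0]
  have hF : F = (l : ℤ) • (⟨_, hmem⟩ : CuspForm.intLattice N 2) := Subtype.ext (by
    show F.1 = (l : ℤ) • ((l : ℂ)⁻¹ • F.1)
    rw [← Int.cast_smul_eq_zsmul ℂ, smul_smul, Int.cast_natCast, mul_inv_cancel₀ hl0, one_smul])
  funext j
  have h1 := congrArg (fun x => (formBasis N).repr x j) hF
  simp only [F, Module.Basis.repr_sum_self, map_zsmul, Finsupp.smul_apply, smul_eq_mul] at h1
  rw [← hav j, h1, Int.cast_mul]
  simp

theorem span_coeffVecMod : Submodule.span (ZMod l) (Set.range (coeffVecMod N l)) = ⊤ := by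
  by_contra hne
  obtain ⟨φ, hφ0, hφ⟩ := Submodule.exists_dual_map_eq_bot_of_lt_top
    (lt_top_iff_ne_top.2 hne) inferInstance
  refine hφ0 (LinearMap.ext fun x => ?_)
  have h := eq_zero_of_forall_dotProduct N l (fun j => φ (Pi.single j 1)) fun n => by
    have h0 : φ (coeffVecMod N l n) = 0 := by
      have : φ (coeffVecMod N l n) ∈ Submodule.map φ (Submodule.span (ZMod l) (Set.range (coeffVecMod N l))) :=
        ⟨_, Submodule.subset_span ⟨n, rfl⟩, rfl⟩
      rwa [hφ, Submodule.mem_bot] at this
    rw [← h0]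
    conv_rhs => rw [pi_eq_sum_univ' (coeffVecMod N l n), map_sum]
    exact Finset.sum_congr rfl fun j _ => by rw [map_smul, smul_eq_mul, mul_comm]
  rw [pi_eq_sum_univ' x, map_sum, LinearMap.zero_apply]
  exact Finset.sum_eq_zero fun j _ => by rw [map_smul, congrFun h j, Pi.zero_apply, smul_zero]

/-- Indices with a basis of coefficient vectors. -/
theorem exists_indices :
    ∃ e : FormIdx N → ℕ, LinearIndependent (ZMod l) fun j => coeffVecMod N l (e j) := by
  obtain ⟨b, hb, hspan, hind⟩ := exists_linearIndependent (ZMod l) (Set.range (coeffVecMod N l))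
  rw [span_coeffVecMod] at hspan
  let B := Module.Basis.mk hind (by rw [Subtype.range_coe]; exact hspan.ge)
  let eq := (Pi.basisFun (ZMod l) (FormIdx N)).indexEquiv B
  choose g hg using fun x : b => hb x.2
  refine ⟨fun j => g (eq j), ?_⟩
  simp only [hg]
  exact hind.comp _ eq.injective

theorem det_indices {e : FormIdx N → ℕ}
    (he : LinearIndependent (ZMod l) fun j => coeffVecMod N l (e j)) :
    ((Matrix.of fun i j => coeffVecMod N l (e i) j) : Matrix (FormIdx N) (FormIdx N) (ZMod l)).det
      ≠ 0 :=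
  ((Matrix.isUnit_iff_isUnit_det _).1 (Matrix.linearIndependent_rows_iff_isUnit.1 he)).ne_zero

include l in
theorem span_coeffVec : Submodule.span k (Set.range (coeffVec N k)) = ⊤ := by
  obtain ⟨e, he⟩ := exists_indices N l
  have hdet := det_indices N l he
  have hk : IsUnit ((Matrix.of fun i j => coeffVec N k (e i) j) :
      Matrix (FormIdx N) (FormIdx N) k) := by
    rw [Matrix.isUnit_iff_isUnit_det, isUnit_iff_ne_zero,
      show ((Matrix.of fun i j => coeffVec N k (e i) j) : Matrix (FormIdx N) (FormIdx N) k) =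
        (Matrix.of fun i j => coeffVecMod N l (e i) j).map (ZMod.castHom dvd_rfl k) by
        ext i j; simp [coeffVec_eq_cast N l k], ← RingHom.mapMatrix_apply, ← RingHom.map_det]
    exact (map_ne_zero _).2 hdet
  have hind : LinearIndependent k fun j => coeffVec N k (e j) :=
    Matrix.linearIndependent_rows_iff_isUnit.2 hk
  rcases isEmpty_or_nonempty (FormIdx N) with h | h
  · exact Subsingleton.elim _ _
  · refine eq_top_iff.2 ((hind.span_eq_top_of_card_eq_finrank (by simp)).ge.trans
      (Submodule.span_mono ?_))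
    rintro _ ⟨j, rfl⟩
    exact ⟨e j, rfl⟩

/-- The rank of the lattice is the dimension of the space of cusp forms. -/
theorem card_formIdx : Fintype.card (FormIdx N) = Module.finrank ℂ (CuspForm (Gamma0 N) 2) := by
  have hli : LinearIndependent ℂ fun j => ((formBasis N j).1 : CuspForm (Gamma0 N) 2) := by
    have : Fact (Nat.Prime 2) := ⟨Nat.prime_two⟩
    obtain ⟨e, he⟩ := exists_indices N 2
    rw [Fintype.linearIndependent_iff]
    intro a ha
    have hdet : ((Matrix.of fun i j => (intCoeff N (formBasis N j) (e i) : ℂ)) :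
        Matrix (FormIdx N) (FormIdx N) ℂ).det ≠ 0 := by
      have h2 := det_indices N 2 he
      have hz : ((Matrix.of fun i j => intCoeff N (formBasis N j) (e i)) :
          Matrix (FormIdx N) (FormIdx N) ℤ).det ≠ 0 := fun h0 => h2 (by
        rw [show ((Matrix.of fun i j => coeffVecMod N 2 (e i) j) :
            Matrix (FormIdx N) (FormIdx N) (ZMod 2)) =
          (Matrix.of fun i j => intCoeff N (formBasis N j) (e i)).map (Int.castRingHom (ZMod 2)) from
            rfl, ← RingHom.mapMatrix_apply, ← RingHom.map_det, h0, map_zero])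
      rw [show ((Matrix.of fun i j => (intCoeff N (formBasis N j) (e i) : ℂ)) :
          Matrix (FormIdx N) (FormIdx N) ℂ) =
        (Matrix.of fun i j => intCoeff N (formBasis N j) (e i)).map (Int.castRingHom ℂ) from rfl,
        ← RingHom.mapMatrix_apply, ← RingHom.map_det]
      simpa using hz
    refine congrFun (Matrix.eq_zero_of_mulVec_eq_zero hdet (funext fun i => ?_))
    have := congrArg (qCoeffLin N 2 (e i)) ha
    rw [map_sum, map_zero] at this
    simp only [Matrix.mulVec, dotProduct, Matrix.of_apply, Pi.zero_apply]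
    rw [← this]
    exact Finset.sum_congr rfl fun j _ => by
      rw [map_smul, smul_eq_mul, DSLift.qCoeffLin_apply, ← intCoeff_spec, mul_comm]
  have hspan : Submodule.span ℂ (Set.range fun j => ((formBasis N j).1 :
      CuspForm (Gamma0 N) 2)) = ⊤ := by
    have hint : CuspForm.HasIntegralStructure N 2 := ModCurve.Forms.hasIntegralStructure_two N
    rw [eq_top_iff, ← hint, Submodule.span_le]
    intro f hf
    have := (formBasis N).sum_repr ⟨f, hf⟩
    rw [SetLike.mem_coe, show f = ((⟨f, hf⟩ : CuspForm.intLattice N 2) : CuspForm (Gamma0 N) 2)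
      from rfl, ← this, Submodule.coe_sum]
    refine Submodule.sum_mem _ fun j _ => ?_
    rw [Submodule.coe_smul, ← Int.cast_smul_eq_zsmul ℂ]
    exact Submodule.smul_mem _ _ (Submodule.subset_span ⟨j, rfl⟩)
  exact (Module.finrank_eq_card_basis (Module.Basis.mk hli hspan.ge)).symm

variable {N} {l}

/-- The matrix of `T_l` on the lattice, modulo `l`. -/
def heckeMat (hlN : ¬ l ∣ N) : Matrix (FormIdx N) (FormIdx N) (ZMod l) := fun j i =>
  ((formBasis N).repr ⟨_, CuspForm.mem_intLattice_of_mem_heckeAlgebra one_le_two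
    (CuspForm.heckeAlgebra.T (S := (∅ : Set ℕ)) (Fact.out : l.Prime) hlN (Set.notMem_empty _)).2
      (formBasis N j).2⟩ i : ZMod l)

theorem coeffVecMod_mul (hlN : ¬ l ∣ N) (n : ℕ) :
    coeffVecMod N l (n * l) = heckeMat hlN *ᵥ coeffVecMod N l n := by
  funext j
  set T := CuspForm.heckeAlgebra.T (N := N) (k := 2) (S := (∅ : Set ℕ)) (Fact.out : l.Prime) hlN
    (Set.notMem_empty _)
  set g : CuspForm.intLattice N 2 := ⟨_, CuspForm.mem_intLattice_of_mem_heckeAlgebra one_le_two
    T.2 (formBasis N j).2⟩
  have hg : (intCoeff N g n : ZMod l) = (intCoeff N (formBasis N j) (n * l) : ZMod l) := by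
    have hC : (intCoeff N g n : ℂ) = ((intCoeff N (formBasis N j) (n * l) +
        if l ∣ n then (l : ℤ) * intCoeff N (formBasis N j) (n / l) else 0 : ℤ) : ℂ) := by
      rw [intCoeff_spec]
      show qCoeff ⇑(CuspForm.heckeTLin 2 (Fact.out : l.Prime) hlN (formBasis N j).1) n = _
      rw [DSLift.qCoeff_heckeTLin, Int.cast_add, intCoeff_spec]
      congr 1
      split
      · push_cast
        rw [intCoeff_spec]
        norm_num
      · simp
    rw [Int.cast_injective hC, Int.cast_add]
    split <;> simp
  show (intCoeff N (formBasis N j) (n * l) : ZMod l) = _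
  rw [← hg]
  conv_lhs => rw [← (formBasis N).sum_repr g, intCoeff_sum, Int.cast_sum]
  exact Finset.sum_congr rfl fun i _ => Int.cast_mul _ _

variable (N) {k}

/-- The pairing with the coefficient vectors turns `l`-th powers into the semilinear map. -/
theorem polarPairing_pow (hlN : ¬ l ∣ N) {Fb : IntermediateField k (LaurentSeries k)} (G : Fb) :
    polarPairing (coeffVec N k) (G ^ l) =
      semiMap (heckeMat hlN) (polarPairing (coeffVec N k) G) := by
  have : NeZero l := ⟨(Fact.out : l.Prime).ne_zero⟩
  obtain ⟨M, hM⟩ := exists_pole_bound G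
  have hcoe : ∀ m : ℤ, ((G ^ l : Fb) : LaurentSeries k).coeff ((l : ℤ) * m) =
      (G : LaurentSeries k).coeff m ^ l := fun m => by
    rw [SubmonoidClass.coe_pow, ES.pow_char_eq l, coeffMap_coeff, qExpand_coeff_mul]
    rfl
  have hcoe0 : ∀ n : ℤ, ¬ (l : ℤ) ∣ n → ((G ^ l : Fb) : LaurentSeries k).coeff n = 0 := fun n hn => by
    rw [SubmonoidClass.coe_pow, ES.pow_char_eq l, coeffMap_coeff, qExpand_coeff_of_not_dvd l _ hn,
      map_zero]
  have hl0 : (0 : ℤ) < l := by exact_mod_cast (Fact.out : l.Prime).pos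
  have hMl : ∀ n : ℤ, n < -((M * l : ℕ) : ℤ) →
      ((G ^ l : Fb) : LaurentSeries k).coeff n = 0 := by
    intro n hn
    by_cases hd : (l : ℤ) ∣ n
    · obtain ⟨m, rfl⟩ := hd
      rw [hcoe, hM m (by push_cast at hn; nlinarith), zero_pow (Fact.out : l.Prime).ne_zero]
    · exact hcoe0 n hd
  rw [polarPairing_eq_sum _ _ hMl, polarPairing_eq_sum _ _ hM]
  have himg : (Finset.range (M + 1)).image (fun n => n * l) ⊆ Finset.range (M * l + 1) := by
    intro x hx
    simp only [Finset.mem_image, Finset.mem_range] at hx ⊢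
    obtain ⟨n, hn, rfl⟩ := hx
    exact Nat.lt_succ_of_le (Nat.mul_le_mul_right l (Nat.le_of_lt_succ hn))
  rw [← Finset.sum_subset himg fun x hx hx' => by
    rw [show polarCoeff x (G ^ l) = 0 from hcoe0 _ fun hd => hx' ?_, zero_smul]
    rw [dvd_neg, Int.natCast_dvd_natCast] at hd
    obtain ⟨n, rfl⟩ := hd
    simp only [Finset.mem_image, Finset.mem_range] at hx ⊢
    exact ⟨n, by nlinarith [(Fact.out : l.Prime).pos], Nat.mul_comm _ _⟩,
    Finset.sum_image (fun a _ b _ h => Nat.eq_of_mul_eq_mul_right (Fact.out : l.Prime).pos h)]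
  rw [semiMap,
    show (fun i => (∑ n ∈ Finset.range (M + 1), polarCoeff n G • coeffVec N k n) i ^ l) =
      ∑ n ∈ Finset.range (M + 1), polarCoeff n G ^ l • coeffVec N k n by
    funext i
    simp only [Finset.sum_apply, Pi.smul_apply, smul_eq_mul, sum_pow_char, mul_pow]
    refine Finset.sum_congr rfl fun n _ => ?_
    rw [show coeffVec N k n i = ZMod.castHom dvd_rfl k (coeffVecMod N l n i) from
      congrFun (coeffVec_eq_cast N l k n) i, ← map_pow (ZMod.castHom dvd_rfl k), ZMod.pow_card], Matrix.mulVec_sum]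
  refine Finset.sum_congr rfl fun n _ => ?_
  rw [Matrix.mulVec_smul]
  congr 1
  · show ((G ^ l : Fb) : LaurentSeries k).coeff (-((n * l : ℕ) : ℤ)) = _
    rw [show -((n * l : ℕ) : ℤ) = (l : ℤ) * -(n : ℤ) by push_cast; ring, hcoe]
    rfl
  · funext j
    rw [coeffVec_eq_cast N l k, coeffVec_eq_cast N l k, coeffVecMod_mul hlN n]
    simp only [Matrix.mulVec, dotProduct, map_sum, map_mul, Matrix.map_apply]

end FermatAgent.Mazur.Descent

end
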