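import Fermat.Agent.Mazur.Descent.Kernel.Polar

/-!
# The canonical scalar is the finest congruence in a class

If a function `r g ^ l f`, `f` canonical, `g` reducing to `1`, is congruent to `1` modulo `θ` then
the valuation of the canonical scalar is at most that of `θ`.
-/

set_option autoImplicit false

noncomputable section

open AlgebraicCurve FermatAgent.Curve FermatAgent.Curve.RR FermatAgent.Curve.Diff
open FermatAgent.JacCharts FermatAgent.JacCharts.GoodReductionDatum

namespace FermatAgent.Mazur.Descent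

variable {K : Type*} [Field K] {A : ValuationSubring K} {k : Type*} [Field k] {π : A →+* k}
variable {F : Type*} [Field F] [Algebra K F] {Fb : Type*} [Field Fb] [Algebra k Fb]
variable {d : GoodReductionDatum A π F Fb} {l : ℕ}

/-- An integral function with zero reduction is a small scalar times an integral one. -/
theorem exists_eq_small_mul {Y : F} (hY : d.RedsTo Y 0) :
    ∃ (θ : A) (Y' : F) (Yb : Fb), π θ = 0 ∧ d.RedsTo Y' Yb ∧ Y = algebraMap K F (θ : K) * Y' := by
  rcases eq_or_ne Y 0 with rfl | hY0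
  · exact ⟨0, 0, 0, map_zero π, redsTo_zero, by simp⟩
  obtain ⟨c, hc, fb, hfb, hr⟩ := d.exists_scale hY0
  have hcA : c ∉ A := fun h => by
    have h' := hY.smul ⟨c, h⟩
    rw [smul_zero] at h'
    exact hfb (hr.unique h')
  obtain ⟨a, ha, ha0⟩ := d.inv_mem_of_notMem hcA
  refine ⟨a, c • Y, fb, ha0, hr, ?_⟩
  rw [ha, Algebra.smul_def, ← mul_assoc, ← map_mul, inv_mul_cancel₀ hc, map_one, one_mul]

/-- The `l`-th power of `1 + ε u` for `v ε > v ϖ`. -/
theorem exists_pow_one_add_large (hl : l.Prime) {ϖ ε : A}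
    (hϖ : (ϖ : K) ^ (l - 1) = -(l : K)) (h : A.valuation (ϖ : K) < A.valuation (ε : K))
    {u : F} {U : Fb} (hu : d.RedsTo u U) :
    ∃ T : F, (1 + algebraMap K F (ε : K) * u) ^ l = 1 + algebraMap K F ((ε : K) ^ l) * T ∧
      d.RedsTo T (U ^ l) := by
  have hε0 : (ε : K) ≠ 0 := fun h0 => by
    rw [h0, map_zero] at h
    exact not_lt_zero h
  have hq : (ϖ : K) / ε ∈ A := by
    rw [← A.valuation_le_one_iff, map_div₀]
    exact div_le_one_of_le₀ h.le zero_le
  have hπq : π ⟨_, hq⟩ = 0 := by
    rw [pi_eq_zero_iff_val_lt (d := d), map_div₀,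
      div_lt_one₀ (zero_lt_iff.2 ((Valuation.ne_zero_iff _).2 hε0))]
    exact h
  set q : A := ⟨_, hq⟩
  set aq : ℕ → A := fun i => if i = l then 1 else
    -q ^ (l - 1) * ε ^ (i - 1) * (l.choose i / l : ℕ)
  refine ⟨∑ i ∈ Finset.Icc 1 l, algebraMap K F (aq i : K) * u ^ i, ?_, ?_⟩
  · have hset : Finset.range (l + 1) = insert 0 (Finset.Icc 1 l) := by
      ext i; simp only [Finset.mem_range, Finset.mem_insert, Finset.mem_Icc]; omega
    rw [add_comm (1 : F), add_pow, hset, Finset.sum_insert (by simp)]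
    simp only [one_pow, mul_one, pow_zero, Nat.choose_zero_right, Nat.cast_one, Finset.mul_sum]
    refine congrArg _ (Finset.sum_congr rfl fun i hi => ?_)
    rw [mul_pow, ← mul_assoc, ← map_mul, ← map_pow]
    rw [show (ε : K) ^ l * (aq i : K) = (ε : K) ^ i * (l.choose i : K) by
      rcases eq_or_ne i l with rfl | hne
      · simp [aq]
      · simp only [aq, if_neg hne]
        rw [Finset.mem_Icc] at hi
        push_cast
        have hd : (l.choose i : K) = (l : K) * ((l.choose i / l : ℕ) : K) := by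
          rw [← Nat.cast_mul, Nat.mul_div_cancel' (hl.dvd_choose_self (by omega) (by omega))]
        simp only [q]
        rw [hd, div_pow, show (ε : K) ^ l = (ε : K) ^ (l - 1) * ε by
            rw [← pow_succ, Nat.sub_add_cancel hl.one_le], hϖ,
          show (ε : K) ^ i = ε * (ε : K) ^ (i - 1) by
            rw [← pow_succ', Nat.sub_add_cancel hi.1]]
        field_simp, map_mul, map_natCast]
    ring
  · have h1 := RedsTo.sum (d := d) (Finset.Icc 1 l)
      fun i _ => (redsTo_algebraMap (aq i)).mul (redsTo_pow hu i)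
    have e : ∑ i ∈ Finset.Icc 1 l, algebraMap k Fb (π (aq i)) * U ^ i = U ^ l := by
      rw [Finset.sum_eq_single_of_mem l (Finset.mem_Icc.2 ⟨hl.one_le, le_rfl⟩) fun i _ hne => by
        simp only [aq, if_neg hne]
        rw [map_mul π, map_mul π, map_neg π, map_pow π, hπq,
          zero_pow (by have := hl.two_le; omega), neg_zero, zero_mul, zero_mul, map_zero,
          zero_mul]]
      simp [aq]
    rwa [e] at h1

variable [RRSetting K F] [RRSetting k Fb] [IsAlgClosed K]

omit [RRSetting K F] in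
/-- An `l`-th power congruent to a constant modulo a scalar less divisible than `ϖ ^ l`. -/
theorem exists_of_pow_large (hl : l.Prime) {ϖ : A} (hϖ : (ϖ : K) ^ (l - 1) = -(l : K))
    {e : A} (he : π e = 0) (hve : A.valuation ((ϖ : K) ^ l) < A.valuation (e : K))
    {g : F} (hg : d.RedsTo g 1) {r : K} {Y : F} {Yb : Fb} (hY : d.RedsTo Y Yb)
    (heq : algebraMap K F r * g ^ l = 1 + algebraMap K F (e : K) * Y) :
    ∃ (U : Fb) (c : k), Yb = U ^ l + algebraMap k Fb c := by
  have he0 : (e : K) ≠ 0 := fun h0 => by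
    rw [h0, map_zero] at hve
    exact not_lt_zero hve
  have heF : algebraMap K F (e : K) ≠ 0 := (map_ne_zero _).2 he0
  have hscalar : ∀ {s : K} {fb : Fb}, d.RedsTo (algebraMap K F s) fb →
      ∃ c : k, fb = algebraMap k Fb c := fun {s fb} h =>
    ⟨π ⟨s, mem_of_redsTo_algebraMap h⟩,
      h.unique (redsTo_algebraMap ⟨s, mem_of_redsTo_algebraMap h⟩)⟩
  by_cases hnc : g ∈ Set.range (algebraMap K F)
  · obtain ⟨b, rfl⟩ := hnc
    have hYs : Y = algebraMap K F ((r * b ^ l - 1) / (e : K)) := by
      rw [map_div₀, map_sub, map_mul, map_pow, map_one, heq, add_sub_cancel_left,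
        mul_div_cancel_left₀ _ heF]
    obtain ⟨c, hc⟩ := hscalar (hYs ▸ hY)
    exact ⟨0, c, by rw [hc, zero_pow hl.ne_zero, zero_add]⟩
  obtain ⟨c', ε, u, U, hc', hε, hε0, hgeq, hu, hU, -⟩ := exists_dev hg hnc
  obtain ⟨w, hw⟩ := (d.isUnit_iff_pi_ne_zero c').2 (by rw [hc']; exact one_ne_zero)
  set ci : A := ((w⁻¹ : Aˣ) : A)
  have hci : (ci : K) * c' = 1 := by
    have h' : ci * c' = 1 := by rw [← hw]; simp [ci]
    exact congrArg Subtype.val h'
  set ε' : A := ci * ε
  have hε' : π ε' = 0 := by rw [map_mul, hε, mul_zero]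
  have hg' : g = algebraMap K F (c' : K) * (1 + algebraMap K F (ε' : K) * u) := by
    rw [mul_add, mul_one, ← mul_assoc, ← map_mul,
      show (c' : K) * ((ci * ε : A) : K) = ε by push_cast; rw [← mul_assoc, mul_comm (c' : K), hci,
        one_mul], ← hgeq]
  -- a scalar `η` with `η ^ l = e`
  obtain ⟨η, hη⟩ := IsAlgClosed.exists_pow_nat_eq (e : K) hl.pos
  have hvη : A.valuation η ^ l = A.valuation (e : K) := by rw [← map_pow, hη]
  have hηA : η ∈ A := by
    rw [← A.valuation_le_one_iff, ← pow_le_one_iff_of_nonneg zero_le hl.ne_zero, hvη]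
    exact (A.valuation_le_one_iff _).2 e.2
  have hϖη : A.valuation (ϖ : K) < A.valuation η := by
    rw [map_pow, ← hvη] at hve
    exact lt_of_pow_lt_pow_left₀ l zero_le hve
  set s := r * (c' : K) ^ l
  have hsY : d.RedsTo (1 + algebraMap K F (e : K) * Y) 1 := by
    have := redsTo_one.add ((redsTo_algebraMap e).mul hY)
    rwa [he, map_zero, zero_mul, add_zero] at this
  by_cases hle : A.valuation (ε' : K) ≤ A.valuation η
  · have hη0 : η ≠ 0 := fun h0 => he0 (by rw [← hη, h0, zero_pow hl.ne_zero])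
    have ha : (ε' : K) / η ∈ A := by
      rw [← A.valuation_le_one_iff, map_div₀]
      exact div_le_one_of_le₀ hle zero_le
    set u' := algebraMap K F ((ε' : K) / η) * u
    have hu' : d.RedsTo u' (algebraMap k Fb (π ⟨_, ha⟩) * U) := (redsTo_algebraMap ⟨_, ha⟩).mul hu
    obtain ⟨T, hT, hTr⟩ := exists_pow_one_add_large hl hϖ (ε := ⟨η, hηA⟩) hϖη hu'
    change (1 + algebraMap K F η * u') ^ l = 1 + algebraMap K F (η ^ l) * T at hT
    rw [show algebraMap K F η * u' = algebraMap K F (ε' : K) * u by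
      rw [← mul_assoc, ← map_mul, mul_div_cancel₀ _ hη0], hη] at hT
    have heq' : algebraMap K F s * (1 + algebraMap K F (e : K) * T) =
        1 + algebraMap K F (e : K) * Y := by
      rw [← heq, hg', ← hT, map_mul, map_pow, mul_pow]
      ring
    have h1T : d.RedsTo (1 + algebraMap K F (e : K) * T) 1 := by
      have := redsTo_one.add ((redsTo_algebraMap e).mul hTr)
      rwa [he, map_zero, zero_mul, add_zero] at this
    have hs : d.RedsTo (algebraMap K F s) 1 := by
      have := redsTo_div hsY h1T one_ne_zero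
      rwa [← heq', mul_div_assoc, div_self (h1T.ne_zero one_ne_zero), mul_one, div_one] at this
    have hrem : algebraMap K F ((s - 1) / (e : K)) = Y - algebraMap K F s * T := by
      rw [map_div₀, map_sub, map_one, div_eq_iff heF]
      linear_combination heq'
    obtain ⟨c, hc⟩ := hscalar (hrem ▸ hY.sub (hs.mul hTr))
    exact ⟨algebraMap k Fb (π ⟨_, ha⟩) * U, c, by linear_combination hc⟩
  · rw [not_le] at hle
    exfalso
    obtain ⟨T, hT, hTr⟩ := exists_pow_one_add_large hl hϖ (ε := ε') (hϖη.trans hle) hu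
    have hεl0 : (ε' : K) ^ l ≠ 0 := pow_ne_zero _ fun h0 => by
      rw [h0, map_zero] at hle
      exact not_lt_zero hle
    have hεF : algebraMap K F ((ε' : K) ^ l) ≠ 0 := (map_ne_zero _).2 hεl0
    have hq : (e : K) / (ε' : K) ^ l ∈ A := by
      rw [← A.valuation_le_one_iff, map_div₀, map_pow, ← hvη]
      exact div_le_one_of_le₀ (pow_le_pow_left₀ zero_le hle.le l) zero_le
    have hπq : π ⟨_, hq⟩ = 0 := by
      rw [pi_eq_zero_iff_val_lt (d := d), map_div₀,
        div_lt_one₀ (zero_lt_iff.2 ((Valuation.ne_zero_iff _).2 hεl0)), map_pow, ← hvη]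
      exact pow_lt_pow_left₀ hle zero_le hl.ne_zero
    have heq' : algebraMap K F s * (1 + algebraMap K F ((ε' : K) ^ l) * T) =
        1 + algebraMap K F (e : K) * Y := by
      rw [← heq, hg', ← hT, map_mul, map_pow, mul_pow]
      ring
    have h1T : d.RedsTo (1 + algebraMap K F ((ε' : K) ^ l) * T) 1 := by
      have := redsTo_one.add ((redsTo_algebraMap (ε' ^ l)).mul hTr)
      rwa [map_pow, hε', zero_pow hl.ne_zero, map_zero, zero_mul, add_zero] at this
    have hs : d.RedsTo (algebraMap K F s) 1 := by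
      have := redsTo_div hsY h1T one_ne_zero
      rwa [← heq', mul_div_assoc, div_self (h1T.ne_zero one_ne_zero), mul_one, div_one] at this
    have hrem : algebraMap K F ((1 - s) / (ε' : K) ^ l) =
        algebraMap K F s * T - algebraMap K F ((e : K) / (ε' : K) ^ l) * Y := by
      rw [map_div₀, map_sub, map_one, div_eq_iff hεF, map_div₀, sub_mul,
        mul_right_comm (algebraMap K F (e : K) / _), div_mul_cancel₀ _ hεF]
      linear_combination -heq'
    have hR := (hs.mul hTr).sub ((redsTo_algebraMap ⟨_, hq⟩).mul hY)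
    rw [hπq, map_zero, zero_mul, sub_zero, one_mul, ← hrem] at hR
    obtain ⟨c, hc⟩ := hscalar hR
    refine hU ?_
    have h0 : U ∈ riemannRochSpace (0 : Divisor k Fb) := by
      refine mem_riemannRochSpace_iff.2 fun Q => ?_
      rcases eq_or_ne U 0 with h0 | h0
      · exact Or.inl h0
      refine Or.inr ?_
      have := congrArg Q.ord hc
      rw [← zpow_natCast, Place.ord_zpow] at this
      have hz : Q.ord U = 0 := by
        rcases eq_or_ne c 0 with hc0 | hc0
        · rw [hc0, map_zero, Place.ord_zero] at this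
          exact (mul_eq_zero.1 this).resolve_left (by exact_mod_cast hl.ne_zero)
        · rw [ord_algebraMap_const] at this
          exact (mul_eq_zero.1 this).resolve_left (by exact_mod_cast hl.ne_zero)
      simp [hz]
    rw [riemannRochSpace_zero_eq, Submodule.mem_span_singleton] at h0
    obtain ⟨a, ha⟩ := h0
    exact ⟨a, by rw [← ha, Algebra.smul_def, mul_one]⟩

variable [IsFunctionField1 K F] {Pinf : Place K F} {B : Base d Pinf} {z : Pic0 K F}

omit [IsAlgClosed K] [IsFunctionField1 K F] [RRSetting k Fb] in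
/-- A function with `l` times the poles of a canonical `H` has at most the poles of the base. -/
theorem mem_L_of_pow_poles (hl : l.Prime) (C : Canon B l z) {U : Fb}
    (hU : ∀ Q : Place k Fb, U ≠ 0 → Q.ord U < 0 → OrdGE Q ((l : ℤ) * Q.ord U + 1) C.H → False) :
    U ∈ riemannRochSpace (d.redDiv B.S) := by
  refine mem_riemannRochSpace_iff.2 fun Q => ?_
  rcases eq_or_ne U 0 with h0 | h0
  · exact Or.inl h0
  refine Or.inr ?_
  have hl1 : (1 : ℤ) ≤ l := by exact_mod_cast hl.one_le
  have hS : 0 ≤ d.redDiv B.S Q := by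
    simpa using Finsupp.le_def.1 (redDiv_nonneg (d := d) B.nonneg) Q
  by_contra hlt
  rw [not_le] at hlt
  refine hU Q h0 (by omega) ?_
  refine ((mem_riemannRochSpace_iff.1 C.H_mem) Q).imp_right fun h => ?_
  rw [Finsupp.smul_apply, smul_eq_mul] at h
  have := mul_le_mul_of_nonneg_left (show Q.ord U + 1 ≤ -d.redDiv B.S Q by omega)
    (show (0 : ℤ) ≤ l by omega)
  rw [mul_add, mul_one, mul_neg] at this
  omega

/-- The valuation of the canonical scalar bounds every congruence in its class. -/
theorem val_le_of_rep (hl : l.Prime) [CharP k l] {ϖ : A} (hϖ : (ϖ : K) ^ (l - 1) = -(l : K))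
    (hπϖ : π ϖ = 0) (hϖ0 : (ϖ : K) ≠ 0) (C : Canon B l z) {r : K} {g : F} (hg : d.RedsTo g 1)
    {θ : A} {Y : F} {Yb : Fb} (hY : d.RedsTo Y Yb)
    (heq : algebraMap K F r * g ^ l * C.f = 1 + algebraMap K F (θ : K) * Y) :
    A.valuation (C.e : K) ≤ A.valuation (θ : K) := by
  by_contra hlt
  rw [not_le] at hlt
  have hge := val_pow_le (ϖ := (ϖ : K)) hl hϖ C
  have he0 := C.e_ne
  have hq : (θ : K) / C.e ∈ A := by
    rw [← A.valuation_le_one_iff, map_div₀]
    exact div_le_one_of_le₀ hlt.le zero_le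
  have hπq : π ⟨_, hq⟩ = 0 := by
    rw [pi_eq_zero_iff_val_lt (d := d), map_div₀,
      div_lt_one₀ (zero_lt_iff.2 ((Valuation.ne_zero_iff _).2 he0))]
    exact hlt
  set Y' := (algebraMap K F ((θ : K) / C.e) * Y - C.h) / C.f
  have hY' : d.RedsTo Y' (-C.H) := by
    have := redsTo_div (((redsTo_algebraMap ⟨_, hq⟩).mul hY).sub C.redsTo_h) C.redsTo_f one_ne_zero
    rwa [hπq, map_zero, zero_mul, zero_sub, div_one] at this
  have heq' : algebraMap K F r * g ^ l = 1 + algebraMap K F (C.e : K) * Y' := by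
    have hf := C.f_ne
    rw [← mul_left_inj' hf, heq, add_mul, one_mul, mul_assoc (algebraMap K F (C.e : K)),
      div_mul_cancel₀ _ hf, mul_sub, ← mul_assoc, ← map_mul, mul_div_cancel₀ _ he0]
    conv_rhs => rw [C.f_eq]
    ring
  have hnc : ∀ {U : Fb} {c : k}, U ∈ riemannRochSpace (d.redDiv B.S) →
      ∀ {a : Fb}, (∀ b : k, U = algebraMap k Fb b → ∃ b' : k, a = algebraMap k Fb b') →
        -C.H = a + algebraMap k Fb c → False := fun {U c} hU {a} ha h => by
    obtain ⟨b, hb⟩ := mem_range_of_simple B hU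
    obtain ⟨b', hb'⟩ := ha b hb.symm
    refine C.H_nc ⟨-(b' + c), ?_⟩
    rw [map_neg, map_add, ← hb', ← h, neg_neg]
  rcases hge.lt_or_eq with hlt' | heq''
  · obtain ⟨U, c, hUc⟩ := exists_of_pow_large hl hϖ C.pi_e hlt' hg hY' heq'
    refine hnc (mem_L_of_pow_poles hl C (U := U) fun Q h0 hn hH => ?_) (fun b hb =>
      ⟨b ^ l, by rw [hb, map_pow]⟩) hUc
    have hm : (l : ℤ) * Q.ord U + 1 ≤ 0 := by
      have : (1 : ℤ) ≤ l := by exact_mod_cast hl.one_le
      nlinarith
    have h1 := hH.neg.sub ((ordGE_algebraMap c).mono hm)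
    rw [hUc, add_sub_cancel_right] at h1
    have := h1.le_ord (pow_ne_zero _ h0)
    rw [← zpow_natCast, Place.ord_zpow] at this
    omega
  · have hu : (C.e : K) / (ϖ : K) ^ l ∈ A := by
      rw [← A.valuation_le_one_iff, map_div₀, heq'',
        div_self ((Valuation.ne_zero_iff _).2 he0)]
    have hπu : π ⟨_, hu⟩ ≠ 0 := by
      rw [ne_eq, pi_eq_zero_iff_val_lt (d := d), map_div₀, heq'',
        div_self ((Valuation.ne_zero_iff _).2 he0)]
      exact lt_irrefl _
    have hY'' := (redsTo_algebraMap ⟨_, hu⟩).mul hY'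
    -- the poles allowed to `g`
    classical
    have hg0 := hg.ne_zero one_ne_zero
    let D : Divisor K F := (divOf (K := K) g).mapRange (fun n => max (-n) 0) (by simp)
    have hD : 0 ≤ D := Finsupp.le_def.2 fun v => by
      simp only [D, Finsupp.coe_zero, Pi.zero_apply, Finsupp.mapRange_apply]
      exact le_max_right _ _
    obtain ⟨U, c, -, hUc⟩ := exists_artinSchreier_of_pow hl hϖ hπϖ hϖ0 hg hY''
      (Y := algebraMap K F ((C.e : K) / (ϖ : K) ^ l) * Y') (by
        rw [heq', ← mul_assoc, ← map_mul, mul_div_cancel₀ _ (pow_ne_zero _ hϖ0)]) hD (by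
        rw [mem_L_iff_divOf hg0, Finsupp.le_def]
        intro v
        simp only [D, Finsupp.coe_zero, Pi.zero_apply, Finsupp.add_apply, Finsupp.mapRange_apply]
        omega)
    set u := π ⟨_, hu⟩
    have huF : algebraMap k Fb u ≠ 0 := (map_ne_zero _).2 hπu
    refine hnc (mem_L_of_pow_poles hl C (U := U) fun Q h0 hn hH => ?_)
      (a := (U ^ l - U) / algebraMap k Fb u) (c := c / u) (fun b hb =>
        ⟨(b ^ l - b) / u, by rw [hb, map_div₀, map_sub, map_pow]⟩) (by
        rw [map_div₀, ← add_div, ← hUc, mul_div_cancel_left₀ _ huF])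
    have hm : (l : ℤ) * Q.ord U + 1 ≤ 0 := by
      have : (1 : ℤ) ≤ l := by exact_mod_cast hl.one_le
      nlinarith
    have hm' : (l : ℤ) * Q.ord U + 1 ≤ Q.ord U := by
      have : (2 : ℤ) ≤ l := by exact_mod_cast hl.two_le
      nlinarith
    have h1 := ((((ordGE_algebraMap u).mul hH.neg).mono (m' := (l : ℤ) * Q.ord U + 1)
      (by omega)).sub ((ordGE_algebraMap c).mono hm)).add (Or.inr hm' : OrdGE Q _ U)
    rw [hUc, add_sub_cancel_right, sub_add_cancel] at h1
    have := h1.le_ord (pow_ne_zero _ h0)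
    rw [← zpow_natCast, Place.ord_zpow] at this
    omega

end FermatAgent.Mazur.Descent

end
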