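import Fermat.Agent.Mazur.Descent.Kernel.Basic

/-!
# Expansions in the disc of a point given by Laurent series

Let `t` have a series with coefficients in `A` of order `1` with unit leading coefficient, and a
single zero in a disc, at the place `P₀` of the variable, the disc lying over the place of the
variable of the special fibre. Integral functions without poles in the disc outside `P₀` have
series with coefficients in `A` which reduce coefficientwise.
-/

set_option autoImplicit false

noncomputable section

open AlgebraicCurve FermatAgent.Curve FermatAgent.Curve.RR FermatAgent.Curve.Diff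
open FermatAgent.JacCharts FermatAgent.JacCharts.GoodReductionDatum

namespace FermatAgent.Mazur.Descent

variable {K : Type*} [Field K] {A : ValuationSubring K} {k : Type*} [Field k] {π : A →+* k}
variable {F : IntermediateField K (LaurentSeries K)} {Fb : IntermediateField k (LaurentSeries k)}

/-- `y` is a series with coefficients in `A` for `f`, reducing to the series of `fb`. -/
def HasSeries (π : A →+* k) (f : F) (fb : Fb) (y : LaurentSeries A) : Prop :=
  ModularCurve.coeffMap A.subtype y = (f : LaurentSeries K) ∧
    ModularCurve.coeffMap π y = (fb : LaurentSeries k)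

variable [RRSetting K F] [RRSetting k Fb]
variable {d : GoodReductionDatum A π F Fb}

/-- The data of a parameter of the disc of `Qi`. -/
structure DiscParam (d : GoodReductionDatum A π F Fb) (P₀ : Place K F) where
  ord_eq : ∀ f : F, P₀.ord f = (f : LaurentSeries K).order
  ord_red : ∀ f : Fb, (d.place P₀).ord f = (f : LaurentSeries k).order
  t : F
  tb : Fb
  inv : LaurentSeries A
  ser : LaurentSeries A
  redsTo : d.RedsTo t tb
  hasSeries : HasSeries π t tb ser
  mul_inv : ser * inv = 1
  order_ser : ser.order = 1
  ord_self : P₀.ord t = 1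
  ord_other : ∀ P : Place K F, d.place P = d.place P₀ → P ≠ P₀ → P.ord t = 0

namespace DiscParam

variable {P₀ : Place K F} (D : DiscParam d P₀)

omit [RRSetting K F] [RRSetting k Fb] in
theorem tb_ne_zero : D.tb ≠ 0 := by
  intro h
  have h1 : ModularCurve.coeffMap π D.ser * ModularCurve.coeffMap π D.inv = 1 := by
    rw [← map_mul, D.mul_inv, map_one]
  rw [D.hasSeries.2, h, ZeroMemClass.coe_zero, zero_mul] at h1
  exact zero_ne_one h1

omit [RRSetting K F] [RRSetting k Fb] in
theorem t_ne_zero : D.t ≠ 0 := D.redsTo.ne_zero D.tb_ne_zero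

omit [RRSetting K F] [RRSetting k Fb] in
theorem ordGE_t {P : Place K F} (hP : d.place P = d.place P₀) : OrdGE P 0 D.t := by
  rcases eq_or_ne P P₀ with h | h
  · rw [h]; exact Or.inr (by rw [D.ord_self]; omega)
  · exact Or.inr (D.ord_other P hP h).ge

variable [IsAlgClosed K] [IsFunctionField1 K F]

omit [RRSetting K F] [RRSetting k Fb] [IsAlgClosed K] [IsFunctionField1 K F] in
theorem coeff_mul_tail {R : Type*} [CommRing R] (x y : LaurentSeries R) {c : ℤ}
    (hx : ∀ n < c, x.coeff n = 0) {y' : LaurentSeries R} {m : ℤ}
    (hy : ∀ n ≤ m - c, y.coeff n = y'.coeff n) : (x * y).coeff m = (x * y').coeff m := by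
  have h : (x * (y - y')).coeff m = 0 := by
    rw [HahnSeries.coeff_mul]
    refine Finset.sum_eq_zero fun ij hij => ?_
    rw [Finset.mem_antidiagonal] at hij
    rcases lt_or_ge ij.1 c with h1 | h1
    · rw [hx _ h1, zero_mul]
    · rw [HahnSeries.coeff_sub, hy _ (by omega), sub_self, mul_zero]
  rwa [mul_sub, HahnSeries.coeff_sub, sub_eq_zero] at h

include D in
omit [RRSetting K F] [RRSetting k Fb] [IsAlgClosed K] [IsFunctionField1 K F] in
theorem coeff_of_neg {W : F} (hW : OrdGE P₀ 0 W) {m : ℤ} (hm : m < 0) :
    (W : LaurentSeries K).coeff m = 0 := by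
  rcases hW with h | h
  · simp [h]
  · exact HahnSeries.coeff_eq_zero_of_lt_order (by rw [← D.ord_eq]; omega)

set_option maxHeartbeats 1000000 in
-- Series of subfields are expensive to unify.
include D in
/-- Integral functions regular in the disc: the coefficients are integral and reduce. -/
theorem coeff_of_regular : ∀ (n : ℕ) {W : F} {Wb : Fb}, d.RedsTo W Wb →
    (∀ P : Place K F, d.place P = d.place P₀ → OrdGE P 0 W) → ∀ m : ℤ, m < n →
      ∃ a : A, (W : LaurentSeries K).coeff m = a ∧ π a = (Wb : LaurentSeries k).coeff m := by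
  intro n
  induction n with
  | zero =>
    intro W Wb hW hreg m hm
    refine ⟨0, by simpa using coeff_of_neg D (hreg P₀ rfl) (by omega), ?_⟩
    rw [map_zero]
    rcases ordGE_red_zero hW hreg (P₀ := P₀) rfl with h | h
    · simp [h]
    · rw [D.ord_red] at h
      exact (HahnSeries.coeff_eq_zero_of_lt_order (by omega)).symm
  | succ n ih =>
    intro W Wb hW hreg m hm
    set v := valueAt P₀ W
    have hsub : ∀ P : Place K F, d.place P = d.place P₀ → OrdGE P 0 (W - algebraMap K F v) :=
      fun P hP => (hreg P hP).sub (ordGE_algebraMap v)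
    have h1 : OrdGE P₀ 1 (W - algebraMap K F v) := ordGE_sub_valueAt (hreg P₀ rfl)
    have hv : v ∈ A := by
      by_contra hc
      obtain ⟨a, ha, ha0⟩ := d.inv_mem_of_notMem hc
      have hv0 : v ≠ 0 := fun hz => hc (hz ▸ A.zero_mem)
      have hw : d.RedsTo (algebraMap K F (a : K) * (W - algebraMap K F v)) (-1) := by
        have := ((redsTo_algebraMap a).mul hW).sub redsTo_one
        rw [ha0, map_zero, zero_mul, zero_sub] at this
        rw [mul_sub, ← map_mul, ha, inv_mul_cancel₀ hv0, map_one]
        exact ha ▸ this
      have := ordGE_red hw (fun P hP => (ordGE_algebraMap _).mul (hsub P hP)) rfl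
        ((ordGE_algebraMap _).mul h1)
      rcases this with h2 | h2
      · exact one_ne_zero (neg_eq_zero.1 h2)
      · rw [ord_neg, Place.ord_one] at h2; omega
    have hW₁ := redsTo_div (hW.sub (redsTo_algebraMap (d := d) ⟨v, hv⟩)) D.redsTo D.tb_ne_zero
    set W₁ := (W - algebraMap K F v) / D.t with hW₁def
    set W₁b := (Wb - algebraMap k Fb (π ⟨v, hv⟩)) / D.tb with hW₁bdef
    have hreg₁ : ∀ P : Place K F, d.place P = d.place P₀ → OrdGE P 0 W₁ := by
      intro P hP
      rcases eq_or_ne (W - algebraMap K F v) 0 with h | h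
      · exact Or.inl (by rw [hW₁def, h, zero_div])
      refine Or.inr ?_
      rw [hW₁def, Curve.ord_div _ h D.t_ne_zero]
      rcases eq_or_ne P P₀ with rfl | hne
      · have := h1.le_ord h
        rw [D.ord_self]; omega
      · have := (hsub P hP).le_ord h
        rw [D.ord_other P hP hne]; omega
    have hneg : ∀ i : ℤ, i < 0 → (W₁ : LaurentSeries K).coeff i = 0 ∧
        (W₁b : LaurentSeries k).coeff i = 0 := fun i hi => by
      refine ⟨coeff_of_neg D (hreg₁ P₀ rfl) hi, ?_⟩
      rcases ordGE_red_zero hW₁ hreg₁ (P₀ := P₀) rfl with h | h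
      · simp [h]
      · rw [D.ord_red] at h
        exact HahnSeries.coeff_eq_zero_of_lt_order (by omega)
    choose c hc hcπ using fun i : Fin n => ih hW₁ hreg₁ (i : ℤ) (by exact_mod_cast i.2)
    -- a truncation of the series of `W₁`
    let y : LaurentSeries A := ∑ i : Fin n, HahnSeries.single (i : ℤ) (c i)
    have hy : ∀ i : ℤ, i < n → ((y.coeff i : A) : K) = (W₁ : LaurentSeries K).coeff i ∧
        π (y.coeff i) = (W₁b : LaurentSeries k).coeff i := by
      intro i hi
      simp only [y, HahnSeries.coeff_sum]
      rcases lt_or_ge i 0 with h | h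
      · rw [Finset.sum_eq_zero fun (j : Fin n) _ =>
          HahnSeries.coeff_single_of_ne (show i ≠ ((j : ℕ) : ℤ) by omega)]
        exact ⟨(hneg i h).1.symm, (map_zero π).trans (hneg i h).2.symm⟩
      · lift i to ℕ using h
        rw [Finset.sum_eq_single (⟨i, by exact_mod_cast hi⟩ : Fin n) (fun (j : Fin n) _ hj =>
          (HahnSeries.coeff_single_of_ne (show (i : ℤ) ≠ ((j : ℕ) : ℤ) from fun h' => hj
            (Fin.ext (by exact_mod_cast h'.symm))))) (fun h' => absurd (Finset.mem_univ _) h'),
          HahnSeries.coeff_single_same]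
        exact ⟨(hc _).symm, hcπ _⟩
    refine ⟨(HahnSeries.single 0 (⟨v, hv⟩ : A) + D.ser * y).coeff m, ?_, ?_⟩
    · have e : (W : LaurentSeries K) = HahnSeries.single 0 v +
          ModularCurve.coeffMap A.subtype D.ser * (W₁ : LaurentSeries K) := by
        rw [D.hasSeries.1, ← MulMemClass.coe_mul, hW₁def, mul_div_cancel₀ _ D.t_ne_zero,
          AddSubgroupClass.coe_sub, IntermediateField.coe_algebraMap_apply,
          ModularCurve.algebraMap_laurentSeries_eq_single, add_sub_cancel]
      rw [e, HahnSeries.coeff_add, HahnSeries.coeff_add, AddMemClass.coe_add]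
      congr 1
      · simp only [HahnSeries.coeff_single]; split <;> simp
      · rw [coeff_mul_tail (c := 1) (y' := ModularCurve.coeffMap A.subtype y), ← map_mul,
          ModularCurve.coeffMap_coeff]
        · rfl
        · intro i hi
          rw [ModularCurve.coeffMap_coeff,
            HahnSeries.coeff_eq_zero_of_lt_order (by rw [D.order_ser]; omega), map_zero]
        · intro i hi
          rw [ModularCurve.coeffMap_coeff]
          exact (hy i (by push_cast at hm ⊢; omega)).1.symm
    · have e : (Wb : LaurentSeries k) = HahnSeries.single 0 (π ⟨v, hv⟩) +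
          ModularCurve.coeffMap π D.ser * (W₁b : LaurentSeries k) := by
        rw [D.hasSeries.2, ← MulMemClass.coe_mul, hW₁bdef, mul_div_cancel₀ _ D.tb_ne_zero,
          AddSubgroupClass.coe_sub, IntermediateField.coe_algebraMap_apply,
          ModularCurve.algebraMap_laurentSeries_eq_single, add_sub_cancel]
      rw [e, HahnSeries.coeff_add, HahnSeries.coeff_add, map_add]
      congr 1
      · simp only [HahnSeries.coeff_single]; split <;> simp
      · rw [coeff_mul_tail (c := 1) (y' := ModularCurve.coeffMap π y), ← map_mul,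
          ModularCurve.coeffMap_coeff]
        · intro i hi
          rw [ModularCurve.coeffMap_coeff,
            HahnSeries.coeff_eq_zero_of_lt_order (by rw [D.order_ser]; omega), map_zero]
        · intro i hi
          rw [ModularCurve.coeffMap_coeff]
          exact (hy i (by push_cast at hm ⊢; omega)).2.symm

include D in
/-- Integral functions with no pole in the disc outside `P₀`. -/
theorem coeff_of_pole {G : F} {Gb : Fb} (hG : d.RedsTo G Gb)
    (hreg : ∀ P : Place K F, d.place P = d.place P₀ → P ≠ P₀ → OrdGE P 0 G) (m : ℤ) :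
    ∃ a : A, (G : LaurentSeries K).coeff m = a ∧ π a = (Gb : LaurentSeries k).coeff m := by
  set j := (-(G : LaurentSeries K).order).toNat with hj
  have hW : d.RedsTo (D.t ^ j * G) (D.tb ^ j * Gb) := (redsTo_pow D.redsTo j).mul hG
  have hWreg : ∀ P : Place K F, d.place P = d.place P₀ → OrdGE P 0 (D.t ^ j * G) := by
    intro P hP
    rcases eq_or_ne P P₀ with rfl | hne
    · rcases eq_or_ne G 0 with h | h
      · exact Or.inl (by rw [h, mul_zero])
      refine Or.inr ?_
      rw [P.ord_mul (pow_ne_zero _ D.t_ne_zero) h, ← zpow_natCast, Place.ord_zpow, D.ord_self,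
        mul_one, D.ord_eq G]
      omega
    · have ht := D.ordGE_t hP
      have hG' := hreg P hP hne
      rw [ordGE_zero_iff_mem] at ht hG' ⊢
      exact mul_mem (pow_mem ht j) hG'
  choose c hc hcπ using fun i : ℤ => coeff_of_regular D (i.toNat + 1) hW hWreg i (by omega)
  let y : LaurentSeries A :=
    { coeff := c
      isPWO_support' := ((D.t ^ j * G : F) : LaurentSeries K).isPWO_support.mono fun i hi h0 =>
        hi (Subtype.ext ((hc i).symm.trans h0)) }
  refine ⟨(D.inv ^ j * y).coeff m, ?_, ?_⟩
  · have hy : ModularCurve.coeffMap A.subtype y = ((D.t ^ j * G : F) : LaurentSeries K) :=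
      HahnSeries.ext (funext fun i => (hc i).symm)
    have e : (G : LaurentSeries K) = ModularCurve.coeffMap A.subtype (D.inv ^ j * y) := by
      rw [map_mul, map_pow, hy, MulMemClass.coe_mul, SubmonoidClass.coe_pow, ← D.hasSeries.1,
        ← map_pow, ← map_pow, ← mul_assoc, ← map_mul, ← mul_pow, mul_comm D.inv, D.mul_inv,
        one_pow, map_one, one_mul]
    rw [e, ModularCurve.coeffMap_coeff]
    rfl
  · have hy : ModularCurve.coeffMap π y = ((D.tb ^ j * Gb : Fb) : LaurentSeries k) :=
      HahnSeries.ext (funext fun i => hcπ i)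
    have e : (Gb : LaurentSeries k) = ModularCurve.coeffMap π (D.inv ^ j * y) := by
      rw [map_mul, map_pow, hy, MulMemClass.coe_mul, SubmonoidClass.coe_pow, ← D.hasSeries.2,
        ← map_pow, ← map_pow, ← mul_assoc, ← map_mul, ← mul_pow, mul_comm D.inv, D.mul_inv,
        one_pow, map_one, one_mul]
    rw [e, ModularCurve.coeffMap_coeff]

end DiscParam

end FermatAgent.Mazur.Descent

end
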