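import Mathlib

/-!
# Fixed vectors of a Frobenius-semilinear map

For a matrix `M` over `𝔽_l` the solutions of `x = M x^(l)` in a field of characteristic `l` form
at most `l ^ rank (M ^ n)` vectors.
-/

set_option autoImplicit false

noncomputable section

open Matrix

namespace FermatAgent.Mazur.Descent

variable {l : ℕ} [Fact l.Prime] {k : Type*} [Field k] [CharP k l] {ι : Type*} [Fintype ι]
  [DecidableEq ι]

/-- The map `x ↦ M x^(l)`. -/
def semiMap (M : Matrix ι ι (ZMod l)) (x : ι → k) : ι → k :=
  (M.map (ZMod.castHom dvd_rfl k)) *ᵥ fun i => x i ^ l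

omit [DecidableEq ι] in
theorem semiMap_add (M : Matrix ι ι (ZMod l)) (x y : ι → k) :
    semiMap M (x + y) = semiMap M x + semiMap M y := by
  rw [semiMap, semiMap, semiMap, ← mulVec_add]
  congr 1
  funext i
  simp [add_pow_char]

theorem eq_pow_mulVec_of_fixed {M : Matrix ι ι (ZMod l)} {x : ι → k} (hx : semiMap M x = x)
    (n : ℕ) : x = ((M ^ n).map (ZMod.castHom dvd_rfl k)) *ᵥ fun i => x i ^ l ^ n := by
  induction n with
  | zero => simp
  | succ n ih =>
    have hl : ∀ y : ι → k, ((fun i => ((M.map (ZMod.castHom dvd_rfl k)) *ᵥ y) i ^ l ^ n) : ι → k) =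
        (M.map (ZMod.castHom dvd_rfl k)) *ᵥ fun i => y i ^ l ^ n := by
      intro y
      funext i
      simp only [mulVec, dotProduct, Matrix.map_apply, sum_pow_char_pow, mul_pow]
      refine Finset.sum_congr rfl fun j _ => ?_
      rw [← map_pow, ZMod.pow_card_pow]
    conv_lhs => rw [ih]
    rw [pow_succ, Matrix.map_mul, ← mulVec_mulVec]
    congr 1
    have h1 : (fun i => x i ^ l ^ n) = fun i => semiMap M x i ^ l ^ n := by rw [hx]
    rw [h1]
    show (fun i => ((M.map (ZMod.castHom dvd_rfl k)) *ᵥ fun i => x i ^ l) i ^ l ^ n) = _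
    rw [hl]
    congr 1
    funext i
    rw [← pow_mul, ← pow_succ']

omit [DecidableEq ι] in
theorem finrank_range_map_le (N : Matrix ι ι (ZMod l)) :
    Module.finrank k (LinearMap.range (N.map (ZMod.castHom dvd_rfl k)).mulVecLin) ≤ N.rank := by
  classical
  let : Algebra (ZMod l) k := (ZMod.castHom dvd_rfl k).toAlgebra
  let ψ : (ι → ZMod l) →ₗ[ZMod l] (ι → k) :=
    LinearMap.pi fun i => (Algebra.linearMap (ZMod l) k).comp (LinearMap.proj i)
  let b := Module.finBasis (ZMod l) (LinearMap.range N.mulVecLin)
  have hle : LinearMap.range (N.map (ZMod.castHom dvd_rfl k)).mulVecLin ≤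
      Submodule.span k (Set.range fun j => ψ (b j : ι → ZMod l)) := by
    rw [Matrix.range_mulVecLin, Submodule.span_le]
    rintro _ ⟨c, rfl⟩
    have hc : N.col c ∈ LinearMap.range N.mulVecLin := by
      rw [Matrix.range_mulVecLin]
      exact Submodule.subset_span ⟨c, rfl⟩
    have h : (N.map (ZMod.castHom dvd_rfl k)).col c = ψ (N.col c) := rfl
    rw [SetLike.mem_coe, h, show N.col c = ∑ j, b.repr ⟨_, hc⟩ j • (b j : ι → ZMod l) by
      conv_lhs => rw [show N.col c = ((⟨_, hc⟩ : LinearMap.range N.mulVecLin) : ι → ZMod l) from rfl,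
        ← b.sum_repr ⟨_, hc⟩]
      rw [Submodule.coe_sum]
      exact Finset.sum_congr rfl fun j _ => rfl, map_sum]
    refine Submodule.sum_mem _ fun j _ => ?_
    rw [map_smul, ← algebraMap_smul k (b.repr ⟨_, hc⟩ j)]
    exact Submodule.smul_mem _ _ (Submodule.subset_span ⟨j, rfl⟩)
  refine (Submodule.finrank_mono hle).trans ((finrank_range_le_card _).trans ?_)
  rw [Fintype.card_fin]
  rfl

/-- The count of fixed vectors. -/
theorem card_fixed_le (M : Matrix ι ι (ZMod l)) (n : ℕ) :
    {x : ι → k | semiMap M x = x}.Finite ∧
      Nat.card {x : ι → k // semiMap M x = x} ≤ l ^ (M ^ n).rank := by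
  classical
  let : Algebra (ZMod l) k := (ZMod.castHom dvd_rfl k).toAlgebra
  have hl1 := (Fact.out : l.Prime).one_lt
  let S : Submodule (ZMod l) (ι → k) :=
    { carrier := {x | semiMap M x = x}
      add_mem' := fun {x y} hx hy => by
        show semiMap M (x + y) = x + y
        rw [semiMap_add, hx, hy]
      zero_mem' := by
        show semiMap M (0 : ι → k) = 0
        simp [semiMap, zero_pow (Fact.out : l.Prime).ne_zero]
        exact Matrix.mulVec_zero _
      smul_mem' := fun c x hx => by
        show semiMap M (c • x) = c • x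
        conv_rhs => rw [← (show semiMap M x = x from hx)]
        rw [semiMap, semiMap, Algebra.smul_def]
        have : (fun i => (algebraMap (ZMod l) (ι → k) c * x) i ^ l) =
            algebraMap (ZMod l) k c • fun i => x i ^ l := by
          funext i
          simp only [Pi.mul_apply, Pi.algebraMap_apply, mul_pow, Pi.smul_apply, smul_eq_mul,
            ← map_pow, ZMod.pow_card]
        rw [this, Matrix.mulVec_smul]
        funext i
        simp [Algebra.smul_def] }
  set I := LinearMap.range ((M ^ n).map (ZMod.castHom dvd_rfl k)).mulVecLin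
  -- independence over the prime field gives independence
  have hind : ∀ (r : ℕ) (v : Fin r → ι → k), (∀ i, v i ∈ S) →
      LinearIndependent (ZMod l) v → LinearIndependent k v := by
    intro r
    induction r with
    | zero => intro v _ _; exact linearIndependent_empty_type
    | succ r ih =>
      intro v hv hli
      rw [linearIndependent_finSucc]
      have hli' := hli.comp Fin.succ (Fin.succ_injective _)
      have hk := ih _ (fun i => hv _) hli'
      refine ⟨hk, fun hmem => ?_⟩
      rw [Submodule.mem_span_range_iff_exists_fun] at hmem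
      obtain ⟨a, ha⟩ := hmem
      have ha' : ∑ i, a i ^ l • Fin.tail v i = v 0 := by
        conv_rhs => rw [← (show semiMap M (v 0) = v 0 from hv 0), ← ha]
        have : (fun j => (∑ i, a i • Fin.tail v i) j ^ l) =
            ∑ i, a i ^ l • fun j => Fin.tail v i j ^ l := by
          funext j
          simp [Finset.sum_apply, sum_pow_char, mul_pow]
        rw [semiMap, this, Matrix.mulVec_sum]
        refine Finset.sum_congr rfl fun i _ => ?_
        rw [Matrix.mulVec_smul]
        exact congrArg _ (hv i.succ).symm
      have heq : ∀ i, a i ^ l = a i := by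
        intro i
        have h0 : ∑ i, (a i ^ l - a i) • Fin.tail v i = 0 := by
          simp only [sub_smul, Finset.sum_sub_distrib, ha', ha, sub_self]
        exact sub_eq_zero.1 (Fintype.linearIndependent_iff.1 hk _ h0 i)
      have hFl : ∀ i, ∃ c : ZMod l, algebraMap (ZMod l) k c = a i := by
        intro i
        have hroot : Polynomial.IsRoot (Polynomial.X ^ l - Polynomial.X : Polynomial k) (a i) := by
          simp [heq i]
        have hp : (Polynomial.X ^ l - Polynomial.X : Polynomial k) ≠ 0 :=
          FiniteField.X_pow_card_sub_X_ne_zero k hl1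
        have hsub : Finset.univ.image (algebraMap (ZMod l) k) ⊆
            (Polynomial.X ^ l - Polynomial.X : Polynomial k).roots.toFinset := by
          intro y hy
          obtain ⟨c, -, rfl⟩ := Finset.mem_image.1 hy
          rw [Multiset.mem_toFinset, Polynomial.mem_roots hp]
          simp [← map_pow, ZMod.pow_card]
        have hcard : (Polynomial.X ^ l - Polynomial.X : Polynomial k).roots.toFinset.card ≤
            (Finset.univ.image (algebraMap (ZMod l) k)).card := by
          rw [Finset.card_image_of_injective _ (algebraMap (ZMod l) k).injective, Finset.card_univ,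
            ZMod.card]
          exact (Multiset.toFinset_card_le _).trans ((Polynomial.card_roots' _).trans
            (FiniteField.X_pow_card_sub_X_natDegree_eq k hl1).le)
        have := Finset.eq_of_subset_of_card_le hsub hcard
        have hmem : a i ∈ Finset.univ.image (algebraMap (ZMod l) k) := by
          rw [this, Multiset.mem_toFinset, Polynomial.mem_roots hp]
          exact hroot
        obtain ⟨c, -, hc⟩ := Finset.mem_image.1 hmem
        exact ⟨c, hc⟩
      choose c hc using hFl
      have : v 0 ∈ Submodule.span (ZMod l) (Set.range (Fin.tail v)) := by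
        rw [Submodule.mem_span_range_iff_exists_fun]
        refine ⟨c, ?_⟩
        rw [← ha]
        refine Finset.sum_congr rfl fun i _ => ?_
        rw [← hc i, algebraMap_smul]
      exact (linearIndependent_finSucc.1 hli).2 this
  have hbound : ∀ (r : ℕ) (v : Fin r → S), LinearIndependent (ZMod l) v → r ≤ (M ^ n).rank := by
    intro r v hv
    have h1 := hind r (fun i => (v i : ι → k)) (fun i => (v i).2)
      (hv.map' S.subtype S.ker_subtype)
    have h2 : ∀ i, (v i : ι → k) ∈ I := fun i =>
      ⟨_, (eq_pow_mulVec_of_fixed (v i).2 n).symm⟩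
    have h3 : LinearIndependent k (fun i => (⟨_, h2 i⟩ : I)) := LinearIndependent.of_comp I.subtype h1
    exact (Fintype.card_fin r).symm.le.trans
      (h3.fintype_card_le_finrank.trans (finrank_range_map_le _))
  have hfin : Module.Finite (ZMod l) S := by
    rw [← Module.rank_lt_aleph0_iff]
    refine lt_of_le_of_lt (rank_le (n := (M ^ n).rank) fun s hs => ?_) Cardinal.natCast_lt_aleph0
    exact hbound s.card (fun i => (s.equivFin.symm i : S)) (hs.comp _ s.equivFin.symm.injective)
  have hdim : Module.finrank (ZMod l) S ≤ (M ^ n).rank :=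
    hbound _ _ (Module.finBasis (ZMod l) S).linearIndependent
  have : Finite S := Module.finite_of_finite (ZMod l)
  refine ⟨Set.toFinite (S : Set (ι → k)), ?_⟩
  calc Nat.card {x : ι → k // semiMap M x = x} = Nat.card S := rfl
    _ = l ^ Module.finrank (ZMod l) S := by
      rw [Module.natCard_eq_pow_finrank (K := ZMod l), Nat.card_zmod]
    _ ≤ _ := Nat.pow_le_pow_right hl1.le hdim

end FermatAgent.Mazur.Descent

end
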