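import Fermat.Agent.Mazur.Descent.Kernel.WeightTwo
import Fermat.Agent.Mazur.Step3.CuspClass
import Fermat.Agent.ModCurve.Torsion.EvalFun
import Fermat.Agent.ModCurve.Fun.BaseChange
import Fermat.Agent.Curve.Descent.Places

/-!
# Functions on `X₀(p)` with poles only at `∞`, as holomorphic functions on `ℍ`
-/

set_option autoImplicit false
set_option linter.style.haveILetI false
set_option synthInstance.maxHeartbeats 200000
set_option maxHeartbeats 1000000

noncomputable section

open UpperHalfPlane hiding I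
open Filter Topology Function CongruenceSubgroup AlgebraicCurve
open scoped Real MatrixGroups ModularForm Manifold

namespace FermatAgent.Mazur.Descent.Pair

open FermatAgent.ModFun (cuspRing qLaurent qLaurentHom periodic_iff IsTame levelRing levelToField
  dil aff)
open FermatAgent.ModCurve.Points FermatAgent.ModCurveTorsion
open FermatAgent.Curve.Diff (OrdGE)

local notation "ℍo" => UpperHalfPlane.upperHalfPlaneSet
local notation "Qb" => AlgebraicClosure ℚ

/-- A function of the function field without poles on `ℍ` is a member of the level ring; it is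
bounded at the cusps where it has no pole. -/
theorem exists_levelRing_of_ord_nonneg {N : ℕ} [NeZero N] (f : FieldC N)
    (hz : ∀ z : ℍ, 0 ≤ (pointPlace N z).ord f) :
    ∃ v : levelRing N, levelToField N v = f ∧
      ∀ h : SL(2, ℤ), 0 ≤ ordCusp N h f →
        IsBoundedAtImInfty fun τ : ℍ => (v : ℍ → ℂ) (h • τ) := by
  rcases eq_or_ne f 0 with rfl | hf0
  · exact ⟨0, map_zero _, fun h _ => const_boundedAtFilter _ 0⟩
  set a := evalNum f with ha
  set b := evalDen f with hb
  have hb0 : b ≠ 0 := evalDen_ne_zero f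
  have hbm : MDiff (evalH b) := (evalH_mem_levelRing b).1
  have hbne : evalH b ≠ 0 := fun h => hb0 (evalH_injective h)
  set g := toMeromorphicNFOn (evalFun f) ℍo with hg
  have hgan : ∀ z : ℍ, AnalyticAt ℂ g (z : ℂ) := fun z => by
    rw [← (meromorphicNFOn_toMeromorphicNFOn (evalFun f) ℍo z.2).meromorphicOrderAt_nonneg_iff_analyticAt,
      meromorphicOrderAt_congr ((meromorphicOn_evalFun f).toMeromorphicNFOn_eq_self_on_nhdsNE z.2),
      meromorphicOrderAt_evalFun hf0]
    exact_mod_cast mul_nonneg (Int.natCast_nonneg (ellIndex N z)) (hz z)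
  let v : ℍ → ℂ := fun τ => g (τ : ℂ)
  have hvd : MDiff v := by
    rw [UpperHalfPlane.mdifferentiable_iff]
    refine DifferentiableOn.congr (f := g) (fun z hz' => ?_) fun z hz' => ?_
    · exact (hgan ⟨z, hz'⟩).differentiableAt.differentiableWithinAt
    · simp [v, ofComplex_apply_of_im_pos hz']
  have hvb : ∀ τ : ℍ, v τ * evalH b τ = evalH a τ := fun τ => by
    have hne : ∀ᶠ w in 𝓝[≠] (τ : ℂ), evalC 1 b w ≠ 0 := by
      refine (meromorphicOrderAt_ne_top_iff_eventually_ne_zero
        (analyticAt_evalC 1 _ τ).meromorphicAt).mp fun htop => ?_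
      refine hb0 (germHom_injective τ 1 ?_)
      rw [map_zero, germHom_apply, MeroGerm.mk_eq_zero_iff]
      exact htop
    have he : (g * evalC 1 b) =ᶠ[𝓝[≠] (τ : ℂ)] evalC 1 a := by
      filter_upwards [(meromorphicOn_evalFun f).toMeromorphicNFOn_eq_self_on_nhdsNE τ.2, hne]
        with w h1 h2
      rw [Pi.mul_apply, hg, h1, evalFun, div_mul_cancel₀ _ h2]
    have h := (((hgan τ).continuousAt.mul
      (analyticAt_evalC 1 b τ).continuousAt).eventuallyEq_nhds_iff_eventuallyEq_nhdsNE
        (analyticAt_evalC 1 a τ).continuousAt).mp he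
    simpa [evalC_coe, v] using h.eq_of_nhds
  have hcancel : ∀ d : ℍ → ℂ, MDiff d → (∀ τ, d τ * evalH b τ = 0) → d = 0 := fun d hd hd' =>
    ((UpperHalfPlane.mul_eq_zero_iff hd hbm).mp (funext hd')).resolve_right hbne
  have hinv : ∀ γ ∈ Gamma0 N, ∀ τ : ℍ, v (γ • τ) = v τ := fun γ hγ τ => by
    have := hcancel ((fun σ : ℍ => v (γ • σ)) - v)
      ((FermatAgent.ModFun.mdiff_comp_smul hvd γ).sub hvd) fun σ => by
        rw [Pi.sub_apply, sub_mul, hvb σ]
        have h1 := hvb (γ • σ)
        rw [evalH_smul _ hγ, evalH_smul _ hγ] at h1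
        rw [h1, sub_self]
    exact sub_eq_zero.mp (congrFun this τ)
  -- the cusps
  have hcusp : ∀ h : SL(2, ℤ), IsTame (fun τ : ℍ => v (h • τ)) ∧
      (0 ≤ ordCusp N h f → IsBoundedAtImInfty fun τ : ℍ => v (h • τ)) := by
    intro h
    set w : ℍ → ℂ := fun τ => v (h • dil N τ) with hw
    have hwB : ∀ τ, w τ * evalCusp h b τ = evalCusp h a τ := fun τ => hvb _
    have hBm : evalCusp h b ∈ cuspRing := evalCusp_mem h b
    have hAm : evalCusp h a ∈ cuspRing := evalCusp_mem h a
    have hBne : evalCusp h b ≠ 0 := by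
      intro h0
      refine hbne (funext fun τ => ?_)
      obtain ⟨σ, hσ⟩ := FermatAgent.ModFun.exists_dil_eq N (h⁻¹ • τ)
      have := congrFun h0 σ
      rwa [evalCusp, hσ, smul_inv_smul] at this
    have hwd : MDiff w := by
      refine FermatAgent.ModFun.mdiff_comp (FermatAgent.ModFun.mdiff_comp_smul hvd h) ?_
      simp only [FermatAgent.ModFun.coe_dil]
      exact mdifferentiable_const.mul mdifferentiable_coe
    have hwper : ∀ τ : ℍ, w ((1 : ℝ) +ᵥ τ) = w τ := fun τ => by
      have hd : MDiff ((fun σ : ℍ => w (ModularGroup.T • σ)) - w) :=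
        (FermatAgent.ModFun.mdiff_comp_smul hwd _).sub hwd
      have h1 := (UpperHalfPlane.mul_eq_zero_iff hd hBm.1).mp (funext fun σ => by
        have h2 := hwB (ModularGroup.T • σ)
        rw [modular_T_smul, hBm.2.1, hAm.2.1, ← hwB σ] at h2
        simp only [Pi.mul_apply, Pi.sub_apply, Pi.zero_apply, modular_T_smul, sub_mul, h2, sub_self])
      have h3 := congrFun (h1.resolve_right hBne) τ
      rw [Pi.sub_apply, modular_T_smul] at h3
      exact sub_eq_zero.mp h3
    have hBev : ∀ᶠ q in 𝓝[≠] (0 : ℂ), cuspFunction 1 (evalCusp h b) q ≠ 0 :=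
      (meromorphicOrderAt_ne_top_iff_eventually_ne_zero (meromorphicAt_cuspFunction hBm)).mp
        (by rw [FermatAgent.ModCurve.Points.meromorphicOrderAt_cuspFunction hBm hBne]
            exact WithTop.coe_ne_top)
    have hwe : cuspFunction 1 w =ᶠ[𝓝[≠] 0] evalAtCusp h f := by
      filter_upwards [eventually_invQParam_im_pos, hBev] with q hq hB
      rw [evalAtCusp, ← ha, ← hb, eq_div_iff hB, cuspFunction_apply_of_ne _ hq.1,
        cuspFunction_apply_of_ne _ hq.1, cuspFunction_apply_of_ne _ hq.1, hwB]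
    have hwm : MeromorphicAt (cuspFunction 1 w) 0 :=
      (meromorphicAt_evalAtCusp h f).congr hwe.symm
    have hword : meromorphicOrderAt (cuspFunction 1 w) 0 = ((ordCusp N h f : ℤ) : WithTop ℤ) := by
      rw [meromorphicOrderAt_congr hwe, meromorphicOrderAt_evalAtCusp h hf0]
    have hsec : ∀ τ : ℍ, v (h • τ) = w (aff 1 N 0 τ) := fun τ => by
      simp only [hw]
      congr 2
      ext1
      rw [FermatAgent.ModFun.coe_dil, FermatAgent.ModFun.coe_aff]
      simp [mul_div_cancel₀ _ (NeZero.ne (N : ℂ))]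
    have hN : (0 : ℝ) < (1 : ℕ) / (N : ℝ) := by
      have := NeZero.pos N
      positivity
    constructor
    · set n := (-ordCusp N h f).toNat
      have hQm : qFun ^ n ∈ cuspRing := pow_mem qFun_mem n
      have hQne : qFun ^ n ≠ (0 : ℍ → ℂ) := fun h0 =>
        pow_ne_zero n (Periodic.qParam_ne_zero (h := 1) (UpperHalfPlane.I : ℂ))
          (congrFun h0 UpperHalfPlane.I)
      have hprod : cuspFunction 1 (w * qFun ^ n) =ᶠ[𝓝[≠] 0]
          cuspFunction 1 w * cuspFunction 1 (qFun ^ n) := by
        filter_upwards [eventually_invQParam_im_pos] with q hq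
        simp only [Pi.mul_apply, cuspFunction_apply_of_ne _ hq.1]
      have hwb : IsBoundedAtImInfty (w * qFun ^ n) := by
        refine isBounded_of_orderNonneg
          (fun τ => by rw [Pi.mul_apply, Pi.mul_apply, hwper, hQm.2.1])
          ((hwm.mul (meromorphicAt_cuspFunction hQm)).congr hprod.symm) ?_
        rw [meromorphicOrderAt_congr hprod, meromorphicOrderAt_mul hwm (meromorphicAt_cuspFunction hQm),
          hword, FermatAgent.ModCurve.Points.meromorphicOrderAt_cuspFunction hQm hQne,
          qLaurent_pow qFun_mem, qLaurent_qFun, HahnSeries.single_pow, one_pow,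
          HahnSeries.order_single one_ne_zero, nsmul_one, ← WithTop.coe_add]
        exact WithTop.coe_le_coe.mpr (by omega)
      have hwt : IsTame w := by
        have he : w = (w * qFun ^ n) * qInv ^ n := funext fun τ => by
          simp [qFun, qInv, Periodic.qParam_ne_zero]
        rw [he]
        exact (IsTame.of_bounded hwb).mul (pow_mem qInv_mem n).2.2
      rw [show (fun τ : ℍ => v (h • τ)) = w ∘ aff 1 N 0 from funext hsec]
      exact hwt.comp hN (FermatAgent.ModFun.aff_im 1 N 0)
    · intro ho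
      have hwb := isBounded_of_orderNonneg hwper hwm (by rw [hword]; exact_mod_cast ho)
      rw [show (fun τ : ℍ => v (h • τ)) = w ∘ aff 1 N 0 from funext hsec]
      refine hwb.comp_tendsto ?_
      rw [atImInfty, tendsto_comap_iff]
      exact (tendsto_comap.const_mul_atTop hN).congr fun τ =>
        (FermatAgent.ModFun.aff_im 1 N 0 τ).symm
  let V : levelRing N := ⟨v, hvd, hinv, fun h => (hcusp h).1⟩
  refine ⟨V, ?_, fun h ho => (hcusp h).2 ho⟩
  have hbF : toField N b ≠ 0 := (map_ne_zero_iff _ (toField_injective N)).2 hb0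
  have hmul : levelToField N V * toField N b = toField N a := by
    refine Subtype.ext ?_
    show qLaurent v * qLaurentHom (b : cuspRing) = qLaurentHom (a : cuspRing)
    have : (⟨v, FermatAgent.ModFun.levelRing_le_cuspRing N V.2⟩ : cuspRing) * (b : cuspRing)
        = (a : cuspRing) := Subtype.ext (funext hvb)
    rw [← this, map_mul]
    rfl
  rw [eq_evalNum_div_evalDen f, eq_div_iff hbF]
  exact hmul

/-- `G` as a holomorphic function, bounded at all cusps other than `∞`. -/
theorem exists_levelRing_of_ordGE {p : ℕ} [Fact p.Prime]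
    (G : ModularCurve.modularFunctionFieldBar p)
    (hG : ∀ P : Place Qb (ModularCurve.modularFunctionFieldBar p),
      P ≠ Step3.cInf p → OrdGE P 0 G) :
    ∃ v : levelRing p,
      qLaurent (v : ℍ → ℂ) =
        ModularCurve.coeffMap (FermatAgent.ModFun.qbarToC : Qb →+* ℂ) (G : LaurentSeries Qb) ∧
      ∀ γ : SL(2, ℤ), γ ∉ Gamma0 p → IsBoundedAtImInfty fun τ : ℍ => (v : ℍ → ℂ) (γ • τ) := by
  let F := ModularCurve.modularFunctionFieldBar p
  let ψ : F →+* FieldC p := FermatAgent.ModFun.baseChangeHom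
    (ModularCurve.modularFunctionFieldFull p) FermatAgent.ModFun.qbarToC
  letI : Algebra Qb ℂ := (FermatAgent.ModFun.qbarToC : Qb →+* ℂ).toAlgebra
  letI : Algebra F (FieldC p) := ψ.toAlgebra
  letI : Algebra Qb (FieldC p) :=
    ((algebraMap ℂ (FieldC p)).comp (FermatAgent.ModFun.qbarToC : Qb →+* ℂ)).toAlgebra
  haveI : IsScalarTower Qb ℂ (FieldC p) := IsScalarTower.of_algebraMap_eq fun _ => rfl
  haveI : IsScalarTower Qb F (FieldC p) := IsScalarTower.of_algebraMap_eq fun c =>
    (FermatAgent.ModFun.baseChangeHom_algebraMap (ModularCurve.modularFunctionFieldFull p)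
      FermatAgent.ModFun.qbarToC c).symm
  have hj : ψ (FermatAgent.ModFun.jBar Qb p) = FermatAgent.ModFun.jBar ℂ p :=
    FermatAgent.ModFun.baseChangeHom_jBar p _
  have hjN : ψ (FermatAgent.ModFun.jNBar Qb p) = FermatAgent.ModFun.jNBar ℂ p :=
    FermatAgent.ModFun.baseChangeHom_jNBar p _
  haveI : FermatAgent.Curve.Descent.IsConstantExtension Qb ℂ F (FieldC p) := by
    refine ⟨top_le_iff.1 ?_, ⟨FermatAgent.ModFun.jBar Qb p, ?_⟩⟩
    · rw [← FermatAgent.ModFun.adjoin_jBar_jNBar ℂ p, IntermediateField.adjoin_le_iff]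
      rintro x (rfl | rfl)
      · exact IntermediateField.subset_adjoin _ _ ⟨_, hj⟩
      · exact IntermediateField.subset_adjoin _ _ ⟨_, hjN⟩
    · show Transcendental ℂ (ψ (FermatAgent.ModFun.jBar Qb p))
      rw [hj]; exact FermatAgent.ModFun.transcendental_jBar ℂ p
  -- only the cusp `∞` can be a pole
  have hcinf : ∀ Q : Place ℂ (FieldC p), Q.ord (ψ G) < 0 →
      FermatAgent.Curve.Descent.extPlace ℂ (FieldC p) (Step3.cInf p) = Q := by
    intro Q hQ
    obtain ⟨P, hP⟩ := FermatAgent.Curve.Descent.exists_extPlace_eq (K := Qb) (Q := Q) (x := G)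
      (by show Q.ord (ψ G) ≠ 0; omega)
    have hPord : P.ord G < 0 := by
      rw [← FermatAgent.Curve.Descent.ord_extPlace (K' := ℂ) (F' := FieldC p) P G, hP]
      exact hQ
    rw [← hP]
    congr 1
    by_contra hne
    have hG0 : G ≠ 0 := fun h => by simp [h] at hPord
    have := (hG P (Ne.symm hne)).le_ord hG0
    omega
  have hord : ∀ Q : Place ℂ (FieldC p), Q ≠ cuspPlace p 1 → 0 ≤ Q.ord (ψ G) := by
    intro Q hQ
    by_contra hlt
    push Not at hlt
    have h1 := hcinf Q hlt
    refine hQ ?_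
    have h2 : (cuspPlace p 1).ord (ψ G) = (Step3.cInf p).ord G := by
      rw [ord_cuspPlace_one, Step3.ord_cInf, FermatAgent.ModFun.coe_baseChangeHom]
      exact Step3.order_coeffMap _ _
    have h3 : (Step3.cInf p).ord G < 0 := by
      rw [← FermatAgent.Curve.Descent.ord_extPlace (K' := ℂ) (F' := FieldC p) (Step3.cInf p) G, h1]
      exact hlt
    rw [← h1, hcinf (cuspPlace p 1) (by omega)]
  obtain ⟨v, hv, hvb⟩ := exists_levelRing_of_ord_nonneg (ψ G)
    fun z => hord _ (pointPlace_ne_cuspPlace p z 1)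
  refine ⟨v, ?_, fun γ hγ => hvb γ ?_⟩
  · rw [← FermatAgent.ModFun.coe_levelToField, hv]
    rfl
  · have hne : cuspPlace p γ ≠ cuspPlace p 1 := by
      intro he
      obtain ⟨i, δ, hδ, h'⟩ := (cuspPlace_eq_iff p).mp he.symm
      refine hγ (h' ▸ ?_)
      exact mul_mem (mul_mem hδ (one_mem _)) (pow_mem (FermatAgent.ModFun.T_mem_Gamma0 p) i)
    have h1 := ordCusp_eq p γ (ψ G)
    have h2 := hord _ hne
    have h3 := cuspWidth_pos p γ
    have : 0 ≤ (cuspWidth p γ : ℤ) * ordCusp p γ (ψ G) := h1 ▸ by positivity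
    exact nonneg_of_mul_nonneg_right this (by exact_mod_cast h3)

end FermatAgent.Mazur.Descent.Pair

end
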