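import Fermat.Agent.Mazur.Descent.Kernel.Shape

/-!
# Polar parts at the marked place of classes in the kernel of reduction

A class with canonical scalar `ϖ ^ l` gives a function `G` of the special fibre with
`H + G ^ l - G` regular outside the marked point. A functional `χ` on polar parts at that point
which kills functions regular elsewhere sees `G` only through the class, and is fixed by the
Frobenius-semilinear map `Φ` with `χ (G ^ l) = Φ (χ G)`.
-/

set_option autoImplicit false

noncomputable section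

open AlgebraicCurve FermatAgent.Curve FermatAgent.Curve.RR FermatAgent.Curve.Diff
open FermatAgent.JacCharts FermatAgent.JacCharts.GoodReductionDatum

namespace FermatAgent.Mazur.Descent

variable {K : Type*} [Field K] {A : ValuationSubring K} {k : Type*} [Field k] {π : A →+* k}
variable {F : Type*} [Field F] [Algebra K F] {Fb : Type*} [Field Fb] [Algebra k Fb]
variable [RRSetting K F] [RRSetting k Fb]
variable {d : GoodReductionDatum A π F Fb} {l : ℕ}

omit [RRSetting K F] [RRSetting k Fb] in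
theorem mem_of_redsTo_algebraMap {r : K} {fb : Fb} (h : d.RedsTo (algebraMap K F r) fb) :
    r ∈ A := by
  refine coords_mem (d := d) (b := ![(1 : F)]) (bb := ![(1 : Fb)])
    (fun i => by fin_cases i; exact redsTo_one) ?_ h.1 (c := ![r]) ?_ 0
  · rw [Fintype.linearIndependent_iff]
    intro g hg i
    fin_cases i
    simpa using hg
  · simp [Algebra.smul_def]

/-- Scaling a function whose reduction has trivial divisor to one reducing to `1`. -/
theorem exists_smul_redsTo_one {f : F} (hf : f ≠ 0)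
    (h : d.redDiv (divOf (K := K) f) = 0) :
    ∃ c : K, c ≠ 0 ∧ d.RedsTo (c • f) 1 := by
  obtain ⟨c, hc, fb, hfb, hfr⟩ := d.exists_scale hf
  have hcf := hfr.ne_zero hfb
  have hfb_div : divOf (K := k) fb = 0 := by
    rw [← hfr.redDiv_divOf hfb,
      show divOf (K := K) (c • f) = divOf (K := K) f from Finsupp.ext fun v => by
        rw [divOf_apply hcf, divOf_apply hf, ord_const_smul v hc hf], h]
  obtain ⟨a, ha⟩ : ∃ a : k, algebraMap k Fb a = fb := by
    have hmem : fb ∈ riemannRochSpace (0 : Divisor k Fb) := by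
      rw [mem_L_iff_divOf hfb, hfb_div, add_zero]
    rw [riemannRochSpace_zero_eq, Submodule.mem_span_singleton] at hmem
    obtain ⟨a, rfl⟩ := hmem
    exact ⟨a, by rw [Algebra.smul_def, mul_one]⟩
  have ha0 : a ≠ 0 := fun h => hfb (by rw [← ha, h, map_zero])
  obtain ⟨b, hb⟩ := d.residue_surjective a⁻¹
  have hb0 : (b : K) ≠ 0 := fun h => by
    rw [show b = 0 from Subtype.ext h, map_zero] at hb
    exact inv_ne_zero ha0 hb.symm
  refine ⟨b * c, mul_ne_zero hb0 hc, ?_⟩
  have := hfr.smul b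
  rwa [hb, ← ha, Algebra.smul_def a⁻¹, ← map_mul, inv_mul_cancel₀ ha0, map_one, smul_smul]
    at this

omit [RRSetting K F] [RRSetting k Fb] in
/-- The `l`-th power of `1 + ϖ u`, reduced. -/
theorem exists_pow_one_add (hl : l.Prime) [CharP k l] {ϖ : A} (hϖ : (ϖ : K) ^ (l - 1) = -(l : K))
    (hπϖ : π ϖ = 0) {u : F} {U : Fb} (hu : d.RedsTo u U) :
    ∃ Y : F, (1 + algebraMap K F (ϖ : K) * u) ^ l = 1 + algebraMap K F ((ϖ : K) ^ l) * Y ∧
      d.RedsTo Y (U ^ l - U) := by
  have hdvd : ∀ i ∈ Finset.Ioo 1 l, ∃ m : ℕ, Nat.choose l i = l * m := fun i hi => by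
    rw [Finset.mem_Ioo] at hi
    exact hl.dvd_choose_self (by omega) hi.2
  choose m hm using hdvd
  set a : ℕ → A := fun i => if hi : i ∈ Finset.Ioo 1 l then -(m i hi : A) * ϖ ^ (i - 1) else 0
  refine ⟨u ^ l - u + ∑ i ∈ Finset.Ioo 1 l, algebraMap K F (a i : K) * u ^ i, ?_, ?_⟩
  · have hl2 := hl.two_le
    have hset : Finset.range (l + 1) = insert 0 (insert 1 (insert l (Finset.Ioo 1 l))) := by
      ext i; simp only [Finset.mem_range, Finset.mem_insert, Finset.mem_Ioo]; omega
    have hneg : algebraMap K F ((ϖ : K) ^ l) * u = -((l : F) * algebraMap K F (ϖ : K) * u) := by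
      rw [show (ϖ : K) ^ l = -((l : K) * ϖ) by
        rw [← neg_mul, ← hϖ, ← pow_succ, Nat.sub_add_cancel hl.one_le]]
      rw [map_neg, map_mul, map_natCast]
      ring
    rw [add_comm (1 : F), add_pow, hset, Finset.sum_insert (by simp; omega),
      Finset.sum_insert (by simp; omega), Finset.sum_insert (by simp)]
    simp only [one_pow, mul_one, pow_zero, Nat.choose_zero_right, Nat.cast_one, pow_one,
      Nat.choose_one_right, Nat.choose_self, mul_add, mul_sub, hneg, Finset.mul_sum]
    rw [mul_pow, map_pow]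
    have hterm : ∀ i ∈ Finset.Ioo 1 l, (algebraMap K F (ϖ : K) * u) ^ i * (l.choose i : F) =
        algebraMap K F (ϖ : K) ^ l * (algebraMap K F (a i : K) * u ^ i) := by
      intro i hi
      have hi' := Finset.mem_Ioo.1 hi
      simp only [a, dif_pos hi]
      have key : (ϖ : K) ^ l * ((-(m i hi : A) * ϖ ^ (i - 1) : A) : K) =
          ((l * m i hi : ℕ) : K) * (ϖ : K) ^ i := by
        rw [show (ϖ : K) ^ l = (ϖ : K) ^ (l - 1) * ϖ by
            rw [← pow_succ, Nat.sub_add_cancel hl.one_le], hϖ,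
          show (ϖ : K) ^ i = (ϖ : K) * (ϖ : K) ^ (i - 1) by
            rw [← pow_succ', Nat.sub_add_cancel (by omega)]]
        push_cast
        ring
      rw [hm i hi, mul_pow, ← map_pow, ← map_pow, ← mul_assoc (algebraMap K F ((ϖ : K) ^ l)),
        ← map_mul, key, map_mul, map_natCast]
      ring
    rw [Finset.sum_congr rfl hterm]
    ring
  · have h0 : d.RedsTo (∑ i ∈ Finset.Ioo 1 l, algebraMap K F (a i : K) * u ^ i)
        (∑ _i ∈ Finset.Ioo 1 l, (0 : Fb)) := RedsTo.sum _ fun i hi => by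
      have h1 := (redsTo_algebraMap (a i)).mul (redsTo_pow hu i)
      have h2 : π (a i) = 0 := by
        simp only [a, dif_pos hi]
        rw [map_mul, map_pow, hπϖ, zero_pow (by rw [Finset.mem_Ioo] at hi; omega), mul_zero]
      rwa [h2, map_zero, zero_mul] at h1
    rw [Finset.sum_const_zero] at h0
    simpa using ((redsTo_pow hu l).sub hu).add h0

/-- An `l`-th power congruent to a constant modulo `ϖ ^ l`: the deviation is of Artin–Schreier
type, from a function with the poles allowed to the base. -/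
theorem exists_artinSchreier_of_pow (hl : l.Prime) [CharP k l] {ϖ : A}
    (hϖ : (ϖ : K) ^ (l - 1) = -(l : K)) (hπϖ : π ϖ = 0) (hϖ0 : (ϖ : K) ≠ 0)
    {g : F} (hg : d.RedsTo g 1) {r : K} {Y : F} {Yb : Fb} (hY : d.RedsTo Y Yb)
    (heq : algebraMap K F r * g ^ l = 1 + algebraMap K F ((ϖ : K) ^ l) * Y)
    {D : Divisor K F} (hD : 0 ≤ D) (hgD : g ∈ riemannRochSpace D) :
    ∃ (U : Fb) (c : k), U ∈ riemannRochSpace (d.redDiv D) ∧
      Yb = U ^ l - U + algebraMap k Fb c := by
  have hϖl : (ϖ : K) ^ l ≠ 0 := pow_ne_zero _ hϖ0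
  have hϖF : algebraMap K F ((ϖ : K) ^ l) ≠ 0 := (map_ne_zero _).2 hϖl
  have hscalar : ∀ {s : K} {fb : Fb}, d.RedsTo (algebraMap K F s) fb →
      ∃ c : k, fb = algebraMap k Fb c := fun {s fb} h =>
    ⟨π ⟨s, mem_of_redsTo_algebraMap h⟩,
      h.unique (redsTo_algebraMap ⟨s, mem_of_redsTo_algebraMap h⟩)⟩
  by_cases hnc : g ∈ Set.range (algebraMap K F)
  · obtain ⟨b, rfl⟩ := hnc
    have hYs : Y = algebraMap K F ((r * b ^ l - 1) / (ϖ : K) ^ l) := by
      rw [map_div₀, map_sub, map_mul, map_pow, map_one, heq, add_sub_cancel_left,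
        mul_div_cancel_left₀ _ hϖF]
    obtain ⟨c, hc⟩ := hscalar (hYs ▸ hY)
    exact ⟨0, c, zero_mem _, by rw [hc, zero_pow hl.ne_zero, sub_zero, zero_add]⟩
  obtain ⟨c', ε, u, U, hc', hε, hε0, hgeq, hu, hU, hspan⟩ := exists_dev hg hnc
  have hc'0 : (c' : K) ≠ 0 := fun h0 => by
    rw [show c' = 0 from Subtype.ext h0, map_zero] at hc'
    exact zero_ne_one hc'
  have huD : u ∈ riemannRochSpace D := by
    refine Submodule.span_le.2 ?_ hspan
    rintro x (rfl | rfl)
    · exact one_mem_L hD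
    · exact hgD
  obtain ⟨w, hw⟩ := (d.isUnit_iff_pi_ne_zero c').2 (by rw [hc']; exact one_ne_zero)
  set ci : A := ((w⁻¹ : Aˣ) : A)
  have hci : (ci : K) * c' = 1 := by
    have h' : ci * c' = 1 := by rw [← hw]; simp [ci]
    exact congrArg Subtype.val h'
  set ε' : A := ci * ε
  have hg' : g = algebraMap K F (c' : K) * (1 + algebraMap K F (ε' : K) * u) := by
    rw [mul_add, mul_one, ← mul_assoc, ← map_mul,
      show (c' : K) * ((ci * ε : A) : K) = ε by push_cast; rw [← mul_assoc, mul_comm (c' : K), hci,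
        one_mul], ← hgeq]
  by_cases hle : A.valuation (ε' : K) ≤ A.valuation (ϖ : K)
  · have ha : (ε' : K) / ϖ ∈ A := by
      rw [← A.valuation_le_one_iff, map_div₀]
      exact div_le_one_of_le₀ hle zero_le
    set u' := algebraMap K F ((ε' : K) / ϖ) * u
    have hu' : d.RedsTo u' (algebraMap k Fb (π ⟨_, ha⟩) * U) := (redsTo_algebraMap ⟨_, ha⟩).mul hu
    obtain ⟨Z, hZ, hZr⟩ := exists_pow_one_add hl hϖ hπϖ hu'
    rw [show algebraMap K F (ϖ : K) * u' = algebraMap K F (ε' : K) * u by
      rw [← mul_assoc, ← map_mul, mul_div_cancel₀ _ hϖ0]] at hZ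
    set s := r * (c' : K) ^ l
    have heq' : algebraMap K F s * (1 + algebraMap K F ((ϖ : K) ^ l) * Z) =
        1 + algebraMap K F ((ϖ : K) ^ l) * Y := by
      rw [← heq, hg', ← hZ, map_mul, map_pow, mul_pow]
      ring
    have hP : d.RedsTo (algebraMap K F ((ϖ : K) ^ l)) 0 := by
      have := redsTo_algebraMap (d := d) (ϖ ^ l)
      rwa [map_pow, hπϖ, zero_pow hl.ne_zero, map_zero] at this
    have h1Z : d.RedsTo (1 + algebraMap K F ((ϖ : K) ^ l) * Z) 1 := by
      simpa using redsTo_one.add (hP.mul hZr)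
    have hs : d.RedsTo (algebraMap K F s) 1 := by
      have h1Y : d.RedsTo (1 + algebraMap K F ((ϖ : K) ^ l) * Y) 1 := by
        simpa using redsTo_one.add (hP.mul hY)
      have := redsTo_div h1Y h1Z one_ne_zero
      rwa [← heq', mul_div_assoc, div_self (h1Z.ne_zero one_ne_zero), mul_one, div_one] at this
    have hrem : algebraMap K F ((s - 1) / (ϖ : K) ^ l) = Y - algebraMap K F s * Z := by
      rw [map_div₀, map_sub, map_one, div_eq_iff hϖF]
      linear_combination heq'
    obtain ⟨c, hc⟩ := hscalar (hrem ▸ hY.sub (hs.mul hZr))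
    refine ⟨_, c, hu'.mem_L ?_, ?_⟩
    · simpa [u', Algebra.smul_def] using Submodule.smul_mem _ ((ε' : K) / ϖ) huD
    · linear_combination hc
  · rw [not_le] at hle
    exfalso
    have hε'0 : (ε' : K) ≠ 0 := fun h0 => by
      rw [h0, map_zero] at hle
      exact not_lt_zero hle
    have hq : (ϖ : K) / ε' ∈ A := by
      rw [← A.valuation_le_one_iff, map_div₀]
      exact div_le_one_of_le₀ hle.le zero_le
    have hπq : π ⟨_, hq⟩ = 0 := by
      rw [pi_eq_zero_iff_val_lt (d := d), map_div₀,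
        div_lt_one₀ (zero_lt_iff.2 ((Valuation.ne_zero_iff _).2 hε'0))]
      exact hle
    set q : A := ⟨_, hq⟩
    have hεF : algebraMap K F ((ε' : K) ^ l) ≠ 0 := (map_ne_zero _).2 (pow_ne_zero _ hε'0)
    -- `(1 + ε' u) ^ l = 1 + ε' ^ l T` with `T` reducing to `U ^ l`
    set aq : ℕ → A := fun i => if i = l then 1 else
      -q ^ (l - 1) * ε' ^ (i - 1) * (l.choose i / l : ℕ)
    set T : F := ∑ i ∈ Finset.Icc 1 l, algebraMap K F (aq i : K) * u ^ i
    have hT : d.RedsTo T (U ^ l) := by
      have := RedsTo.sum (d := d) (Finset.Icc 1 l)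
        fun i _ => (redsTo_algebraMap (aq i)).mul (redsTo_pow hu i)
      have e : ∑ i ∈ Finset.Icc 1 l, algebraMap k Fb (π (aq i)) * U ^ i = U ^ l := by
        rw [Finset.sum_eq_single_of_mem l (Finset.mem_Icc.2 ⟨hl.one_le, le_rfl⟩) fun i _ hne => by
          simp only [aq, if_neg hne]
          rw [map_mul π, map_mul π, map_neg π, map_pow π, hπq,
            zero_pow (by have := hl.two_le; omega), neg_zero, zero_mul, zero_mul, map_zero,
            zero_mul]]
        simp [aq]
      rwa [e] at this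
    have hpow : (1 + algebraMap K F (ε' : K) * u) ^ l =
        1 + algebraMap K F ((ε' : K) ^ l) * T := by
      have hset : Finset.range (l + 1) = insert 0 (Finset.Icc 1 l) := by
        ext i; simp only [Finset.mem_range, Finset.mem_insert, Finset.mem_Icc]; omega
      rw [add_comm (1 : F), add_pow, hset, Finset.sum_insert (by simp)]
      simp only [one_pow, mul_one, pow_zero, Nat.choose_zero_right, Nat.cast_one, T,
        Finset.mul_sum]
      refine congrArg _ (Finset.sum_congr rfl fun i hi => ?_)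
      rw [mul_pow, ← mul_assoc, ← map_mul, ← map_pow]
      rw [show (ε' : K) ^ l * (aq i : K) = (ε' : K) ^ i * (l.choose i : K) by
        rcases eq_or_ne i l with rfl | hne
        · simp [aq]
        · simp only [aq, if_neg hne]
          rw [Finset.mem_Icc] at hi
          push_cast
          have hd : (l.choose i : K) = (l : K) * ((l.choose i / l : ℕ) : K) := by
            rw [← Nat.cast_mul, Nat.mul_div_cancel' (hl.dvd_choose_self (by omega) (by omega))]
          simp only [q]
          rw [hd, div_pow, show (ε' : K) ^ l = (ε' : K) ^ (l - 1) * ε' by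
              rw [← pow_succ, Nat.sub_add_cancel hl.one_le], hϖ,
            show (ε' : K) ^ i = ε' * (ε' : K) ^ (i - 1) by
              rw [← pow_succ', Nat.sub_add_cancel hi.1]]
          field_simp, map_mul, map_natCast]
      ring
    -- comparison
    set s := r * (c' : K) ^ l
    have heq' : algebraMap K F s * (1 + algebraMap K F ((ε' : K) ^ l) * T) =
        1 + algebraMap K F ((ϖ : K) ^ l) * Y := by
      rw [← heq, hg', ← hpow, map_mul, map_pow, mul_pow]
      ring
    have hsA : d.RedsTo (algebraMap K F s) 1 := by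
      have hP : d.RedsTo (algebraMap K F ((ϖ : K) ^ l)) 0 := by
        have := redsTo_algebraMap (d := d) (ϖ ^ l)
        rwa [map_pow, hπϖ, zero_pow hl.ne_zero, map_zero] at this
      have hE : d.RedsTo (algebraMap K F ((ε' : K) ^ l)) 0 := by
        have := redsTo_algebraMap (d := d) (ε' ^ l)
        rwa [map_pow, map_mul, hε, mul_zero, zero_pow hl.ne_zero, map_zero] at this
      have h1Y : d.RedsTo (1 + algebraMap K F ((ϖ : K) ^ l) * Y) 1 := by
        simpa using redsTo_one.add (hP.mul hY)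
      have h1T : d.RedsTo (1 + algebraMap K F ((ε' : K) ^ l) * T) 1 := by
        simpa using redsTo_one.add (hE.mul hT)
      have := redsTo_div h1Y h1T one_ne_zero
      rwa [← heq', mul_div_assoc, div_self (h1T.ne_zero one_ne_zero), mul_one, div_one] at this
    have hrem : algebraMap K F ((1 - s) / (ε' : K) ^ l) =
        algebraMap K F s * T - algebraMap K F ((q : K) ^ l) * Y := by
      rw [map_div₀, map_sub, map_one, div_eq_iff hεF]
      simp only [q]
      rw [sub_mul, mul_comm (algebraMap K F (((ϖ : K) / ε') ^ l) * Y), ← mul_assoc, ← map_mul,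
        div_pow, mul_div_cancel₀ _ (pow_ne_zero _ hε'0)]
      linear_combination -heq'
    have hR : d.RedsTo (algebraMap K F ((1 - s) / (ε' : K) ^ l)) (U ^ l) := by
      rw [hrem]
      have := (hsA.mul hT).sub ((redsTo_algebraMap (q ^ l)).mul hY)
      rw [map_pow, hπq, zero_pow hl.ne_zero, map_zero, zero_mul, sub_zero, one_mul] at this
      exact this
    obtain ⟨c, hc⟩ := hscalar hR
    -- a function with constant `l`-th power is constant
    refine hU ?_
    have h0 : U ∈ riemannRochSpace (0 : Divisor k Fb) := by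
      refine mem_riemannRochSpace_iff.2 fun Q => ?_
      rcases eq_or_ne U 0 with h0 | h0
      · exact Or.inl h0
      · refine Or.inr ?_
        have := congrArg Q.ord hc
        rw [← zpow_natCast, Place.ord_zpow] at this
        rcases eq_or_ne c 0 with hc0 | hc0
        · rw [hc0, map_zero, Place.ord_zero] at this
          have := (mul_eq_zero.1 this).resolve_left (by exact_mod_cast hl.ne_zero)
          simp [this]
        · rw [ord_algebraMap_const] at this
          have := (mul_eq_zero.1 this).resolve_left (by exact_mod_cast hl.ne_zero)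
          simp [this]
    rw [riemannRochSpace_zero_eq, Submodule.mem_span_singleton] at h0
    obtain ⟨a, ha⟩ := h0
    exact ⟨a, by rw [← ha, Algebra.smul_def, mul_one]⟩

omit [RRSetting K F] [RRSetting k Fb] in
/-- Functions with an Artin–Schreier image regular at a point are regular there. -/
theorem ordGE_of_artinSchreier (hl : l.Prime) {Q : Place k Fb} {D : Fb}
    (h : OrdGE Q 0 (D ^ l - D)) : OrdGE Q 0 D := by
  rcases eq_or_ne D 0 with h0 | h0
  · exact Or.inl h0
  by_contra hcon
  have hneg : Q.ord D < 0 := by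
    simp only [OrdGE, h0, false_or, not_le] at hcon
    exact hcon
  have hp : D ^ l ≠ 0 := pow_ne_zero _ h0
  have hlt : Q.ord (D ^ l) < Q.ord D := by
    rw [← zpow_natCast, Place.ord_zpow]
    have : (2 : ℤ) ≤ l := by exact_mod_cast hl.two_le
    nlinarith
  have h1 : OrdGE Q (Q.ord D) (D ^ l) := by
    have := (h.mono (m' := Q.ord D) hneg.le).add (Or.inr le_rfl : OrdGE Q (Q.ord D) D)
    rwa [sub_add_cancel] at this
  have := h1.le_ord hp
  omega

variable [IsAlgClosed K] [IsFunctionField1 K F]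
variable {Pinf : Place K F} {B : Base d Pinf}
variable {V : Type*} [AddCommGroup V]

/-- The injection of classes with canonical scalar `ϖ ^ l` into the fixed points of `Φ`. -/
theorem exists_injective_fixed (hl : l.Prime) [CharP k l] {ϖ : A}
    (hϖ : (ϖ : K) ^ (l - 1) = -(l : K)) (hπϖ : π ϖ = 0) (hϖ0 : (ϖ : K) ≠ 0) (B : Base d Pinf)
    (χ : Fb →+ V) (Φ : V → V)
    (hreg : ∀ G : Fb, OrdGE (d.place Pinf) 0 G → χ G = 0)
    (hfree : ∀ G : Fb, (∀ Q : Place k Fb, Q ≠ d.place Pinf → OrdGE Q 0 G) → χ G = 0)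
    (hker : ∀ G : Fb, (∀ Q : Place k Fb, Q ≠ d.place Pinf → OrdGE Q (-d.redDiv B.S Q) G) →
      χ G = 0 → ∃ G₀ : Fb, (∀ Q : Place k Fb, Q ≠ d.place Pinf → OrdGE Q 0 G₀) ∧
        OrdGE (d.place Pinf) 0 (G - G₀))
    (hpow : ∀ G : Fb, χ (G ^ l) = Φ (χ G))
    (hΦ0 : Φ 0 = 0)
    (hsurj : ∀ c : Place k Fb → Fb,
      (∀ Q, d.redDiv B.S Q = 1 → OrdGE Q (-1) (c Q)) →
      ∃ G : Fb, (∀ Q : Place k Fb, Q ≠ d.place Pinf → OrdGE Q (-d.redDiv B.S Q) G) ∧
        ∀ Q, d.redDiv B.S Q = 1 → OrdGE Q 0 (G - c Q))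
    (W : AddSubgroup (Pic0 K F)) (hW : ∀ z ∈ W, d.redPic0 z = 0 ∧ l • z = 0)
    (hWe : ∀ z ∈ W, ∀ C : Canon B l z, A.valuation (C.e : K) = A.valuation ((ϖ : K) ^ l)) :
    ∃ ψ : W → V, Function.Injective ψ ∧ ∀ z, Φ (ψ z) = ψ z := by
  classical
  set Qi := d.place Pinf
  have hS0 : ∀ Q, d.redDiv B.S Q ≠ 1 → d.redDiv B.S Q = 0 := fun Q h => by
    have := B.le_one Q
    have : 0 ≤ d.redDiv B.S Q := by
      simpa using Finsupp.le_def.1 (redDiv_nonneg (d := d) B.nonneg) Q
    omega
  have hQi : d.redDiv B.S Qi = 0 := B.avoid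
  -- canonical data with scalar `ϖ ^ l` and the attached function `G`
  have hdata : ∀ z : W, z ≠ 0 → ∃ (C : Canon B l (z : Pic0 K F)) (G : Fb),
      C.e = ϖ ^ l ∧
      (∀ Q, Q ≠ Qi → OrdGE Q (-d.redDiv B.S Q) G) ∧
      ∀ Q, Q ≠ Qi → OrdGE Q 0 (C.H + G ^ l - G) := by
    intro z hz
    obtain ⟨C₀⟩ := exists_canon B hl.ne_zero (hW z z.2).1 (hW z z.2).2
      (fun h => hz (Subtype.ext h))
    obtain ⟨C, hCe, -⟩ := C₀.exists_rescale (e' := ϖ ^ l)
      (by push_cast; exact (hWe z z.2 C₀).symm)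
    have hC : ∀ Q, d.redDiv B.S Q = 1 → ∃ W : Fb, OrdGE Q (-1) W ∧
        OrdGE Q 0 (C.H + W ^ l - W) := fun Q hQ =>
      exists_artinSchreier hl hϖ C (by rw [hCe]; rfl) hQ
    choose c hc1 hc2 using hC
    obtain ⟨G, hG1, hG2⟩ := hsurj (fun Q => if h : d.redDiv B.S Q = 1 then c Q h else 0)
      (fun Q hQ => by simp only [dif_pos hQ]; exact hc1 Q hQ)
    refine ⟨C, G, hCe, hG1, fun Q hQ => ?_⟩
    by_cases h1 : d.redDiv B.S Q = 1
    · have hd := hG2 Q h1
      simp only [dif_pos h1] at hd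
      have := Fact.mk hl
      have hdl : OrdGE Q 0 ((G - c Q h1) ^ l) := by
        rw [ordGE_zero_iff_mem] at hd ⊢
        exact pow_mem hd l
      have := ((hc2 Q h1).add hdl).sub hd
      convert this using 1
      have : CharP Fb l := charP_of_injective_algebraMap (algebraMap k Fb).injective l
      rw [sub_pow_char]
      ring
    · have hG0 : OrdGE Q 0 G := by
        have := hG1 Q hQ
        rwa [hS0 Q h1, neg_zero] at this
      have hGl : OrdGE Q 0 (G ^ l) := by
        rw [ordGE_zero_iff_mem] at hG0 ⊢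
        exact pow_mem hG0 l
      exact ((ordGE_of_notMem C h1).add hGl).sub hG0
  choose C G hCe hG1 hG2 using hdata
  let ψ : W → V := fun z => if h : z = 0 then 0 else χ (G z h)
  have hHi : ∀ z h, OrdGE Qi 0 (C z h).H := fun z h => ordGE_of_notMem (C z h) (by rw [hQi]; decide)
  -- fixed points
  have hfix : ∀ z, Φ (ψ z) = ψ z := by
    intro z
    by_cases h : z = 0
    · simp only [ψ, dif_pos h, hΦ0]
    · simp only [ψ, dif_neg h, ← hpow]
      refine sub_eq_zero.1 ?_
      rw [← map_sub]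
      have h0 := hfree _ (hG2 z h)
      rwa [show (C z h).H + G z h ^ l - G z h = (C z h).H + (G z h ^ l - G z h) by ring, map_add,
        hreg _ (hHi z h), zero_add] at h0
  -- nonvanishing
  have hne : ∀ z h, χ (G z h) ≠ 0 := by
    intro z h h0
    obtain ⟨G₀, hG₀, hG₀i⟩ := hker _ (hG1 z h) h0
    obtain ⟨a, ha⟩ := mem_range_of_simple B (W := G z h - G₀) (mem_riemannRochSpace_iff.2 fun Q => by
      rcases eq_or_ne Q Qi with rfl | hQ
      · exact (hG₀i.mono (by rw [hQi]; simp)).imp_right fun h => h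
      · refine (((hG1 z h) Q hQ).sub ((hG₀ Q hQ).mono ?_)).imp_right fun h => h
        have : 0 ≤ d.redDiv B.S Q := by
          simpa using Finsupp.le_def.1 (redDiv_nonneg (d := d) B.nonneg) Q
        omega)
    have hGreg : ∀ Q, Q ≠ Qi → OrdGE Q 0 (G z h) := fun Q hQ => by
      have := ((ordGE_algebraMap (v := Q) a)).add (hG₀ Q hQ)
      rwa [ha, sub_add_cancel] at this
    have hH : (C z h).H ∈ riemannRochSpace (0 : Divisor k Fb) := by
      refine mem_riemannRochSpace_iff.2 fun Q => ?_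
      have hQ0 : OrdGE Q 0 (C z h).H := by
        rcases eq_or_ne Q Qi with rfl | hQ
        · exact hHi z h
        · have hl' : OrdGE Q 0 (G z h ^ l) := by
            have := hGreg Q hQ
            rw [ordGE_zero_iff_mem] at this ⊢
            exact pow_mem this l
          have := ((hG2 z h Q hQ).sub hl').add (hGreg Q hQ)
          rwa [show (C z h).H + G z h ^ l - G z h - G z h ^ l + G z h = (C z h).H by ring] at this
      exact hQ0.imp_right fun h => by simpa using h
    rw [riemannRochSpace_zero_eq, Submodule.mem_span_singleton] at hH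
    obtain ⟨b, hb⟩ := hH
    exact (C z h).H_nc ⟨b, by rw [← hb, Algebra.smul_def, mul_one]⟩
  refine ⟨ψ, fun z z' heq => ?_, hfix⟩
  by_contra hzz
  by_cases hz : z = 0
  · subst hz
    simp only [ψ, dif_pos, dif_neg (Ne.symm hzz)] at heq
    exact hne _ _ heq.symm
  by_cases hz' : z' = 0
  · subst hz'
    simp only [ψ, dif_pos, dif_neg hz] at heq
    exact hne _ _ heq
  simp only [ψ, dif_neg hz, dif_neg hz'] at heq
  set w := z - z' with hw
  have hw0 : w ≠ 0 := sub_ne_zero.2 hzz
  set C₁ := C z hz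
  set C₂ := C z' hz'
  set C₃ := C w hw0
  refine hne w hw0 ?_
  -- the relation among the three functions
  have hp : C₁.E - C₂.E - C₃.E + B.S ∈ Divisor.principal (K := K) (F := F) := by
    have h3 : IsRep (z : Pic0 K F) ((C₂.E - B.S) + (C₃.E - B.S)) := by
      have := C₂.isRep.add C₃.isRep
      have e : ((z' : W) : Pic0 K F) + (w : Pic0 K F) = z := by simp [w]
      obtain ⟨hm, he⟩ := this
      exact ⟨hm, e.symm.trans he⟩
    have := C₁.isRep.sub_mem h3
    rwa [show C₁.E - B.S - (C₂.E - B.S + (C₃.E - B.S)) = C₁.E - C₂.E - C₃.E + B.S by abel] at this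
  obtain ⟨g₀, hg₀, hdiv₀⟩ := hp
  have hdg₀ : divOf (K := K) g₀ = C₁.E - C₂.E - C₃.E + B.S := Finsupp.ext fun v => by
    rw [divOf_apply hg₀, hdiv₀ v]
  obtain ⟨cg, hcg, hgr⟩ := exists_smul_redsTo_one (d := d) hg₀ (by
    rw [hdg₀, map_add, map_sub, map_sub, C₁.red_eq, C₂.red_eq, C₃.red_eq]; abel)
  set g := cg • g₀
  have hg0 : g ≠ 0 := hgr.ne_zero one_ne_zero
  have hdg : divOf (K := K) g = C₁.E - C₂.E - C₃.E + B.S := Finsupp.ext fun v => by
    rw [divOf_apply hg0, ord_const_smul v hcg hg₀, ← divOf_apply (K := K) hg₀ v, hdg₀]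
  -- `f₁ / (f₂ f₃) = r g ^ l`
  set X := C₁.f / (C₂.f * C₃.f)
  have hX0 : X ≠ 0 := div_ne_zero C₁.f_ne (mul_ne_zero C₂.f_ne C₃.f_ne)
  obtain ⟨r, hr⟩ : ∃ r : K, algebraMap K F r * g ^ l = X := by
    have hgl : g ^ l ≠ 0 := pow_ne_zero _ hg0
    have hmem : X / g ^ l ∈ riemannRochSpace (0 : Divisor K F) := by
      rw [mem_riemannRochSpace_iff]
      intro P
      refine Or.inr (le_of_eq ?_)
      have e1 := congrArg (fun D => D P) C₁.div_eq
      have e2 := congrArg (fun D => D P) C₂.div_eq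
      have e3 := congrArg (fun D => D P) C₃.div_eq
      have e4 := congrArg (fun D => D P) hdg
      simp only [divOf_apply C₁.f_ne, divOf_apply C₂.f_ne, divOf_apply C₃.f_ne, divOf_apply hg0,
        Finsupp.smul_apply, Finsupp.sub_apply, Finsupp.add_apply, smul_eq_mul] at e1 e2 e3 e4
      rw [Curve.ord_div _ hX0 hgl, Curve.ord_div _ C₁.f_ne (mul_ne_zero C₂.f_ne C₃.f_ne),
        P.ord_mul C₂.f_ne C₃.f_ne, ← zpow_natCast, Place.ord_zpow, e1, e2, e3, e4]
      simp
      ring
    rw [riemannRochSpace_zero_eq, Submodule.mem_span_singleton] at hmem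
    obtain ⟨r, hr⟩ := hmem
    refine ⟨r, ?_⟩
    rw [Algebra.smul_def, mul_one, eq_div_iff hgl] at hr
    exact hr
  set P := algebraMap K F ((ϖ : K) ^ l)
  set Y := (C₁.h - C₂.h - C₃.h - P * C₂.h * C₃.h) / (C₂.f * C₃.f)
  have hf23 : d.RedsTo (C₂.f * C₃.f) 1 := by simpa using C₂.redsTo_f.mul C₃.redsTo_f
  have hP : d.RedsTo P 0 := by
    have := redsTo_algebraMap (d := d) (ϖ ^ l)
    rwa [map_pow, hπϖ, zero_pow hl.ne_zero, map_zero] at this
  have hYr : d.RedsTo Y (C₁.H - C₂.H - C₃.H) := by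
    have := redsTo_div (((C₁.redsTo_h.sub C₂.redsTo_h).sub C₃.redsTo_h).sub
      ((hP.mul C₂.redsTo_h).mul C₃.redsTo_h)) hf23 one_ne_zero
    simpa using this
  have hXY : X = 1 + P * Y := by
    have h1 : C₁.f = 1 + P * C₁.h := by rw [C₁.f_eq, hCe]; rfl
    have h2 : C₂.f = 1 + P * C₂.h := by rw [C₂.f_eq, hCe]; rfl
    have h3 : C₃.f = 1 + P * C₃.h := by rw [C₃.f_eq, hCe]; rfl
    have hne23 : C₂.f * C₃.f ≠ 0 := mul_ne_zero C₂.f_ne C₃.f_ne
    simp only [X, Y]
    rw [mul_div, ← sub_eq_iff_eq_add', div_sub_one hne23]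
    rw [h1, h2, h3]
    ring
  obtain ⟨U, c, hU, hYU⟩ := exists_artinSchreier_of_pow hl hϖ hπϖ hϖ0 hgr hYr
    (hr.trans hXY) (D := C₂.E + C₃.E) (add_nonneg C₂.nonneg C₃.nonneg) (by
      rw [mem_L_iff_divOf hg0, hdg,
        show C₁.E - C₂.E - C₃.E + B.S + (C₂.E + C₃.E) = C₁.E + B.S by abel]
      exact add_nonneg C₁.nonneg B.nonneg)
  have hUi : OrdGE Qi 0 U := by
    have := mem_riemannRochSpace_iff.1 hU Qi
    rw [map_add, C₂.red_eq, C₃.red_eq, Finsupp.add_apply, hQi, add_zero, neg_zero] at this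
    exact this
  set D := G z hz - G z' hz' - G w hw0 + U
  have hDreg : ∀ Q, Q ≠ Qi → OrdGE Q 0 D := fun Q hQ => by
    have := Fact.mk hl
    have : CharP Fb l := charP_of_injective_algebraMap (algebraMap k Fb).injective l
    refine ordGE_of_artinSchreier hl ?_
    have := (((hG2 z hz Q hQ).sub (hG2 z' hz' Q hQ)).sub (hG2 w hw0 Q hQ)).sub
      (ordGE_algebraMap (v := Q) c)
    convert this using 1
    simp only [D]
    rw [add_pow_char, sub_pow_char, sub_pow_char]
    linear_combination -hYU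
  have hD := hfree D hDreg
  simp only [D, map_add, map_sub, hreg U hUi, add_zero, heq, sub_self, zero_sub, neg_eq_zero] at hD
  exact hD

end FermatAgent.Mazur.Descent

end
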