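import Fermat.Agent.Mazur.Descent.Kernel.Canon

/-!
# The shape of the canonical function in a disc of the base divisor

In the disc over a point `Q` of the base divisor the function of a canonical datum is
`((t - δ)/t) ^ l` times a unit, so that `H - a / tb ^ l - b / tb` is regular at `Q` with
`a = π ((-δ) ^ l / e)`, `b = π (-l δ / e)`. Hence `v e ≥ v (ϖ ^ l)`, `ϖ ^ (l - 1) = -l`, and
in the case of equality `H + W ^ l - W` is regular at `Q` for some `W` with at most a simple pole.
-/

set_option autoImplicit false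

noncomputable section

open AlgebraicCurve FermatAgent.Curve FermatAgent.Curve.RR FermatAgent.Curve.Diff
open FermatAgent.JacCharts FermatAgent.JacCharts.GoodReductionDatum

namespace FermatAgent.Mazur.Descent

variable {K : Type*} [Field K] {A : ValuationSubring K} {k : Type*} [Field k] {π : A →+* k}
variable {F : Type*} [Field F] [Algebra K F] {Fb : Type*} [Field Fb] [Algebra k Fb]
variable [RRSetting K F] [RRSetting k Fb]
variable {d : GoodReductionDatum A π F Fb}

omit [RRSetting K F] [RRSetting k Fb] in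
theorem exists_unique_disc {D : Divisor K F} (h : 0 ≤ D) {Q : Place k Fb}
    (hQ : d.redDiv D Q = 1) :
    ∃ P, d.place P = Q ∧ D P = 1 ∧ ∀ P', d.place P' = Q → P' ≠ P → D P' = 0 := by
  classical
  have hnn : ∀ P, d.place P = Q → 0 ≤ D P := fun P _ => by
    simpa using Finsupp.le_def.1 h P
  obtain ⟨P, hP, hP0⟩ : ∃ P, d.place P = Q ∧ D P ≠ 0 := by
    by_contra! hall
    rw [redDiv_apply_eq_sum, Finset.sum_eq_zero fun P hP => hall P (Finset.mem_filter.1 hP).2]
      at hQ
    exact zero_ne_one hQ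
  refine ⟨P, hP, ?_, fun P' hP' hne => ?_⟩
  · have := sum_le_redDiv hnn {P} (by simpa using hP)
    rw [Finset.sum_singleton, hQ] at this
    have := hnn P hP
    omega
  · have := sum_le_redDiv hnn {P, P'} (by simp [hP, hP'])
    rw [Finset.sum_pair (Ne.symm hne), hQ] at this
    have := hnn P hP
    have := hnn P' hP'
    omega

omit [RRSetting K F] [RRSetting k Fb] in
/-- Two polar monomials of orders `l` and `1` cannot cancel. -/
theorem eq_zero_of_ordGE_polar {Q : Place k Fb} {tb : Fb} (htb : Q.ord tb = 1) {l : ℕ}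
    (hl : 2 ≤ l) {a b : k}
    (h : OrdGE Q 0 (algebraMap k Fb a * tb⁻¹ ^ l + algebraMap k Fb b * tb⁻¹)) :
    a = 0 ∧ b = 0 := by
  have htb0 : tb ≠ 0 := fun h0 => by rw [h0, Place.ord_zero] at htb; exact zero_ne_one htb
  have h1 : OrdGE Q 1 tb := Or.inr htb.ge
  have hpow : ∀ n : ℕ, OrdGE Q (n : ℤ) (tb ^ n) := fun n => Or.inr (by
    rw [← zpow_natCast, Place.ord_zpow, htb, mul_one])
  have ha : a = 0 := by
    by_contra ha
    have h2 := (h.mul (hpow l)).mono (m' := 1) (by omega)
    obtain ⟨m, rfl⟩ : ∃ m, l = m + 1 := ⟨l - 1, by omega⟩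
    have e : (algebraMap k Fb a * tb⁻¹ ^ (m + 1) + algebraMap k Fb b * tb⁻¹) * tb ^ (m + 1) =
        algebraMap k Fb a + algebraMap k Fb b * tb ^ m := by
      rw [add_mul, mul_assoc, ← mul_pow, inv_mul_cancel₀ htb0, one_pow, mul_one, pow_succ]
      field_simp
    rw [e] at h2
    have h3 : OrdGE Q 1 (algebraMap k Fb b * tb ^ m) :=
      ((ordGE_algebraMap b).mul (hpow m)).mono (by omega)
    have h4 := h2.sub h3
    rw [add_sub_cancel_right] at h4
    exact not_ordGE_one_const ha h4
  refine ⟨ha, ?_⟩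
  by_contra hb
  rw [ha, map_zero, zero_mul, zero_add] at h
  have h2 := h.mul h1
  rw [mul_assoc, inv_mul_cancel₀ htb0, mul_one, zero_add] at h2
  exact not_ordGE_one_const hb h2

/-- The valuation of a middle term of the binomial expansion is small. -/
theorem val_choose_mul_pow_lt {l : ℕ} (hl : l.Prime) {δ θ : K} (hθ : θ ≠ 0)
    (hδ : A.valuation δ < 1) (hlδ : A.valuation ((l : K) * δ) ≤ A.valuation θ) {i : ℕ}
    (h1 : 1 < i) (h2 : i < l) :
    A.valuation ((Nat.choose l i : K) * (-δ) ^ i) < A.valuation θ := by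
  obtain ⟨m, hm⟩ := hl.dvd_choose_self (by omega) h2
  obtain ⟨j, rfl⟩ : ∃ j, i = j + 2 := ⟨i - 2, by omega⟩
  have e : (Nat.choose l (j + 2) : K) * (-δ) ^ (j + 2) =
      ((l : K) * δ) * (δ * ((-1) ^ (j + 2) * δ ^ j * (m : K))) := by
    rw [hm]; push_cast; ring
  rw [e, map_mul]
  have hmem : (-1) ^ (j + 2) * δ ^ j * (m : K) ∈ A :=
    mul_mem (mul_mem (pow_mem (neg_mem (one_mem _)) _)
      (pow_mem ((A.valuation_le_one_iff _).1 hδ.le) _)) (natCast_mem A m)
  have hlt : A.valuation (δ * ((-1) ^ (j + 2) * δ ^ j * (m : K))) < 1 := by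
    rw [map_mul]
    exact lt_of_le_of_lt (mul_le_of_le_one_right' ((A.valuation_le_one_iff _).2 hmem)) hδ
  rcases eq_or_ne (A.valuation ((l : K) * δ)) 0 with h0 | h0
  · rw [h0, zero_mul]
    exact zero_lt_iff.2 ((Valuation.ne_zero_iff _).2 hθ)
  · calc A.valuation ((l : K) * δ) * A.valuation (δ * ((-1) ^ (j + 2) * δ ^ j * (m : K)))
        < A.valuation ((l : K) * δ) * 1 := by
          exact mul_lt_mul_of_pos_left hlt (zero_lt_iff.2 h0)
      _ ≤ A.valuation θ := by rw [mul_one]; exact hlδ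

variable [IsAlgClosed K] [IsFunctionField1 K F]
variable {Pinf : Place K F} {B : Base d Pinf} {l : ℕ} {z : Pic0 K F}

omit [IsAlgClosed K] [IsFunctionField1 K F] in
/-- A local parameter at a point of the reduced base divisor without poles in its disc. -/
theorem exists_parameter (B : Base d Pinf) {Q : Place k Fb} (hQ : d.redDiv B.S Q = 1) :
    ∃ (t : F) (tb : Fb), d.RedsTo t tb ∧ Q.ord tb = 1 ∧
      ∀ P : Place K F, d.place P = Q → OrdGE P 0 t := by
  classical
  have hne : Q ≠ d.place Pinf := fun h => by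
    rw [h, B.avoid] at hQ
    exact zero_ne_one hQ
  set n := 2 * genusFF K F + 1 with hn
  set G : Divisor K F := Finsupp.single Pinf (n : ℤ)
  have hred : d.redDiv G = Finsupp.single (d.place Pinf) (n : ℤ) := by
    rw [Finsupp.mapDomain.addMonoidHom_apply, Finsupp.mapDomain_single]
  obtain ⟨tb, htb, -, hord⟩ := exists_mem_ord_eq_succ (K := k) (F := Fb) (D := d.redDiv G)
    (by rw [degree_redDiv, Curve.RR.degree_single, d.genus_eq, hn]; push_cast; omega) Q
  rw [hred, Finsupp.single_eq_of_ne hne, neg_zero, zero_add] at hord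
  obtain ⟨t, ht, htr⟩ := d.exists_redsTo_of_mem_L (G := G)
    (by rw [Curve.RR.degree_single, hn]; push_cast; omega) htb
  refine ⟨t, tb, htr, hord, fun P hP => ?_⟩
  rw [mem_riemannRochSpace_iff] at ht
  refine (ht P).imp_right fun h => ?_
  have : P ≠ Pinf := fun h' => hne (by rw [← hP, h'])
  simpa [G, Finsupp.single_eq_of_ne this] using h

/-- The shape of the canonical function at a point of the base divisor. -/
theorem exists_local_shape (hl : l.Prime) [CharP k l] (C : Canon B l z) {Q : Place k Fb}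
    (hQ : d.redDiv B.S Q = 1) :
    ∃ (tb : Fb) (δ : A) (ha : (-(δ : K)) ^ l / (C.e : K) ∈ A)
      (hb : -((l : K) * δ) / (C.e : K) ∈ A),
      Q.ord tb = 1 ∧ π δ = 0 ∧
        OrdGE Q 0 (C.H - (algebraMap k Fb (π ⟨_, ha⟩) * tb⁻¹ ^ l +
          algebraMap k Fb (π ⟨_, hb⟩) * tb⁻¹)) := by
  classical
  obtain ⟨t, tb, ht, htb, htreg⟩ := exists_parameter B hQ
  obtain ⟨PS, hPS, hS1, hS0⟩ := exists_unique_disc B.nonneg hQ
  obtain ⟨PE, hPE, hE1, hE0⟩ := exists_unique_disc C.nonneg (by rw [C.red_eq]; exact hQ)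
  obtain ⟨cS, hcS, htS, htS0, hordS⟩ := exists_shift ht htb htreg hPS
  obtain ⟨cE, hcE, htE, htE0, hordE⟩ := exists_shift ht htb htreg hPE
  have htb0 : tb ≠ 0 := fun h0 => by rw [h0, Place.ord_zero] at htb; exact zero_ne_one htb
  set tS := t - algebraMap K F (cS : K)
  set tE := t - algebraMap K F (cE : K)
  set δ : A := cE - cS
  have hπδ : π δ = 0 := by rw [map_sub, hcE, hcS, sub_self]
  have hvδ : A.valuation (δ : K) < 1 := (pi_eq_zero_iff_val_lt (d := d) δ).1 hπδ
  set y : F := algebraMap K F (-(δ : K)) * tS⁻¹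
  set r : F := (1 + y) ^ l
  have hy : tE / tS = 1 + y := by
    rw [eq_comm, eq_div_iff htS0, add_mul, one_mul, mul_assoc, inv_mul_cancel₀ htS0, mul_one]
    simp only [δ, tE, tS, AddSubgroupClass.coe_sub, map_neg, map_sub]
    ring
  have hr0 : r ≠ 0 := pow_ne_zero _ (hy ▸ div_ne_zero htE0 htS0)
  have hr1 : d.RedsTo r 1 := by
    have := redsTo_pow (redsTo_div htE htS htb0) l
    rwa [div_self htb0, one_pow, hy] at this
  -- `f / r` has neither zero nor pole in the disc
  have hunit : ∀ P : Place K F, d.place P = Q → P.ord (C.f / r) = 0 := by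
    intro P hP
    have hf : P.ord C.f = (l : ℤ) * (C.E P - B.S P) := by
      rw [← divOf_apply (K := K) C.f_ne P, C.div_eq]
      simp
    have hr : P.ord r = (l : ℤ) * (P.ord tE - P.ord tS) := by
      simp only [r]
      rw [← zpow_natCast, Place.ord_zpow, ← hy, Curve.ord_div _ htE0 htS0]
    have h1 : P.ord tE = C.E P := by
      rcases eq_or_ne P PE with h | h
      · rw [(hordE P hP).2.1 h, h, hE1]
      · rw [(hordE P hP).2.2 h, hE0 P hP h]
    have h2 : P.ord tS = B.S P := by
      rcases eq_or_ne P PS with h | h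
      · rw [(hordS P hP).2.1 h, h, hS1]
      · rw [(hordS P hP).2.2 h, hS0 P hP h]
    rw [Curve.ord_div _ C.f_ne hr0, hf, hr, h1, h2, sub_self]
  have key : ∀ θ : K, θ ≠ 0 → A.valuation (C.e : K) ≤ A.valuation θ →
      A.valuation ((l : K) * δ) ≤ A.valuation θ → A.valuation ((δ : K) ^ l) ≤ A.valuation θ →
      ∃ (he : (C.e : K) / θ ∈ A) (ha : (-(δ : K)) ^ l / θ ∈ A) (hb : -((l : K) * δ) / θ ∈ A),
        OrdGE Q 0 (algebraMap k Fb (π ⟨_, he⟩) * C.H -
          (algebraMap k Fb (π ⟨_, ha⟩) * tb⁻¹ ^ l + algebraMap k Fb (π ⟨_, hb⟩) * tb⁻¹)) := by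
    intro θ hθ he hlδ hδl
    have hdiv : ∀ {x : K}, A.valuation x ≤ A.valuation θ → x / θ ∈ A := fun {x} hx => by
      rw [← A.valuation_le_one_iff, map_div₀]
      exact div_le_one_of_le₀ hx zero_le
    have ha : (-(δ : K)) ^ l / θ ∈ A := hdiv (by
      rw [neg_pow, map_mul, map_pow _ (-1 : K), Valuation.map_neg, map_one, one_pow, one_mul]
      exact hδl)
    have hb : -((l : K) * δ) / θ ∈ A := hdiv (by rw [Valuation.map_neg]; exact hlδ)
    refine ⟨hdiv he, ha, hb, ?_⟩
    have hc : ∀ i ∈ Finset.Icc 1 l, (Nat.choose l i : K) * (-(δ : K)) ^ i / θ ∈ A := by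
      intro i hi
      rw [Finset.mem_Icc] at hi
      rcases eq_or_ne i 1 with rfl | h1
      · simpa using hb
      rcases eq_or_ne i l with rfl | h2
      · simpa using ha
      exact hdiv (val_choose_mul_pow_lt hl hθ hvδ hlδ (by omega) (by omega)).le
    let c : ℕ → A := fun i => if hi : i ∈ Finset.Icc 1 l then ⟨_, hc i hi⟩ else 0
    set T : F := ∑ i ∈ Finset.Icc 1 l, algebraMap K F (c i : K) * tS⁻¹ ^ i
    have hT : d.RedsTo T (∑ i ∈ Finset.Icc 1 l, algebraMap k Fb (π (c i)) * tb⁻¹ ^ i) :=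
      RedsTo.sum _ fun i _ => (redsTo_algebraMap (c i)).mul (redsTo_pow (redsTo_inv htS htb0) i)
    have hsum : ∑ i ∈ Finset.Icc 1 l, algebraMap k Fb (π (c i)) * tb⁻¹ ^ i =
        algebraMap k Fb (π ⟨_, ha⟩) * tb⁻¹ ^ l + algebraMap k Fb (π ⟨_, hb⟩) * tb⁻¹ := by
      rw [Finset.sum_eq_add l 1 (by have := hl.two_le; omega)]
      · have e1 : c 1 = ⟨_, hb⟩ := Subtype.ext (by
          simp only [c, Finset.mem_Icc, le_refl, hl.one_le, and_self, dif_pos]
          simp)
        have e2 : c l = ⟨_, ha⟩ := Subtype.ext (by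
          simp only [c, Finset.mem_Icc, le_refl, hl.one_le, and_self, dif_pos]
          simp)
        rw [e1, e2, pow_one]
      · intro i hi hne
        have hπ : π (c i) = 0 := by
          rw [pi_eq_zero_iff_val_lt (d := d)]
          simp only [c, dif_pos hi]
          rw [Finset.mem_Icc] at hi
          rw [map_div₀, div_lt_one₀ (zero_lt_iff.2 ((Valuation.ne_zero_iff _).2 hθ))]
          exact val_choose_mul_pow_lt hl hθ hvδ hlδ (by omega) (by omega)
        rw [hπ, map_zero, zero_mul]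
      · exact fun h => absurd (Finset.mem_Icc.2 ⟨hl.one_le, le_rfl⟩) h
      · exact fun h => absurd (Finset.mem_Icc.2 ⟨le_rfl, hl.one_le⟩) h
    have hr' : r = 1 + algebraMap K F θ * T := by
      have hset : Finset.range (l + 1) = insert 0 (Finset.Icc 1 l) := by
        ext i; simp only [Finset.mem_range, Finset.mem_insert, Finset.mem_Icc]; omega
      simp only [r, T]
      rw [add_comm (1 : F) y, add_pow]
      simp only [one_pow, mul_one]
      rw [hset, Finset.sum_insert (by simp), pow_zero, Nat.choose_zero_right, Nat.cast_one,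
        mul_one, Finset.mul_sum]
      refine congrArg _ (Finset.sum_congr rfl fun i hi => ?_)
      simp only [c, dif_pos hi]
      rw [← mul_assoc, ← map_mul, mul_div_cancel₀ _ hθ, map_mul, map_natCast, map_pow, mul_pow]
      ring
    set W : F := (algebraMap K F ((C.e : K) / θ) * C.h - T) * r⁻¹
    have hW : d.RedsTo W ((algebraMap k Fb (π ⟨_, hdiv he⟩) * C.H -
        ∑ i ∈ Finset.Icc 1 l, algebraMap k Fb (π (c i)) * tb⁻¹ ^ i) * (1 : Fb)⁻¹) :=
      (((redsTo_algebraMap ⟨_, hdiv he⟩).mul C.redsTo_h).sub hT).mul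
        (redsTo_inv hr1 one_ne_zero)
    rw [inv_one, mul_one, hsum] at hW
    refine ordGE_red_zero hW (fun P hP => ?_) hPS
    have e : W = algebraMap K F θ⁻¹ * (C.f / r - 1) := by
      have hθF : algebraMap K F θ ≠ 0 := (map_ne_zero _).2 hθ
      simp only [W]
      rw [C.f_eq, map_div₀, map_inv₀]
      field_simp
      rw [hr']
      ring
    rw [e]
    have hu : OrdGE P 0 (C.f / r) := Or.inr (hunit P hP).ge
    simpa using (ordGE_algebraMap θ⁻¹).mul
      (hu.sub
        (by simpa using ordGE_algebraMap (v := P) (1 : K)))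
  -- the scalar `e` dominates
  have hdom : A.valuation ((l : K) * δ) ≤ A.valuation (C.e : K) ∧
      A.valuation ((δ : K) ^ l) ≤ A.valuation (C.e : K) := by
    by_contra hcon
    set x := (l : K) * δ
    set w := (δ : K) ^ l
    obtain ⟨θ, hθv, hθ⟩ : ∃ θ : K, (A.valuation x ≤ A.valuation θ ∧
        A.valuation w ≤ A.valuation θ ∧ A.valuation (C.e : K) < A.valuation θ) ∧
        (θ = x ∨ θ = w) := by
      rcases le_total (A.valuation x) (A.valuation w) with h | h
      · exact ⟨w, ⟨h, le_rfl, not_le.1 fun h' => hcon ⟨h.trans h', h'⟩⟩, Or.inr rfl⟩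
      · exact ⟨x, ⟨le_rfl, h, not_le.1 fun h' => hcon ⟨h', h.trans h'⟩⟩, Or.inl rfl⟩
    have hθ0 : θ ≠ 0 := fun h0 => by
      have := hθv.2.2
      rw [h0, map_zero] at this
      exact not_lt_zero this
    obtain ⟨he, ha, hb, hord⟩ := key θ hθ0 hθv.2.2.le hθv.1 hθv.2.1
    have he0 : π ⟨_, he⟩ = 0 := by
      rw [pi_eq_zero_iff_val_lt (d := d), map_div₀,
        div_lt_one₀ (zero_lt_iff.2 ((Valuation.ne_zero_iff _).2 hθ0))]
      exact hθv.2.2
    rw [he0, map_zero, zero_mul, zero_sub] at hord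
    have h2 := hord.neg
    rw [neg_neg] at h2
    obtain ⟨ha0, hb0⟩ := eq_zero_of_ordGE_polar htb hl.two_le h2
    rw [pi_eq_zero_iff_val_lt (d := d), map_div₀,
      div_lt_one₀ (zero_lt_iff.2 ((Valuation.ne_zero_iff _).2 hθ0))] at ha0 hb0
    rw [neg_pow, map_mul, map_pow _ (-1 : K), Valuation.map_neg, map_one, one_pow, one_mul]
      at ha0
    rw [Valuation.map_neg] at hb0
    rcases hθ with rfl | rfl
    · exact lt_irrefl _ hb0
    · exact lt_irrefl _ ha0
  obtain ⟨he, ha, hb, hord⟩ := key _ C.e_ne le_rfl hdom.1 hdom.2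
  refine ⟨tb, δ, ha, hb, htb, hπδ, ?_⟩
  have h1 : π ⟨_, he⟩ = 1 := by
    rw [show (⟨_, he⟩ : A) = 1 from Subtype.ext (div_self C.e_ne), map_one]
  rwa [h1, map_one, one_mul] at hord

omit [IsAlgClosed K] [IsFunctionField1 K F] [RRSetting K F] in
/-- A function with at most the poles of the base divisor is constant. -/
theorem mem_range_of_simple (B : Base d Pinf) {W : Fb} (hW : W ∈ riemannRochSpace (d.redDiv B.S)) :
    W ∈ Set.range (algebraMap k Fb) := by
  have h1 : Submodule.span k {(1 : Fb)} = riemannRochSpace (d.redDiv B.S) := by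
    refine Submodule.eq_of_le_of_finrank_le ?_ ?_
    · rw [Submodule.span_singleton_le_iff_mem]
      exact one_mem_L (redDiv_nonneg B.nonneg)
    · rw [finrank_span_singleton one_ne_zero]
      exact B.ell_eq.le
  rw [← h1, Submodule.mem_span_singleton] at hW
  obtain ⟨a, rfl⟩ := hW
  exact ⟨a, by rw [Algebra.smul_def, mul_one]⟩

omit [IsAlgClosed K] [IsFunctionField1 K F] [RRSetting k Fb] in
/-- A canonical `H` is regular outside the base divisor. -/
theorem ordGE_of_notMem (C : Canon B l z) {Q : Place k Fb} (hQ : d.redDiv B.S Q ≠ 1) :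
    OrdGE Q 0 C.H := by
  have h0 : d.redDiv B.S Q = 0 := by
    have h1 := B.le_one Q
    have h2 : 0 ≤ d.redDiv B.S Q := by
      simpa using Finsupp.le_def.1 (redDiv_nonneg (d := d) B.nonneg) Q
    omega
  have h := (mem_riemannRochSpace_iff.1 C.H_mem) Q
  refine h.imp_right fun h' => ?_
  rwa [Finsupp.smul_apply, h0, smul_zero, neg_zero] at h'

variable {ϖ : K}

/-- Every scalar of a canonical datum has valuation at least that of `ϖ ^ l`. -/
theorem val_pow_le (hl : l.Prime) [CharP k l] (hϖ : ϖ ^ (l - 1) = -(l : K)) (C : Canon B l z) :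
    A.valuation (ϖ ^ l) ≤ A.valuation (C.e : K) := by
  by_contra hcon
  rw [not_le] at hcon
  refine C.H_nc (mem_range_of_simple B (mem_riemannRochSpace_iff.2 fun Q => ?_))
  have hnn : 0 ≤ d.redDiv B.S Q := by
    simpa using Finsupp.le_def.1 (redDiv_nonneg (d := d) B.nonneg) Q
  rcases eq_or_ne (d.redDiv B.S Q) 1 with hQ | hQ
  · obtain ⟨tb, δ, ha, hb, htb, hπδ, hord⟩ := exists_local_shape hl C hQ
    have ha0 : π ⟨_, ha⟩ = 0 := by
      rw [pi_eq_zero_iff_val_lt (d := d)]
      refine lt_of_le_of_ne ((A.valuation_le_one_iff _).2 ha) fun h1 => ?_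
      have hev : A.valuation (C.e : K) ≠ 0 := (Valuation.ne_zero_iff _).2 C.e_ne
      rw [map_div₀, div_eq_one_iff_eq hev, neg_pow, map_mul, map_pow _ (-1 : K), Valuation.map_neg,
        map_one, one_pow, one_mul, map_pow] at h1
      have h2 := (A.valuation_le_one_iff _).2 hb
      rw [map_div₀, div_le_one₀ (zero_lt_iff.2 hev), Valuation.map_neg, map_mul,
        ← Valuation.map_neg A.valuation (l : K), ← hϖ, map_pow] at h2
      rw [← h1, map_pow] at hcon
      have hlt : A.valuation (δ : K) < A.valuation ϖ :=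
        lt_of_pow_lt_pow_left₀ l zero_le hcon
      have h3 : A.valuation (δ : K) ^ l < A.valuation ϖ ^ (l - 1) * A.valuation (δ : K) := by
        have hδ0 : 0 < A.valuation (δ : K) := zero_lt_iff.2 fun h0 => hev (by
          rw [← h1, h0, zero_pow hl.ne_zero])
        calc A.valuation (δ : K) ^ l = A.valuation (δ : K) ^ (l - 1) * A.valuation (δ : K) := by
              rw [← pow_succ, Nat.sub_add_cancel hl.one_le]
          _ < _ := mul_lt_mul_of_pos_right
              (pow_lt_pow_left₀ hlt zero_le (by have := hl.two_le; omega)) hδ0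
      rw [← h1] at h2
      exact absurd h3 (not_lt.2 h2)
    rw [ha0, map_zero, zero_mul, zero_add] at hord
    have hb1 : OrdGE Q (-1) (algebraMap k Fb (π ⟨_, hb⟩) * tb⁻¹) := by
      simpa using (ordGE_algebraMap _).mul
        (Or.inr (by rw [Place.ord_inv, htb]) : OrdGE Q (-1) tb⁻¹)
    have := (hord.mono (m' := -1) (by norm_num)).add hb1
    rw [sub_add_cancel] at this
    exact this.imp_right fun h => by rw [hQ]; exact h
  · exact ((ordGE_of_notMem C hQ).mono (m' := -d.redDiv B.S Q) (by omega)).imp_right fun h => h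

/-- For the scalar `ϖ ^ l` the polar part of `H` is of Artin–Schreier type. -/
theorem exists_artinSchreier (hl : l.Prime) [CharP k l] (hϖ : ϖ ^ (l - 1) = -(l : K))
    (C : Canon B l z) (he : (C.e : K) = ϖ ^ l) {Q : Place k Fb} (hQ : d.redDiv B.S Q = 1) :
    ∃ W : Fb, OrdGE Q (-1) W ∧ OrdGE Q 0 (C.H + W ^ l - W) := by
  obtain ⟨tb, δ, ha, hb, htb, hπδ, hord⟩ := exists_local_shape hl C hQ
  have hϖ0 : ϖ ≠ 0 := fun h0 => C.e_ne (by rw [he, h0, zero_pow hl.ne_zero])
  have hc : (δ : K) / ϖ ∈ A := by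
    have h1 := (A.valuation_le_one_iff _).2 ha
    rw [he, map_div₀, neg_pow, map_mul, map_pow _ (-1 : K), Valuation.map_neg, map_one, one_pow,
      one_mul, map_pow, map_pow, ← div_pow] at h1
    rw [← A.valuation_le_one_iff, map_div₀]
    exact (pow_le_one_iff_of_nonneg zero_le hl.ne_zero).1 h1
  set c : k := π ⟨_, hc⟩
  have e1 : π ⟨_, hb⟩ = c := by
    refine congrArg π (Subtype.ext ?_)
    show -((l : K) * δ) / (C.e : K) = δ / ϖ
    rw [he, show -((l : K) * δ) = ϖ ^ (l - 1) * δ by rw [hϖ]; ring,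
      show ϖ ^ l = ϖ ^ (l - 1) * ϖ by rw [← pow_succ, Nat.sub_add_cancel hl.one_le],
      mul_div_mul_left _ _ (pow_ne_zero _ hϖ0)]
  have e2 : π ⟨_, ha⟩ = -c ^ l := by
    have : (⟨_, ha⟩ : A) = (-⟨_, hc⟩) ^ l := Subtype.ext (by
      show (-(δ : K)) ^ l / (C.e : K) = (-((δ : K) / ϖ)) ^ l
      rw [he, ← neg_div, div_pow])
    have hF : Fact l.Prime := Fact.mk hl
    rw [this, map_pow, map_neg, neg_pow, neg_one_pow_char k l, neg_one_mul]
  refine ⟨algebraMap k Fb c * tb⁻¹, ?_, ?_⟩
  · simpa using (ordGE_algebraMap c).mul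
      (Or.inr (by rw [Place.ord_inv, htb]) : OrdGE Q (-1) tb⁻¹)
  · rw [e1, e2] at hord
    convert hord using 1
    rw [map_neg, map_pow, mul_pow]
    ring

end FermatAgent.Mazur.Descent

end
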