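import Fermat.Agent.ModCurve.Points.Infinity
import Fermat.Agent.ModCurve.Forms.LevelOne
import Fermat.Prelude.Thm_ModularCurve_coeff_jqModC_pow_of_lt
import Fermat.Prelude.Thm_ModularCurve_coeff_jqModC_pow_self
import Mathlib.NumberTheory.ModularForms.Derivative

/-!
# Weight two functions of level one, meromorphic at `i∞`

The derivative `D = q d/dq` on functions meromorphic at `i∞`, and the vanishing of the constant
term of a weakly holomorphic form of weight two and level one.
-/

set_option autoImplicit false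

noncomputable section

open UpperHalfPlane hiding I
open Filter Topology Function
open scoped Real MatrixGroups ModularForm Manifold

namespace FermatAgent.Mazur.Descent.Pair

open FermatAgent.ModFun (cuspRing qLaurent qLaurentHom toLS periodic_iff IsTame
  qLaurent_of_bounded analyticAt_cuspFunction_of_mem)
open Derivative

local notation "𝕢" => Periodic.qParam

/-- A periodic function whose cusp function has a limit at `0` is bounded at `i∞`. -/
theorem isBounded_of_orderNonneg {f : ℍ → ℂ} (hper : ∀ τ : ℍ, f ((1 : ℝ) +ᵥ τ) = f τ)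
    (hm : MeromorphicAt (cuspFunction 1 f) 0) (ho : 0 ≤ meromorphicOrderAt (cuspFunction 1 f) 0) :
    IsBoundedAtImInfty f := by
  obtain ⟨c, hc⟩ := tendsto_nhds_of_meromorphicOrderAt_nonneg hm ho
  have ht : Tendsto (fun τ : ℍ => 𝕢 1 (τ : ℂ)) atImInfty (𝓝[≠] 0) :=
    tendsto_nhdsWithin_iff.2 ⟨qParam_tendsto_atImInfty one_pos,
      Eventually.of_forall fun τ => Complex.exp_ne_zero _⟩
  have h1 : Tendsto f atImInfty (𝓝 c) := (hc.comp ht).congr fun τ =>
    UpperHalfPlane.eq_cuspFunction τ one_ne_zero (periodic_iff.mpr hper)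
  exact h1.isBigO_one ℝ

theorem isBounded_of_coeff_neg {f : ℍ → ℂ} (hf : f ∈ cuspRing)
    (h : ∀ i : ℤ, i < 0 → (qLaurent f).coeff i = 0) : IsBoundedAtImInfty f := by
  rcases eq_or_ne f 0 with rfl | hf0
  · exact const_boundedAtFilter _ 0
  refine isBounded_of_orderNonneg hf.2.1
    (FermatAgent.ModCurve.Points.meromorphicAt_cuspFunction hf) ?_
  rw [FermatAgent.ModCurve.Points.meromorphicOrderAt_cuspFunction hf hf0]
  have hne : qLaurent f ≠ 0 := fun h0 => hf0 (congrArg Subtype.val
    (FermatAgent.ModFun.qLaurentHom_injective (a₁ := ⟨f, hf⟩) (a₂ := 0)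
      (by rw [map_zero]; exact h0)))
  exact WithTop.coe_le_coe.mpr (not_lt.1 fun hlt =>
    HahnSeries.coeff_order_eq_zero.not.mpr hne (h _ hlt))

theorem coeff_neg_eq_zero_of_bounded {f : ℍ → ℂ} (hf : f ∈ cuspRing) (hb : IsBoundedAtImInfty f)
    {i : ℤ} (hi : i < 0) : (qLaurent f).coeff i = 0 := by
  rw [qLaurent_of_bounded hf hb]
  exact ModularCurve.ofPowerSeries_coeff_of_neg _ hi

theorem coeff_zero_of_isZero {f : ℍ → ℂ} (hf : f ∈ cuspRing) (hz : IsZeroAtImInfty f) :
    (qLaurent f).coeff 0 = 0 := by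
  rw [qLaurent_of_bounded hf hz.isBoundedAtImInfty, toLS,
    show (0 : ℤ) = ((0 : ℕ) : ℤ) from rfl, HahnSeries.ofPowerSeries_apply_coeff,
    UpperHalfPlane.qExpansion_coeff_zero one_pos
      (analyticAt_cuspFunction_of_mem hf hz.isBoundedAtImInfty) (periodic_iff.mpr hf.2.1),
    hz.valueAtInfty_eq_zero]

theorem qLaurent_add {f g : ℍ → ℂ} (hf : f ∈ cuspRing) (hg : g ∈ cuspRing) :
    qLaurent (f + g) = qLaurent f + qLaurent g :=
  map_add qLaurentHom (⟨f, hf⟩ : cuspRing) ⟨g, hg⟩

theorem coeff_qLaurent_smul {f : ℍ → ℂ} (hf : f ∈ cuspRing) (c : ℂ) (i : ℤ) :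
    (qLaurent (c • f)).coeff i = c * (qLaurent f).coeff i := by
  have h : qLaurent (c • f) = algebraMap ℂ (LaurentSeries ℂ) c * qLaurent f := by
    have := map_mul qLaurentHom (algebraMap ℂ cuspRing c) (⟨f, hf⟩ : cuspRing)
    rw [AlgHom.commutes, ← Algebra.smul_def] at this
    exact this
  rw [h, ModularCurve.algebraMap_laurentSeries_eq_single, HahnSeries.coeff_single_zero_mul]

theorem qLaurent_pow {f : ℍ → ℂ} (hf : f ∈ cuspRing) (n : ℕ) :
    qLaurent (f ^ n) = qLaurent f ^ n :=
  map_pow qLaurentHom (⟨f, hf⟩ : cuspRing) n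

/-! ### The function `1/q` -/

/-- `τ ↦ q`. -/
def qFun : ℍ → ℂ := fun τ => 𝕢 1 (τ : ℂ)

/-- `τ ↦ 1/q`. -/
def qInv : ℍ → ℂ := fun τ => (𝕢 1 (τ : ℂ))⁻¹

theorem qParam_vadd_one (τ : ℍ) :
    𝕢 1 (((1 : ℝ) +ᵥ τ : ℍ) : ℂ) = 𝕢 1 (τ : ℂ) := by
  rw [coe_vadd, Complex.ofReal_one, add_comm]
  exact (Periodic.qParam_left_inv_mod_period one_ne_zero (τ : ℂ)).elim fun m hm => by
    simp [Periodic.qParam, mul_add, Complex.exp_add, Complex.exp_two_pi_mul_I]

theorem mdiff_qFun : MDiff qFun := by
  rw [UpperHalfPlane.mdifferentiable_iff]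
  refine (Periodic.differentiable_qParam (h := 1)).differentiableOn.congr fun z hz => ?_
  simp [qFun, ofComplex_apply_of_im_pos hz]

theorem qFun_bounded : IsBoundedAtImInfty qFun :=
  (qParam_tendsto_atImInfty one_pos).isBigO_one ℝ

theorem qFun_mem : qFun ∈ cuspRing :=
  ⟨mdiff_qFun, fun τ => qParam_vadd_one τ, .of_bounded qFun_bounded⟩

theorem qLaurent_qFun : qLaurent qFun = HahnSeries.single (1 : ℤ) 1 := by
  rw [qLaurent_of_bounded qFun_mem qFun_bounded]
  have : qExpansion 1 qFun = PowerSeries.X := by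
    ext m
    have he : cuspFunction 1 qFun =ᶠ[𝓝 0] id := by
      refine ((analyticAt_cuspFunction_of_mem qFun_mem qFun_bounded).continuousAt
        |>.eventuallyEq_nhds_iff_eventuallyEq_nhdsNE continuousAt_id).mp ?_
      filter_upwards [FermatAgent.ModCurve.Points.eventually_invQParam_im_pos] with q hq
      rw [FermatAgent.ModCurve.Points.cuspFunction_apply_of_ne _ hq.1, qFun,
        ofComplex_apply_of_im_pos hq.2, id]
      exact Periodic.qParam_right_inv one_ne_zero hq.1
    rw [UpperHalfPlane.qExpansion_coeff, (he.iteratedDeriv_eq m), iteratedDeriv_id,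
      PowerSeries.coeff_X]
    rcases m with _ | _ | m <;> simp
  rw [this, toLS, HahnSeries.ofPowerSeries_X]

theorem qInv_mem : qInv ∈ cuspRing := by
  refine ⟨?_, fun τ => by simp only [qInv, qParam_vadd_one], ⟨2 * π, ?_⟩⟩
  · rw [UpperHalfPlane.mdifferentiable_iff]
    refine DifferentiableOn.congr (f := fun z => (𝕢 1 z)⁻¹) (fun z _ =>
      ((Periodic.differentiable_qParam (h := 1) z).inv
        (Periodic.qParam_ne_zero z)).differentiableWithinAt) fun z hz => ?_
    simp [qInv, ofComplex_apply_of_im_pos hz]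
  · refine Asymptotics.IsBigO.of_bound 1 (Eventually.of_forall fun τ => le_of_eq ?_)
    rw [qInv, norm_inv, Periodic.norm_qParam, one_mul, Real.norm_of_nonneg (Real.exp_pos _).le,
      ← Real.exp_neg]
    congr 1
    rw [UpperHalfPlane.coe_im]
    ring

theorem qLaurent_qInv : qLaurent qInv = HahnSeries.single (-1 : ℤ) 1 := by
  have h : qInv * qFun = 1 := funext fun τ => inv_mul_cancel₀ (Periodic.qParam_ne_zero _)
  have h1 : qLaurent (qInv * qFun) = qLaurent qInv * qLaurent qFun :=
    map_mul qLaurentHom (⟨qInv, qInv_mem⟩ : cuspRing) ⟨qFun, qFun_mem⟩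
  have h2 : qLaurent (1 : ℍ → ℂ) = 1 := map_one qLaurentHom
  rw [h, h2, qLaurent_qFun] at h1
  calc qLaurent qInv
      = qLaurent qInv * (HahnSeries.single (1 : ℤ) 1 * HahnSeries.single (-1 : ℤ) 1) := by
        rw [HahnSeries.single_mul_single, add_neg_cancel, mul_one, HahnSeries.single_zero_one,
          mul_one]
    _ = _ := by rw [← mul_assoc, ← h1, one_mul]

/-! ### The derivative at `i∞` -/

theorem deriv_qParam_one (z : ℂ) : deriv (𝕢 1) z = 2 * π * Complex.I * 𝕢 1 z := by
  unfold Periodic.qParam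
  simp only [Complex.ofReal_one, div_one]
  rw [deriv_cexp (by fun_prop), deriv_const_mul_field, deriv_id'']
  ring

theorem normalizedDeriv_eq {F : ℍ → ℂ} (hF : F ∈ cuspRing) (hb : IsBoundedAtImInfty F) (τ : ℍ) :
    normalizedDerivOfComplex F τ =
      𝕢 1 (τ : ℂ) * deriv (cuspFunction 1 F) (𝕢 1 (τ : ℂ)) := by
  have hper := periodic_iff.mpr hF.2.1
  have he : F ∘ ofComplex =ᶠ[𝓝 (τ : ℂ)] cuspFunction 1 F ∘ 𝕢 1 := by
    filter_upwards [isOpen_upperHalfPlaneSet.mem_nhds τ.im_pos] with z hz
    have := UpperHalfPlane.eq_cuspFunction ⟨z, hz⟩ one_ne_zero hper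
    simp only [comp_apply, ofComplex_apply_of_im_pos hz]
    exact this.symm
  have hd : DifferentiableAt ℂ (cuspFunction 1 F) (𝕢 1 (τ : ℂ)) :=
    differentiableAt_cuspFunction one_pos hper hF.1 hb (Periodic.norm_qParam_lt_one one_pos τ.im_pos)
  rw [normalizedDerivOfComplex, he.deriv_eq,
    deriv_comp (τ : ℂ) hd (Periodic.differentiable_qParam (h := 1) _), deriv_qParam_one]
  have : (2 * π * Complex.I : ℂ) ≠ 0 := by simp [Real.pi_ne_zero]
  field_simp

theorem normalizedDeriv_bounded {F : ℍ → ℂ} (hF : F ∈ cuspRing) (hb : IsBoundedAtImInfty F) :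
    normalizedDerivOfComplex F ∈ cuspRing ∧
      IsZeroAtImInfty (normalizedDerivOfComplex F) := by
  have hz : IsZeroAtImInfty (normalizedDerivOfComplex F) := by
    have hd := (analyticAt_cuspFunction_of_mem hF hb).deriv.continuousAt
    have h := (qParam_tendsto_atImInfty (h := 1) one_pos).mul
      (hd.tendsto.comp (qParam_tendsto_atImInfty (h := 1) one_pos))
    rw [zero_mul] at h
    exact h.congr fun τ => (normalizedDeriv_eq hF hb τ).symm
  exact ⟨⟨normalizedDerivOfComplex_mdifferentiable hF.1,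
    fun τ => by rw [normalizedDeriv_eq hF hb, normalizedDeriv_eq hF hb, qParam_vadd_one],
    .of_bounded hz.isBoundedAtImInfty⟩, hz⟩

theorem normalizedDeriv_qInv : normalizedDerivOfComplex qInv = -qInv := by
  funext τ
  have he : qInv ∘ ofComplex =ᶠ[𝓝 (τ : ℂ)] fun z => (𝕢 1 z)⁻¹ := by
    filter_upwards [isOpen_upperHalfPlaneSet.mem_nhds τ.im_pos] with z hz
    simp [qInv, ofComplex_apply_of_im_pos hz]
  rw [normalizedDerivOfComplex, he.deriv_eq,
    deriv_fun_inv'' (Periodic.differentiable_qParam (h := 1) _) (Periodic.qParam_ne_zero _),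
    deriv_qParam_one, Pi.neg_apply, qInv]
  have : (2 * π * Complex.I : ℂ) ≠ 0 := by simp [Real.pi_ne_zero]
  have := Periodic.qParam_ne_zero (h := 1) (τ : ℂ)
  field_simp

/-- On Laurent coefficients of non-positive index, `D` multiplies by the index. -/
theorem normalizedDeriv_coeff (n : ℕ) : ∀ {f : ℍ → ℂ}, f ∈ cuspRing →
    (∀ i : ℤ, i < -(n : ℤ) → (qLaurent f).coeff i = 0) →
    normalizedDerivOfComplex f ∈ cuspRing ∧ ∀ i : ℤ, i ≤ 0 →
      (qLaurent (normalizedDerivOfComplex f)).coeff i = i * (qLaurent f).coeff i := by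
  induction n with
  | zero =>
    intro f hf h
    have hb := isBounded_of_coeff_neg hf (by simpa using h)
    obtain ⟨hm, hz⟩ := normalizedDeriv_bounded hf hb
    refine ⟨hm, fun i hi => ?_⟩
    rcases hi.lt_or_eq with hi | rfl
    · rw [coeff_neg_eq_zero_of_bounded hm hz.isBoundedAtImInfty hi,
        coeff_neg_eq_zero_of_bounded hf hb hi, mul_zero]
    · rw [coeff_zero_of_isZero hm hz, Int.cast_zero, zero_mul]
  | succ n ih =>
    intro f hf h
    set c := (qLaurent f).coeff (-((n : ℤ) + 1)) with hc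
    set P : ℍ → ℂ := qInv ^ (n + 1) with hP
    have hPm : P ∈ cuspRing := pow_mem qInv_mem _
    have hPL : qLaurent P = HahnSeries.single (-((n : ℤ) + 1)) 1 := by
      rw [hP, qLaurent_pow qInv_mem, qLaurent_qInv, HahnSeries.single_pow, one_pow]
      simp
    set g : ℍ → ℂ := f + (-c) • P with hg
    have hgm : g ∈ cuspRing := add_mem hf (Subalgebra.smul_mem _ hPm _)
    have hgL : ∀ i, (qLaurent g).coeff i = (qLaurent f).coeff i + -c * (qLaurent P).coeff i := by
      intro i
      rw [hg, qLaurent_add hf (Subalgebra.smul_mem _ hPm _), HahnSeries.coeff_add,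
        coeff_qLaurent_smul hPm]
    obtain ⟨hgd, hgc⟩ := ih hgm fun i hi => by
      rw [hgL, hPL, HahnSeries.coeff_single]
      split_ifs with he
      · subst he; simp [hc]
      · rw [h i (by push_cast; omega)]; simp
    have hDP : normalizedDerivOfComplex P = (-((n : ℂ) + 1)) • P := by
      rw [hP, normalizedDerivOfComplex_pow _ _ qInv_mem.1, normalizedDeriv_qInv]
      funext τ
      simp [pow_succ]
      ring
    have hf' : f = g + c • P := by rw [hg]; simp [add_assoc]
    have hD : normalizedDerivOfComplex f =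
        normalizedDerivOfComplex g + c • (-((n : ℂ) + 1)) • P := by
      conv_lhs => rw [hf']
      rw [normalizedDerivOfComplex_add _ _ hgm.1 (hPm.1.const_smul c),
        normalizedDerivOfComplex_smul _ _ hPm.1, hDP]
    have hP' : c • (-((n : ℂ) + 1)) • P ∈ cuspRing :=
      Subalgebra.smul_mem _ (Subalgebra.smul_mem _ hPm _) _
    refine ⟨hD ▸ add_mem hgd hP', fun i hi => ?_⟩
    rw [hD, qLaurent_add hgd hP', smul_smul, HahnSeries.coeff_add, coeff_qLaurent_smul hPm,
      hgc i hi, hgL, hPL, HahnSeries.coeff_single]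
    split_ifs with he
    · subst he; push_cast; ring
    · ring

/-! ### Weight two, level one -/

/-- The constant term of a weakly holomorphic form of weight two and level one vanishes. -/
theorem coeff_zero_eq_zero (n : ℕ) : ∀ {F : ℍ → ℂ}, F ∈ cuspRing →
    (∀ γ : SL(2, ℤ), F ∣[(2 : ℤ)] γ = F) →
    (∀ i : ℤ, i < -(n : ℤ) → (qLaurent F).coeff i = 0) → (qLaurent F).coeff 0 = 0 := by
  induction n with
  | zero =>
    intro F hF hinv h
    have hb := isBounded_of_coeff_neg hF (by simpa using h)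
    have hF0 : F = 0 := FermatAgent.ModCurve.Forms.IsMF.eq_zero_of_two
      ⟨hF.1, fun γ _ => hinv γ, fun γ => by rw [hinv γ]; exact hb⟩
    rw [hF0, show qLaurent (0 : ℍ → ℂ) = 0 from map_zero qLaurentHom, HahnSeries.coeff_zero]
  | succ n ih =>
    intro F hF hinv h
    set J : ℍ → ℂ := FermatAgent.ModFun.jFun ^ (n + 1) with hJ
    have hJm : J ∈ cuspRing := pow_mem FermatAgent.ModFun.jFun_mem_cuspRing _
    have hJL : qLaurent J = ModularCurve.jqModC ℂ ^ (n + 1) := by
      rw [hJ, qLaurent_pow FermatAgent.ModFun.jFun_mem_cuspRing, FermatAgent.ModFun.qLaurent_jFun]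
    obtain ⟨hDm, hDc⟩ := normalizedDeriv_coeff (n + 1) hJm fun i hi => by
      rw [hJL]; exact ModularCurve.coeff_jqModC_pow_of_lt ℂ hi
    set B := normalizedDerivOfComplex J with hB
    have hBinv : ∀ γ : SL(2, ℤ), B ∣[(2 : ℤ)] γ = B := fun γ => by
      have hJ0 : J ∣[(0 : ℤ)] γ = J := by
        funext τ
        rw [ModularForm.SL_slash_apply, hJ, Pi.pow_apply, Pi.pow_apply,
          FermatAgent.ModFun.jFun_smul, neg_zero, zpow_zero, mul_one]
      have := normalizedDerivOfComplex_SL_slash (k := 0) hJm.1 (γ := γ)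
      rw [hJ0] at this
      funext τ
      have h2 := congrFun this τ
      simp only [zero_add, Pi.sub_apply, Int.cast_zero, zero_mul, sub_zero] at h2
      exact h2.symm
    set c := (qLaurent F).coeff (-((n : ℤ) + 1)) / ((n : ℂ) + 1) with hc
    have hn : ((n : ℂ) + 1) ≠ 0 := Nat.cast_add_one_ne_zero n
    have hB0 : c • B ∈ cuspRing := Subalgebra.smul_mem _ hDm _
    have hL : ∀ i, (qLaurent (F + c • B)).coeff i =
        (qLaurent F).coeff i + c * (qLaurent B).coeff i := fun i => by
      rw [qLaurent_add hF hB0, HahnSeries.coeff_add, coeff_qLaurent_smul hDm]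
    have := ih (F := F + c • B) (add_mem hF hB0) (fun γ => by
      rw [SlashAction.add_slash, hinv γ, ModularForm.SL_smul_slash, hBinv γ]) fun i hi => by
        rw [hL, hDc i (by omega), hJL]
        rcases eq_or_ne i (-((n : ℤ) + 1)) with rfl | he
        · have h1 := ModularCurve.coeff_jqModC_pow_self ℂ (n + 1)
          push_cast at h1
          rw [h1, hc]
          push_cast
          field_simp
          ring
        · rw [h i (by push_cast; omega),
            ModularCurve.coeff_jqModC_pow_of_lt ℂ (by push_cast; omega)]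
          simp
    rw [hL, hDc 0 le_rfl] at this
    simpa using this

end FermatAgent.Mazur.Descent.Pair

end
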